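import Mathlib

set_option autoImplicit false

/-!
# S53 WP9: the tower of minimal good ideals

Given a predicate `G` on ideals of `Pol` ("good ideals") which is closed under finite
intersections and upward closed inside the maximal ideal `𝔐`, and a finite family `t` which
generates `𝔐` modulo `𝔪_𝒪`, `𝔐 ^ 2` and any good ideal, we construct the tower `J n` of minimal
good ideals containing `𝔐 ^ n`.
-/

namespace Fermat.Agent.S53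

open IsLocalRing

namespace Levels

section gen

variable {𝒪 : Type} [CommRing 𝒪] {Pol : Type} [CommRing Pol] [Algebra 𝒪 Pol]

/-- `Pol = 𝒪 · 1 + 𝔐`. -/
lemma lv_exists_sub_mem (𝔐 : Ideal Pol)
    (hres : Function.Surjective ((Ideal.Quotient.mk 𝔐).comp (algebraMap 𝒪 Pol))) (p : Pol) :
    ∃ a : 𝒪, p - algebraMap 𝒪 Pol a ∈ 𝔐 := by
  obtain ⟨a, ha⟩ := hres (Ideal.Quotient.mk 𝔐 p)
  refine ⟨a, ?_⟩
  rw [← Ideal.Quotient.eq]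
  exact ha.symm

/-- Elements of an ideal spanned by elements of `B ∩ 𝔐` are congruent modulo `𝔐 ^ 2` to
elements of `B ∩ 𝔐`. -/
lemma lv_span_approx (𝔐 : Ideal Pol)
    (hres : Function.Surjective ((Ideal.Quotient.mk 𝔐).comp (algebraMap 𝒪 Pol)))
    (B : Subalgebra 𝒪 Pol) (S : Set Pol) (hSB : ∀ s ∈ S, s ∈ B) (hS𝔐 : ∀ s ∈ S, s ∈ 𝔐)
    (y : Pol) (hy : y ∈ Ideal.span S) :
    ∃ b ∈ B, b ∈ 𝔐 ∧ y - b ∈ 𝔐 ^ 2 := by
  induction hy using Submodule.span_induction with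
  | mem s hs => exact ⟨s, hSB s hs, hS𝔐 s hs, by simp⟩
  | zero => exact ⟨0, B.zero_mem, 𝔐.zero_mem, by simp⟩
  | add x y _ _ hx hy =>
    obtain ⟨b₁, hb₁, hb₁', h₁⟩ := hx
    obtain ⟨b₂, hb₂, hb₂', h₂⟩ := hy
    refine ⟨b₁ + b₂, B.add_mem hb₁ hb₂, 𝔐.add_mem hb₁' hb₂', ?_⟩
    have : x + y - (b₁ + b₂) = (x - b₁) + (y - b₂) := by ring
    rw [this]
    exact Ideal.add_mem _ h₁ h₂
  | smul p y _ hy =>
    obtain ⟨b, hb, hb', h⟩ := hy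
    obtain ⟨a, ha⟩ := lv_exists_sub_mem 𝔐 hres p
    refine ⟨algebraMap 𝒪 Pol a * b, B.mul_mem (B.algebraMap_mem a) hb,
      𝔐.mul_mem_left _ hb', ?_⟩
    have : p • y - algebraMap 𝒪 Pol a * b = p * (y - b) + (p - algebraMap 𝒪 Pol a) * b := by
      simp only [smul_eq_mul]; ring
    rw [this]
    refine Ideal.add_mem _ (Ideal.mul_mem_left _ _ h) ?_
    rw [pow_two]
    exact Ideal.mul_mem_mul ha hb'

/-- Elements of `𝔞 ^ j` are congruent modulo `𝔐 ^ (j + 1)` to elements of `B ∩ 𝔐 ^ j`. -/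
lemma lv_pow_approx (𝔐 : Ideal Pol)
    (hres : Function.Surjective ((Ideal.Quotient.mk 𝔐).comp (algebraMap 𝒪 Pol)))
    (B : Subalgebra 𝒪 Pol) (𝔞 : Ideal Pol) (h𝔞 : 𝔞 ≤ 𝔐)
    (h0 : ∀ y ∈ 𝔞, ∃ b ∈ B, b ∈ 𝔐 ∧ y - b ∈ 𝔐 ^ 2) :
    ∀ (j : ℕ) (x : Pol), x ∈ 𝔞 ^ j → ∃ b ∈ B, b ∈ 𝔐 ^ j ∧ x - b ∈ 𝔐 ^ (j + 1) := by
  intro j
  induction j with
  | zero =>
    intro x _
    obtain ⟨a, ha⟩ := lv_exists_sub_mem 𝔐 hres x
    exact ⟨algebraMap 𝒪 Pol a, B.algebraMap_mem a, by simp, by simpa using ha⟩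
  | succ j ih =>
    intro x hx
    rw [pow_succ] at hx
    refine Submodule.mul_induction_on hx ?_ ?_
    · intro u hu v hv
      obtain ⟨b, hb, hb', h⟩ := ih u hu
      obtain ⟨c, hc, hc', h'⟩ := h0 v hv
      refine ⟨b * c, B.mul_mem hb hc, ?_, ?_⟩
      · rw [pow_succ]; exact Ideal.mul_mem_mul hb' hc'
      · have e : u * v - b * c = (u - b) * v + b * (v - c) := by ring
        rw [e]
        refine Ideal.add_mem _ ?_ ?_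
        · have : (u - b) * v ∈ 𝔐 ^ (j + 1) * 𝔐 := Ideal.mul_mem_mul h (h𝔞 hv)
          rwa [← pow_succ] at this
        · have : b * (v - c) ∈ 𝔐 ^ j * 𝔐 ^ 2 := Ideal.mul_mem_mul hb' h'
          rwa [← pow_add] at this
    · intro u v hu hv
      obtain ⟨b₁, hb₁, hb₁', h₁⟩ := hu
      obtain ⟨b₂, hb₂, hb₂', h₂⟩ := hv
      refine ⟨b₁ + b₂, B.add_mem hb₁ hb₂, Ideal.add_mem _ hb₁' hb₂', ?_⟩
      have : u + v - (b₁ + b₂) = (u - b₁) + (v - b₂) := by ring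
      rw [this]
      exact Ideal.add_mem _ h₁ h₂

/-- If `𝔐 ≤ 𝔞 ⊔ 𝔐 ^ 2 ⊔ J` then `𝔐 ≤ 𝔞 ⊔ 𝔐 ^ j ⊔ J` for all `j ≥ 1`. -/
lemma lv_le_sup_pow (𝔐 𝔞 J : Ideal Pol) (h : 𝔐 ≤ 𝔞 ⊔ 𝔐 ^ 2 ⊔ J) :
    ∀ j : ℕ, 𝔐 ≤ 𝔞 ⊔ 𝔐 ^ (j + 1) ⊔ J := by
  intro j
  induction j with
  | zero =>
    simp only [zero_add, pow_one]
    exact le_sup_of_le_left le_sup_right
  | succ j ih =>
    have key : 𝔐 ^ (j + 1) ≤ 𝔞 ⊔ 𝔐 ^ (j + 1 + 1) ⊔ J := by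
      calc 𝔐 ^ (j + 1) = 𝔐 ^ j * 𝔐 := pow_succ _ _
        _ ≤ 𝔐 ^ j * (𝔞 ⊔ 𝔐 ^ 2 ⊔ J) := Ideal.mul_mono_right h
        _ = 𝔐 ^ j * 𝔞 ⊔ 𝔐 ^ j * 𝔐 ^ 2 ⊔ 𝔐 ^ j * J := by
          rw [Ideal.mul_sup, Ideal.mul_sup]
        _ ≤ 𝔞 ⊔ 𝔐 ^ (j + 1 + 1) ⊔ J := by
          refine sup_le_sup (sup_le_sup Ideal.mul_le_right ?_) Ideal.mul_le_right
          rw [← pow_add]
    refine ih.trans ?_
    refine sup_le (sup_le ?_ key) le_sup_right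
    exact le_sup_of_le_left le_sup_left

/-- `(𝔞 ⊔ J) ^ j ≤ 𝔞 ^ j ⊔ J`. -/
lemma lv_sup_pow_le (𝔞 J : Ideal Pol) : ∀ j : ℕ, (𝔞 ⊔ J) ^ j ≤ 𝔞 ^ j ⊔ J := by
  intro j
  induction j with
  | zero => simp
  | succ j ih =>
    calc (𝔞 ⊔ J) ^ (j + 1) = (𝔞 ⊔ J) ^ j * (𝔞 ⊔ J) := pow_succ _ _
      _ ≤ (𝔞 ^ j ⊔ J) * (𝔞 ⊔ J) := Ideal.mul_mono_left ih
      _ = 𝔞 ^ j * 𝔞 ⊔ 𝔞 ^ j * J ⊔ (J * 𝔞 ⊔ J * J) := by
        rw [Ideal.sup_mul, Ideal.mul_sup, Ideal.mul_sup]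
      _ ≤ 𝔞 ^ (j + 1) ⊔ J := by
        refine sup_le (sup_le ?_ ?_) (sup_le ?_ ?_)
        · rw [← pow_succ]; exact le_sup_left
        · exact le_sup_of_le_right Ideal.mul_le_right
        · exact le_sup_of_le_right Ideal.mul_le_left
        · exact le_sup_of_le_right Ideal.mul_le_left

/-- **Generation.** If `𝔐 ^ n ≤ J` and `𝔐` is generated by `t` and `𝔪_𝒪` modulo `𝔐 ^ 2 + J`,
then every element of `Pol` is congruent modulo `J` to a polynomial in `t` over `𝒪`. -/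
lemma lv_generation [IsLocalRing 𝒪] (𝔐 : Ideal Pol)
    (h𝒪 : ∀ a ∈ maximalIdeal 𝒪, algebraMap 𝒪 Pol a ∈ 𝔐)
    (hres : Function.Surjective ((Ideal.Quotient.mk 𝔐).comp (algebraMap 𝒪 Pol)))
    {d : ℕ} (t : Fin d → Pol) (ht : ∀ i, t i ∈ 𝔐) (J : Ideal Pol)
    (hJ : 𝔐 ≤ Ideal.span (Set.range t) ⊔
      (maximalIdeal 𝒪).map (algebraMap 𝒪 Pol) ⊔ 𝔐 ^ 2 ⊔ J)
    (n : ℕ) (hn : 𝔐 ^ n ≤ J) (p : Pol) :
    ∃ q : MvPolynomial (Fin d) 𝒪, p - MvPolynomial.aeval t q ∈ J := by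
  classical
  set B : Subalgebra 𝒪 Pol := (MvPolynomial.aeval t : MvPolynomial (Fin d) 𝒪 →ₐ[𝒪] Pol).range
    with hB
  set 𝔞 : Ideal Pol := Ideal.span (Set.range t) ⊔ (maximalIdeal 𝒪).map (algebraMap 𝒪 Pol)
    with h𝔞def
  have h𝔞eq : 𝔞 = Ideal.span (Set.range t ∪ (algebraMap 𝒪 Pol) '' (maximalIdeal 𝒪 : Set 𝒪)) := by
    rw [h𝔞def, Ideal.span_union]
    rfl
  have hSB : ∀ s ∈ (Set.range t ∪ (algebraMap 𝒪 Pol) '' (maximalIdeal 𝒪 : Set 𝒪)), s ∈ B := by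
    rintro s (⟨i, rfl⟩ | ⟨a, _, rfl⟩)
    · exact ⟨MvPolynomial.X i, by simp⟩
    · exact B.algebraMap_mem a
  have hS𝔐 : ∀ s ∈ (Set.range t ∪ (algebraMap 𝒪 Pol) '' (maximalIdeal 𝒪 : Set 𝒪)), s ∈ 𝔐 := by
    rintro s (⟨i, rfl⟩ | ⟨a, ha, rfl⟩)
    · exact ht i
    · exact h𝒪 a ha
  have h𝔞le : 𝔞 ≤ 𝔐 := by
    rw [h𝔞eq, Ideal.span_le]
    exact hS𝔐
  have h0 : ∀ y ∈ 𝔞, ∃ b ∈ B, b ∈ 𝔐 ∧ y - b ∈ 𝔐 ^ 2 := by
    intro y hy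
    rw [h𝔞eq] at hy
    exact lv_span_approx 𝔐 hres B _ hSB hS𝔐 y hy
  -- the case `n = 0` is trivial
  rcases Nat.eq_zero_or_pos n with rfl | hpos
  · refine ⟨0, ?_⟩
    have : J = ⊤ := by simpa using hn
    rw [this]; trivial
  obtain ⟨m, rfl⟩ : ∃ m, n = m + 1 := ⟨n - 1, by omega⟩
  have h𝔐le : 𝔐 ≤ 𝔞 ⊔ J := by
    refine (lv_le_sup_pow 𝔐 𝔞 J hJ m).trans ?_
    exact sup_le (sup_le le_sup_left (hn.trans le_sup_right)) le_sup_right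
  have hpow : ∀ j : ℕ, 𝔐 ^ j ≤ 𝔞 ^ j ⊔ J := fun j =>
    (Ideal.pow_right_mono h𝔐le j).trans (lv_sup_pow_le 𝔞 J j)
  have key : ∀ j : ℕ, ∃ b ∈ B, p - b ∈ 𝔐 ^ j ⊔ J := by
    intro j
    induction j with
    | zero => exact ⟨0, B.zero_mem, by simp⟩
    | succ j ih =>
      obtain ⟨b, hb, hpb⟩ := ih
      have hpb' : p - b ∈ 𝔞 ^ j ⊔ J := (sup_le (hpow j) le_sup_right) hpb
      obtain ⟨x, hx, y, hy, hxy⟩ := Submodule.mem_sup.mp hpb'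
      obtain ⟨b', hb', _, hxb'⟩ := lv_pow_approx 𝔐 hres B 𝔞 h𝔞le h0 j x hx
      refine ⟨b + b', B.add_mem hb hb', ?_⟩
      have e : p - (b + b') = (x - b') + y := by
        have : p = b + (x + y) := by rw [hxy]; ring
        rw [this]; ring
      rw [e]
      exact Submodule.add_mem_sup hxb' hy
  obtain ⟨b, ⟨q, hq⟩, hpb⟩ := key (m + 1)
  refine ⟨q, ?_⟩
  have : p - b ∈ J := (sup_le hn le_rfl) hpb
  rw [← hq] at this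
  exact this

end gen

section fin

variable {𝒪 : Type} [CommRing 𝒪] [IsLocalRing 𝒪] [IsNoetherianRing 𝒪]
  [Finite (ResidueField 𝒪)] {Pol : Type} [CommRing Pol] [Algebra 𝒪 Pol]

omit [IsNoetherianRing 𝒪] in
/-- The residue ring `Pol ⧸ 𝔐` is finite. -/
lemma lv_finite_quotient (𝔐 : Ideal Pol)
    (h𝒪 : ∀ a ∈ maximalIdeal 𝒪, algebraMap 𝒪 Pol a ∈ 𝔐)
    (hres : Function.Surjective ((Ideal.Quotient.mk 𝔐).comp (algebraMap 𝒪 Pol))) :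
    Finite (Pol ⧸ 𝔐) := by
  have hker : ∀ a ∈ maximalIdeal 𝒪, ((Ideal.Quotient.mk 𝔐).comp (algebraMap 𝒪 Pol)) a = 0 := by
    intro a ha
    rw [RingHom.comp_apply]
    exact Ideal.Quotient.eq_zero_iff_mem.mpr (h𝒪 a ha)
  let φ : ResidueField 𝒪 →+* Pol ⧸ 𝔐 :=
    Ideal.Quotient.lift (maximalIdeal 𝒪) ((Ideal.Quotient.mk 𝔐).comp (algebraMap 𝒪 Pol)) hker
  have hφ : Function.Surjective φ := by
    intro x
    obtain ⟨a, ha⟩ := hres x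
    refine ⟨Ideal.Quotient.mk _ a, ?_⟩
    rw [← ha]
    exact Ideal.Quotient.lift_mk _ _ _
  exact Finite.of_surjective φ hφ

/-- Uniform bound: the quotients `Pol ⧸ J` for `𝔐 ^ n ≤ J` with the generation property are
finite of cardinality bounded independently of `J`. -/
lemma lv_card_bound (𝔐 : Ideal Pol)
    (h𝒪 : ∀ a ∈ maximalIdeal 𝒪, algebraMap 𝒪 Pol a ∈ 𝔐)
    (hres : Function.Surjective ((Ideal.Quotient.mk 𝔐).comp (algebraMap 𝒪 Pol)))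
    {d : ℕ} (t : Fin d → Pol) (n : ℕ) :
    ∃ C : ℕ, ∀ J : Ideal Pol, 𝔐 ^ n ≤ J →
      (∀ p : Pol, ∃ q : MvPolynomial (Fin d) 𝒪, p - MvPolynomial.aeval t q ∈ J) →
      Finite (Pol ⧸ J) ∧ Nat.card (Pol ⧸ J) ≤ C := by
  classical
  let ψ : MvPolynomial (Fin d) 𝒪 →+* Pol :=
    (MvPolynomial.aeval t : MvPolynomial (Fin d) 𝒪 →ₐ[𝒪] Pol).toRingHom
  let 𝔫 : Ideal (MvPolynomial (Fin d) 𝒪) := Ideal.comap ψ 𝔐
  have : Finite (Pol ⧸ 𝔐) := lv_finite_quotient 𝔐 h𝒪 hres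
  have : Finite (MvPolynomial (Fin d) 𝒪 ⧸ 𝔫) :=
    Finite.of_injective (Ideal.quotientMap 𝔐 ψ le_rfl) (Ideal.quotientMap_injective)
  have hfg : 𝔫.FG := IsNoetherian.noetherian 𝔫
  have : Finite (MvPolynomial (Fin d) 𝒪 ⧸ 𝔫 ^ n) := Ideal.finite_quotient_pow hfg n
  refine ⟨Nat.card (MvPolynomial (Fin d) 𝒪 ⧸ 𝔫 ^ n), ?_⟩
  intro J hJ hgenJ
  have hkill : ∀ q ∈ 𝔫 ^ n, ((Ideal.Quotient.mk J).comp ψ) q = 0 := by
    intro q hq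
    have h1 : ψ q ∈ Ideal.map ψ (𝔫 ^ n) := Ideal.mem_map_of_mem ψ hq
    rw [Ideal.map_pow] at h1
    have h2 : Ideal.map ψ 𝔫 ≤ 𝔐 := Ideal.map_comap_le
    have h3 : ψ q ∈ J := hJ (Ideal.pow_right_mono h2 n h1)
    simpa [Ideal.Quotient.eq_zero_iff_mem] using h3
  let Φ : (MvPolynomial (Fin d) 𝒪 ⧸ 𝔫 ^ n) →+* Pol ⧸ J :=
    Ideal.Quotient.lift (𝔫 ^ n) ((Ideal.Quotient.mk J).comp ψ) hkill
  have hΦ : Function.Surjective Φ := by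
    intro x
    obtain ⟨p, rfl⟩ := Ideal.Quotient.mk_surjective x
    obtain ⟨q, hq⟩ := hgenJ p
    refine ⟨Ideal.Quotient.mk _ q, ?_⟩
    have : Φ (Ideal.Quotient.mk _ q) = Ideal.Quotient.mk J (ψ q) := by simp [Φ]
    rw [this]
    exact (Ideal.Quotient.eq.mpr hq).symm
  exact ⟨Finite.of_surjective Φ hΦ, Nat.card_le_card_of_surjective Φ hΦ⟩

end fin

end Levels

/-- **S53 WP9.** Existence of the tower of minimal good ideals. -/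
theorem exists_levels (𝒪 : Type) [CommRing 𝒪] [IsLocalRing 𝒪] [IsNoetherianRing 𝒪]
    [Finite (ResidueField 𝒪)]
    (Pol : Type) [CommRing Pol] [Algebra 𝒪 Pol] (𝔐 : Ideal Pol) (h𝔐 : 𝔐.IsMaximal)
    (h𝒪 : ∀ a ∈ maximalIdeal 𝒪, algebraMap 𝒪 Pol a ∈ 𝔐)
    (hres : Function.Surjective ((Ideal.Quotient.mk 𝔐).comp (algebraMap 𝒪 Pol)))
    (G : Ideal Pol → Prop)
    (hG𝔐 : G 𝔐)
    (hGle : ∀ J, G J → J ≤ 𝔐)
    (hGinf : ∀ J J', G J → G J' → G (J ⊓ J'))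
    (hGup : ∀ J J', G J → J ≤ J' → J' ≤ 𝔐 → G J')
    (d : ℕ) (t : Fin d → Pol) (ht : ∀ i, t i ∈ 𝔐)
    (hgen : ∀ J, G J → 𝔐 ≤ Ideal.span (Set.range t) ⊔
      (maximalIdeal 𝒪).map (algebraMap 𝒪 Pol) ⊔ 𝔐 ^ 2 ⊔ J) :
    ∃ J : ℕ → Ideal Pol, J 0 = ⊤ ∧ (∀ n, 1 ≤ n → G (J n)) ∧ (∀ n, 𝔐 ^ n ≤ J n) ∧
      (∀ n, J n = J (n + 1) ⊔ 𝔐 ^ n) ∧
      (∀ n (p : Pol), ∃ q : MvPolynomial (Fin d) 𝒪, p - MvPolynomial.aeval t q ∈ J n) ∧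
      (∀ n J', G J' → 𝔐 ^ n ≤ J' → J n ≤ J') := by
  classical
  -- generation for members of `S_n`
  have hgenJ : ∀ (n : ℕ) (J : Ideal Pol), G J → 𝔐 ^ n ≤ J →
      ∀ p : Pol, ∃ q : MvPolynomial (Fin d) 𝒪, p - MvPolynomial.aeval t q ∈ J :=
    fun n J hJ hn p => Levels.lv_generation 𝔐 h𝒪 hres t ht J (hgen J hJ) n hn p
  have hpowle : ∀ n, 1 ≤ n → 𝔐 ^ n ≤ 𝔐 := fun n hn => Ideal.pow_le_self (by omega)
  -- existence of a minimum of `S_n` for `n ≥ 1`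
  have hmin : ∀ n, 1 ≤ n → ∃ J, G J ∧ 𝔐 ^ n ≤ J ∧ ∀ J', G J' → 𝔐 ^ n ≤ J' → J ≤ J' := by
    intro n hn
    obtain ⟨C, hC⟩ := Levels.lv_card_bound (𝒪 := 𝒪) 𝔐 h𝒪 hres t n
    let T : Set ℕ := {c | ∃ J, G J ∧ 𝔐 ^ n ≤ J ∧ Nat.card (Pol ⧸ J) = c}
    have hTne : T.Nonempty := ⟨_, 𝔐, hG𝔐, hpowle n hn, rfl⟩
    have hTbdd : BddAbove T := by
      refine ⟨C, ?_⟩
      rintro c ⟨J, hJ, hJn, rfl⟩
      exact (hC J hJn (hgenJ n J hJ hJn)).2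
    obtain ⟨J, hJ, hJn, hJc⟩ := Nat.sSup_mem hTne hTbdd
    refine ⟨J, hJ, hJn, ?_⟩
    intro J' hJ' hJ'n
    have hinfG : G (J ⊓ J') := hGinf J J' hJ hJ'
    have hinfn : 𝔐 ^ n ≤ J ⊓ J' := le_inf hJn hJ'n
    have : Finite (Pol ⧸ (J ⊓ J')) := (hC _ hinfn (hgenJ n _ hinfG hinfn)).1
    have hcard : Nat.card (Pol ⧸ (J ⊓ J')) ≤ Nat.card (Pol ⧸ J) := by
      rw [hJc]
      exact le_csSup hTbdd ⟨J ⊓ J', hinfG, hinfn, rfl⟩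
    have hsurj : Function.Surjective (Ideal.Quotient.factor (inf_le_left : J ⊓ J' ≤ J)) :=
      Ideal.Quotient.factor_surjective _
    have hbij := hsurj.bijective_of_nat_card_le hcard
    intro x hx
    have h0 : Ideal.Quotient.factor (inf_le_left : J ⊓ J' ≤ J)
        (Ideal.Quotient.mk (J ⊓ J') x) = 0 := by
      rw [Ideal.Quotient.factor_mk]
      exact Ideal.Quotient.eq_zero_iff_mem.mpr hx
    have h1 : Ideal.Quotient.mk (J ⊓ J') x = 0 := by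
      apply hbij.1
      rw [h0, map_zero]
    exact (Ideal.Quotient.eq_zero_iff_mem.mp h1).2
  -- the tower
  let Jf : ℕ → Ideal Pol := fun n => if h : 1 ≤ n then (hmin n h).choose else ⊤
  have hJf0 : Jf 0 = ⊤ := by simp [Jf]
  have hJfpos : ∀ n (h : 1 ≤ n), Jf n = (hmin n h).choose := fun n h => by simp [Jf, h]
  have hJfG : ∀ n, 1 ≤ n → G (Jf n) := fun n h => by
    rw [hJfpos n h]; exact (hmin n h).choose_spec.1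
  have hJfpow : ∀ n, 𝔐 ^ n ≤ Jf n := by
    intro n
    rcases Nat.eq_zero_or_pos n with rfl | h
    · rw [hJf0]; exact le_top
    · rw [hJfpos n h]; exact (hmin n h).choose_spec.2.1
  have hJfmin : ∀ n J', G J' → 𝔐 ^ n ≤ J' → Jf n ≤ J' := by
    intro n J' hJ' hJ'n
    rcases Nat.eq_zero_or_pos n with rfl | h
    · exfalso
      apply h𝔐.ne_top
      have : (⊤ : Ideal Pol) ≤ J' := by simpa using hJ'n
      exact top_le_iff.mp (this.trans (hGle J' hJ'))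
    · rw [hJfpos n h]; exact (hmin n h).choose_spec.2.2 J' hJ' hJ'n
  refine ⟨Jf, hJf0, hJfG, hJfpow, ?_, ?_, hJfmin⟩
  · intro n
    rcases Nat.eq_zero_or_pos n with rfl | h
    · rw [hJf0]; simp
    · apply le_antisymm
      · apply hJfmin n
        · refine hGup (Jf (n + 1)) _ (hJfG (n + 1) (by omega)) le_sup_left ?_
          exact sup_le (hGle _ (hJfG (n + 1) (by omega))) (hpowle n h)
        · exact le_sup_right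
      · refine sup_le ?_ (hJfpow n)
        apply hJfmin (n + 1) (Jf n) (hJfG n h)
        exact (Ideal.pow_le_pow_right (Nat.le_succ n)).trans (hJfpow n)
  · intro n p
    rcases Nat.eq_zero_or_pos n with rfl | h
    · exact ⟨0, by rw [hJf0]; trivial⟩
    · exact hgenJ n (Jf n) (hJfG n h) (hJfpow n) p


end Fermat.Agent.S53
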