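import Fermat.Agent.S53.Tower
import Fermat.Agent.S53.Levels

set_option autoImplicit false
set_option linter.unusedSectionVars false
set_option linter.unusedVariables false
set_option linter.style.haveILetI false

open IsLocalRing

namespace Fermat.Agent.S53

section Generators

variable {𝒪 : Type} [CommRing 𝒪] [IsLocalRing 𝒪]
  {ρbar : ResidualGaloisRep (ResidueField 𝒪)}
  {𝒟 : ∀ ⦃A : Type⦄ [CommRing A] [IsLocalRing A] [Algebra 𝒪 A], GaloisRepAdic A → Prop}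
  {γ : Fin 4 → GalQ} {cbar : GalQ → Fin 4 → ResidueField 𝒪}

/-- The tower of minimal good ideals together with the limit ring. -/
theorem exists_tower (H : Setup 𝒪 ρbar 𝒟 γ cbar) [IsNoetherianRing 𝒪]
    [IsAdicComplete (maximalIdeal 𝒪) 𝒪] [Finite (ResidueField 𝒪)]
    (hbar : 𝒟 (GaloisRepAdic.ofResidualGaloisRep ρbar))
    (hfin : GaloisRep.TangentFinite 𝒪 ρbar 𝒟) :
    ∃ J : ℕ → Ideal (Pol 𝒪), IsTower 𝒪 𝒟 γ cbar J ∧
      Nonempty (LimitRingData 𝒪 (Pol 𝒪) J) := by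
  obtain ⟨d, t, ht, hgen⟩ := exists_generators H hbar hfin
  have h𝒪 : ∀ a ∈ maximalIdeal 𝒪, algebraMap 𝒪 (Pol 𝒪) a ∈ maxPol cbar := by
    intro a ha
    rw [MvPolynomial.algebraMap_eq]
    exact C_mem_maxPol cbar ha
  obtain ⟨J, hJ0, hJgood, hJpow, hJstep, hJsurj, hJmin⟩ :=
    exists_levels 𝒪 (Pol 𝒪) (maxPol cbar) (maxPol_isMaximal cbar) h𝒪
      (mk_maxPol_comp_algebraMap_surjective cbar) (Good 𝒪 𝒟 γ cbar) (good_maxPol H hbar)
      (fun J hJ => hJ.le_maxPol) (fun J J' hJ hJ' => Good.inf H hJ hJ')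
      (fun J J' hJ hle hle' => Good.of_le H hJ hle hle') d t ht hgen
  refine ⟨J, ⟨hJgood, hJpow, hJmin⟩, ?_⟩
  exact nonempty_limitRingData 𝒪 (Pol 𝒪) (maxPol cbar) (maxPol_isMaximal cbar) h𝒪
    (mk_maxPol_comp_algebraMap_surjective cbar) J (fun n hn => (hJgood n hn).le_maxPol)
    hJpow hJstep d t ht hJsurj

end Generators

end Fermat.Agent.S53
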