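import Fermat.Agent.S53.Tower

set_option autoImplicit false
set_option linter.unusedSectionVars false
set_option linter.unusedVariables false
set_option linter.style.haveILetI false

open IsLocalRing

namespace Fermat.Agent.S53

/-- The classifying map of a deformation over a complete local ring is compatible with the
tower. -/
theorem ev_mem_pow_of_mem_tower {𝒪 : Type} [CommRing 𝒪] [IsLocalRing 𝒪]
    [Finite (ResidueField 𝒪)]
    {ρbar : ResidualGaloisRep (ResidueField 𝒪)}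
    {𝒟 : ∀ ⦃A : Type⦄ [CommRing A] [IsLocalRing A] [Algebra 𝒪 A], GaloisRepAdic A → Prop}
    {γ : Fin 4 → GalQ} {cbar : GalQ → Fin 4 → ResidueField 𝒪}
    (H : Setup 𝒪 ρbar 𝒟 γ cbar) {J : ℕ → Ideal (Pol 𝒪)} (hT : IsTower 𝒪 𝒟 γ cbar J)
    (A : Type) [CommRing A] [IsLocalRing A] [IsNoetherianRing A]
    [IsAdicComplete (maximalIdeal A) A] [Algebra 𝒪 A] [IsLocalHom (algebraMap 𝒪 A)]
    (hres : Function.Surjective (residue A ∘ algebraMap 𝒪 A))
    (ρA : GaloisRepAdic A) (h𝒟A : 𝒟 ρA) (hfA : IsFrameFor ρA γ) (cA : GalQ → Fin 4 → A)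
    (hcA : HasStructConst ρA γ cA)
    (hredA : ∀ σ i, residue A (cA σ i) = resMap 𝒪 A (cbar σ i))
    (n : ℕ) (p : Pol 𝒪) (hp : p ∈ J n) : ev (𝒪 := 𝒪) cA p ∈ maximalIdeal A ^ n := by
  rcases Nat.eq_zero_or_pos n with rfl | hn
  · simp
  · obtain ⟨hloc, hmk, hAn, hpow⟩ :=
      isArtinianTestAlgebra_quotient_pow 𝒪 (A := A) inferInstance hres n hn
    haveI := hloc
    haveI := hAn.isLocalHom
    set qn : A →ₐ[𝒪] A ⧸ maximalIdeal A ^ n := Ideal.Quotient.mkₐ 𝒪 _ with hqn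
    have hmk' : IsLocalHom (qn : A →+* A ⧸ maximalIdeal A ^ n) := hmk
    have h𝒟n : 𝒟 (ρA.baseChangeAlong (qn : A →+* A ⧸ maximalIdeal A ^ n) hmk') :=
      (H.h𝒟.iff_forall_surjective inferInstance hres ρA).mp h𝒟A hAn qn hmk'
        (Ideal.Quotient.mkₐ_surjective _ _)
    have hd : IsDefo 𝒪 𝒟 γ cbar (ρA.baseChangeAlong (qn : A →+* A ⧸ maximalIdeal A ^ n) hmk')
        (fun σ i => qn (cA σ i)) :=
      ⟨h𝒟n, isFrameFor_baseChangeAlong _ hmk' ρA γ hfA,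
        hasStructConst_baseChangeAlong _ hmk' ρA γ cA hcA, red_map qn hmk' hredA⟩
    have hgood := good_ker_ev H hAn _ _ hd
    have hpowle := maxPol_pow_le_ker_ev hd.red hpow
    have h1 := hT.min n _ hgood hpowle hp
    rw [RingHom.mem_ker] at h1
    have h2 : qn (ev (𝒪 := 𝒪) cA p) = 0 := by
      rw [ev_comp_apply]
      exact h1
    rw [hqn, Ideal.Quotient.mkₐ_eq_mk, Ideal.Quotient.eq_zero_iff_mem] at h2
    exact h2

/-- WP13: the universal property. -/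
theorem universal_univ {𝒪 : Type} [CommRing 𝒪] [IsLocalRing 𝒪]
    [Finite (ResidueField 𝒪)]
    {ρbar : ResidualGaloisRep (ResidueField 𝒪)}
    {𝒟 : ∀ ⦃A : Type⦄ [CommRing A] [IsLocalRing A] [Algebra 𝒪 A], GaloisRepAdic A → Prop}
    {γ : Fin 4 → GalQ} {cbar : GalQ → Fin 4 → ResidueField 𝒪}
    (H : Setup 𝒪 ρbar 𝒟 γ cbar) {J : ℕ → Ideal (Pol 𝒪)} (hT : IsTower 𝒪 𝒟 γ cbar J)
    (D : LimitRingData 𝒪 (Pol 𝒪) J)
    (ρ : GaloisRepAdic D.R) (hf : IsFrameFor ρ γ) (hc : HasStructConst ρ γ (cUniv D))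
    (A : Type) [CommRing A] [IsLocalRing A] [IsNoetherianRing A]
    [IsAdicComplete (maximalIdeal A) A] [Algebra 𝒪 A] [IsLocalHom (algebraMap 𝒪 A)]
    (hres : Function.Surjective (residue A ∘ algebraMap 𝒪 A))
    (ρA : GaloisRepAdic A) (h𝒟A : 𝒟 ρA)
    (hρA : ρA.residual.IsEquiv (ρbar.baseChangeAlong (ResidueField.map (algebraMap 𝒪 A)))) :
    ∃! φ : D.R →ₐ[𝒪] A, ∃ hφ : IsLocalHom (φ : D.R →+* A),
      (ρ.baseChangeAlong (φ : D.R →+* A) hφ).IsEquiv ρA := by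
  obtain ⟨hfA, cA, hcA, hredA⟩ := isFrameFor_of_residual_isEquiv ρbar γ H.hγ cbar H.hcbar
    (ResidueField.map (algebraMap 𝒪 A)) ρA hρA
  obtain ⟨φ, hφ, hφtoR⟩ := D.exists_algHom (ev (𝒪 := 𝒪) cA)
    (ev_mem_pow_of_mem_tower H hT A hres ρA h𝒟A hfA cA hcA hredA)
  have hφc : (fun σ i => φ (cUniv D σ i)) = cA := by
    funext σ i
    rw [cUniv, hφtoR, ev_X]
  refine ⟨φ, ⟨hφ, ?_⟩, ?_⟩
  · refine isEquiv_of_hasStructConst _ ρA γ cA (isFrameFor_baseChangeAlong _ hφ ρ γ hf) hfA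
      ?_ hcA
    have := hasStructConst_baseChangeAlong (φ : D.R →+* A) hφ ρ γ (cUniv D) hc
    rw [← hφc]
    exact this
  · rintro φ' ⟨hφ', e'⟩
    apply D.algHom_eq_of_toR φ' φ hφ' hφ
    have h1 := hasStructConst_baseChangeAlong (φ' : D.R →+* A) hφ' ρ γ (cUniv D) hc
    have h2 := hasStructConst_of_isEquiv _ ρA e' γ _ h1
    have h3 : (fun σ i => (φ' : D.R →+* A) (cUniv D σ i)) = cA := structConst_unique hfA h2 hcA
    intro p
    rw [hφtoR, ← ev_cUniv, ev_comp_apply]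
    exact congrArg (fun c => ev (𝒪 := 𝒪) c p) h3

end Fermat.Agent.S53
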