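import Fermat.Agent.S53.Tower

/-!
# S53 WP11: the universal representation over the limit ring

We glue the framed deformations over the finite levels `Pol ⧸ J (n + 1)` into a representation
over the limit ring `D.R`, by applying the descent theorem `exists_rep_of_structConst` to the
product algebra `Π n, End (V_n)`.
-/

set_option autoImplicit false
set_option linter.unusedSectionVars false
set_option linter.unusedVariables false
set_option linter.style.haveILetI false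

open IsLocalRing

namespace Fermat.Agent.S53

section UnivRep

variable {𝒪 : Type} [CommRing 𝒪] [IsLocalRing 𝒪]
  {ρbar : ResidualGaloisRep (ResidueField 𝒪)}
  {𝒟 : ∀ ⦃A : Type⦄ [CommRing A] [IsLocalRing A] [Algebra 𝒪 A], GaloisRepAdic A → Prop}
  {γ : Fin 4 → GalQ} {cbar : GalQ → Fin 4 → ResidueField 𝒪}

/-- A bundled witness of `Good J`. -/
structure UDatum (𝒪 : Type) [CommRing 𝒪] [IsLocalRing 𝒪]
    (𝒟 : ∀ ⦃A : Type⦄ [CommRing A] [IsLocalRing A] [Algebra 𝒪 A], GaloisRepAdic A → Prop)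
    (γ : Fin 4 → GalQ) (cbar : GalQ → Fin 4 → ResidueField 𝒪) (J : Ideal (Pol 𝒪)) :
    Type 1 where
  A : Type
  [instCommRing : CommRing A]
  [instIsLocalRing : IsLocalRing A]
  [instAlgebra : Algebra 𝒪 A]
  [instIsLocalHom : IsLocalHom (algebraMap 𝒪 A)]
  isTest : GaloisRep.IsArtinianTestAlgebra 𝒪 A
  ρ : GaloisRepAdic A
  c : GalQ → Fin 4 → A
  isDefo : IsDefo 𝒪 𝒟 γ cbar ρ c
  surj : Function.Surjective (ev (𝒪 := 𝒪) c)
  ker : RingHom.ker (ev (𝒪 := 𝒪) c : Pol 𝒪 →+* A) = J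

attribute [instance] UDatum.instCommRing UDatum.instIsLocalRing UDatum.instAlgebra
  UDatum.instIsLocalHom

theorem Good.nonempty_uDatum {J : Ideal (Pol 𝒪)} (h : Good 𝒪 𝒟 γ cbar J) :
    Nonempty (UDatum 𝒪 𝒟 γ cbar J) := by
  obtain ⟨A, _, _, _, _, hA, ρ, c, hd, hsurj, hker⟩ := h
  exact ⟨{ A := A, isTest := hA, ρ := ρ, c := c, isDefo := hd, surj := hsurj, ker := hker }⟩

namespace UDatum

variable {J : Ideal (Pol 𝒪)} (d : UDatum 𝒪 𝒟 γ cbar J)

theorem ev_eq_zero {p : Pol 𝒪} (hp : p ∈ J) : ev (𝒪 := 𝒪) d.c p = 0 := by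
  rw [← d.ker] at hp
  exact hp

/-- The identification `Pol ⧸ J → A`. -/
noncomputable def lift : (Pol 𝒪 ⧸ J) →ₐ[𝒪] d.A :=
  Ideal.Quotient.liftₐ J (ev (𝒪 := 𝒪) d.c) (fun p hp => d.ev_eq_zero hp)

@[simp] theorem lift_mk (p : Pol 𝒪) : d.lift (Ideal.Quotient.mk J p) = ev (𝒪 := 𝒪) d.c p :=
  Ideal.Quotient.lift_mk _ _ _

theorem lift_injective : Function.Injective d.lift := by
  rw [injective_iff_map_eq_zero]
  intro x hx
  obtain ⟨p, rfl⟩ := Ideal.Quotient.mk_surjective x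
  rw [lift_mk] at hx
  rw [Ideal.Quotient.eq_zero_iff_mem, ← d.ker]
  exact hx

end UDatum

/-- An element of a Noetherian local ring lying in all `𝔪 ^ (n + 1)` vanishes. -/
theorem eq_zero_of_forall_mem_pow_succ {R : Type} [CommRing R] [IsLocalRing R]
    [IsNoetherianRing R] (x : R) (hx : ∀ n : ℕ, x ∈ maximalIdeal R ^ (n + 1)) : x = 0 := by
  have h : x ∈ ⨅ i : ℕ, maximalIdeal R ^ i := by
    rw [Ideal.mem_iInf]
    intro i
    exact Ideal.pow_le_pow_right (Nat.le_succ i) (hx i)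
  rw [Ideal.iInf_pow_eq_bot_of_isLocalRing (maximalIdeal R) Ideal.IsPrime.ne_top'] at h
  exact h

/-- **S53 WP11.** The universal framed representation over the limit ring. -/
theorem exists_univ_rep {𝒪 : Type} [CommRing 𝒪] [IsLocalRing 𝒪]
    [Finite (ResidueField 𝒪)]
    {ρbar : ResidualGaloisRep (ResidueField 𝒪)}
    {𝒟 : ∀ ⦃A : Type⦄ [CommRing A] [IsLocalRing A] [Algebra 𝒪 A], GaloisRepAdic A → Prop}
    {γ : Fin 4 → GalQ} {cbar : GalQ → Fin 4 → ResidueField 𝒪}
    (H : Setup 𝒪 ρbar 𝒟 γ cbar) {J : ℕ → Ideal (Pol 𝒪)} (hT : IsTower 𝒪 𝒟 γ cbar J)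
    (D : LimitRingData 𝒪 (Pol 𝒪) J) :
    ∃ ρ : GaloisRepAdic D.R, IsFrameFor ρ γ ∧ HasStructConst ρ γ (cUniv D) := by
  classical
  -- choose the finite level data
  let dat : ∀ n : ℕ, UDatum 𝒪 𝒟 γ cbar (J (n + 1)) := fun n =>
    Classical.choice (hT.good (n + 1) (Nat.succ_le_succ (Nat.zero_le n))).nonempty_uDatum
  -- the projections to the finite levels
  let θ : ∀ n, D.R →ₐ[𝒪] (dat n).A := fun n => (dat n).lift.comp (D.proj (n + 1))
  have hθ : ∀ n p, θ n (D.toR p) = ev (𝒪 := 𝒪) (dat n).c p := by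
    intro n p
    show (dat n).lift (D.proj (n + 1) (D.toR p)) = _
    rw [D.proj_toR, UDatum.lift_mk]
  have hθc : ∀ n σ i, θ n (cUniv D σ i) = (dat n).c σ i := by
    intro n σ i
    rw [cUniv, hθ, ev_X]
  have hθker : ∀ n x, θ n x = 0 → x ∈ maximalIdeal D.R ^ (n + 1) := by
    intro n x hx
    have h1 : D.proj (n + 1) x = 0 := by
      apply (dat n).lift_injective
      rw [map_zero]
      exact hx
    rw [← D.ker_proj (n + 1)]
    exact h1
  -- the product algebra
  letI instAlg : ∀ n, Algebra D.R (Module.End (dat n).A (dat n).ρ.V) := fun n =>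
    Algebra.compHom _ (θ n : D.R →+* (dat n).A)
  have hsmul : ∀ n (r : D.R) (x : Module.End (dat n).A (dat n).ρ.V), r • x = θ n r • x :=
    fun n r x => rfl
  let M : GalQ →* (∀ n, Module.End (dat n).A (dat n).ρ.V) :=
    MonoidHom.pi (fun n => (dat n).ρ.ρ)
  have hMapply : ∀ σ n, M σ n = (dat n).ρ.ρ σ := fun σ n => rfl
  have hM : ∀ σ, M σ = ∑ i, cUniv D σ i • M (γ i) := by
    intro σ
    funext n
    rw [Finset.sum_apply]
    simp only [Pi.smul_apply, hMapply, hsmul, hθc]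
    exact (dat n).isDefo.struct σ
  have hli : LinearIndependent D.R (fun i => M (γ i)) := by
    rw [Fintype.linearIndependent_iff]
    intro g hg i
    apply eq_zero_of_forall_mem_pow_succ
    intro n
    apply hθker
    have h1 := congrFun hg n
    rw [Finset.sum_apply] at h1
    simp only [Pi.smul_apply, hMapply, hsmul, Pi.zero_apply] at h1
    exact Fintype.linearIndependent_iff.mp (dat n).isDefo.frame.1 (fun i => θ n (g i)) h1 i
  have hcont : ∀ n : ℕ, ∃ L : IntermediateField ℚ (AlgebraicClosure ℚ),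
      FiniteDimensional ℚ L ∧ ∀ σ : GalQ, (∀ x ∈ L, σ x = x) →
        ∀ i, cUniv D σ i - cUniv D 1 i ∈ maximalIdeal D.R ^ n := by
    intro n
    haveI := (dat n).isTest.isArtinian
    obtain ⟨L, hL, h1⟩ := exists_level_of_isArtinian (dat n).isDefo.frame (dat n).isDefo.struct
    refine ⟨L, hL, fun σ hσ i => ?_⟩
    apply Ideal.pow_le_pow_right (Nat.le_succ n)
    apply hθker
    rw [map_sub, hθc, hθc, h1 σ hσ, sub_self]
  exact exists_rep_of_structConst M γ (cUniv D) hM hli hcont ρbar H.hγ (resMap 𝒪 D.R) cbar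
    H.hcbar (hT.residue_cUniv D)

end UnivRep

end Fermat.Agent.S53
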