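import Fermat.Agent.S53.Tower

set_option autoImplicit false
set_option linter.unusedSectionVars false
set_option linter.unusedVariables false
set_option linter.style.haveILetI false

open IsLocalRing

namespace Fermat.Agent.S53

/-- WP12: the universal representation is of type `𝒟`. -/
theorem isOfType_univ {𝒪 : Type} [CommRing 𝒪] [IsLocalRing 𝒪]
    [Finite (ResidueField 𝒪)]
    {ρbar : ResidualGaloisRep (ResidueField 𝒪)}
    {𝒟 : ∀ ⦃A : Type⦄ [CommRing A] [IsLocalRing A] [Algebra 𝒪 A], GaloisRepAdic A → Prop}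
    {γ : Fin 4 → GalQ} {cbar : GalQ → Fin 4 → ResidueField 𝒪}
    (H : Setup 𝒪 ρbar 𝒟 γ cbar) {J : ℕ → Ideal (Pol 𝒪)} (hT : IsTower 𝒪 𝒟 γ cbar J)
    (D : LimitRingData 𝒪 (Pol 𝒪) J)
    (ρ : GaloisRepAdic D.R) (hf : IsFrameFor ρ γ) (hc : HasStructConst ρ γ (cUniv D)) :
    𝒟 ρ := by
  refine (H.h𝒟.iff_forall_surjective inferInstance D.residue_surjective ρ).mpr ?_
  intro B _ _ _ hB q hq hqsurj
  haveI := hB.isArtinian
  haveI := hB.isLocalHom
  obtain ⟨n, hn, g, hg⟩ := D.exists_factor q hq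
  obtain ⟨A, _, _, _, _, hA, ρA, cA, hd, hsurj, hker⟩ := hT.good n hn
  have hle : RingHom.ker (ev (𝒪 := 𝒪) cA).toRingHom ≤
      RingHom.ker (g.comp (Ideal.Quotient.mkₐ 𝒪 (J n))).toRingHom := by
    intro p hp
    have hp' : p ∈ J n := by
      rw [← hker]
      exact hp
    rw [RingHom.mem_ker]
    change g (Ideal.Quotient.mk (J n) p) = 0
    rw [Ideal.Quotient.eq_zero_iff_mem.mpr hp', map_zero]
  set q'' : A →ₐ[𝒪] B :=
    AlgHom.liftOfSurjective (ev (𝒪 := 𝒪) cA) hsurj (g.comp (Ideal.Quotient.mkₐ 𝒪 (J n))) hle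
    with hq''
  have hq''ev : ∀ p, q'' (ev (𝒪 := 𝒪) cA p) = q (D.toR p) := by
    intro p
    rw [hq'', AlgHom.liftOfSurjective_apply]
    change g (Ideal.Quotient.mk (J n) p) = _
    rw [← D.proj_toR, hg]
  have hq''loc : IsLocalHom (q'' : A →+* B) := by
    constructor
    intro a ha
    obtain ⟨p, rfl⟩ := hsurj a
    by_contra hna
    have h1 : p ∈ maxPol cbar :=
      (ev_mem_maximalIdeal_iff hd.red p).mp ((IsLocalRing.mem_maximalIdeal _).mpr hna)
    have h2 := hT.toR_mem_maximalIdeal D h1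
    have h3 : IsUnit (q (D.toR p)) := by
      rw [← hq''ev]
      exact ha
    exact (IsLocalRing.mem_maximalIdeal _).mp h2 (hq.map_nonunit _ h3)
  have hc1 := hasStructConst_baseChangeAlong (q : D.R →+* B) hq ρ γ (cUniv D) hc
  have hc2 := hasStructConst_baseChangeAlong (q'' : A →+* B) hq''loc ρA γ cA hd.struct
  have hcc : (fun σ i => (q'' : A →+* B) (cA σ i)) =
      (fun σ i => (q : D.R →+* B) (cUniv D σ i)) := by
    funext σ i
    have := hq''ev (MvPolynomial.X (σ, i))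
    rw [ev_X] at this
    exact this
  rw [hcc] at hc2
  have he : (ρA.baseChangeAlong (q'' : A →+* B) hq''loc).IsEquiv
      (ρ.baseChangeAlong (q : D.R →+* B) hq) :=
    isEquiv_of_hasStructConst _ _ γ _ (isFrameFor_baseChangeAlong _ hq''loc ρA γ hd.frame)
      (isFrameFor_baseChangeAlong _ hq ρ γ hf) hc2 hc1
  exact H.h𝒟.of_isEquiv hB he (H.h𝒟.baseChangeAlong hA hB q'' hq''loc hd.isOfType)

end Fermat.Agent.S53
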