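import Mathlib
import Fermat.Prelude.Def_GaloisRep_DeformationRingData
import Fermat.Prelude.Def_GaloisRep_DeformationCondition

/-!
Shared definitions for the S53 work packages (universal deformation ring).
All names live in `Fermat.Agent.S53`.
-/

set_option autoImplicit false

namespace Fermat.Agent.S53

/-- The absolute Galois group of `ℚ`. -/
abbrev GalQ : Type := AlgebraicClosure ℚ ≃ₐ[ℚ] AlgebraicClosure ℚ

/-- `c` are the structure constants of `ρ` with respect to the frame `γ`:
`ρ(σ) = ∑ i, c σ i • ρ(γ i)` in `End_A(V)`. -/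
def HasStructConst {A : Type} [CommRing A] [IsLocalRing A] (ρ : GaloisRepAdic A)
    (γ : Fin 4 → GalQ) (c : GalQ → Fin 4 → A) : Prop :=
  ∀ σ : GalQ, ρ.ρ σ = ∑ i, c σ i • ρ.ρ (γ i)

/-- `γ` is a frame for `ρ`: the four endomorphisms `ρ(γ i)` form an `A`-basis of `End_A(V)`. -/
def IsFrameFor {A : Type} [CommRing A] [IsLocalRing A] (ρ : GaloisRepAdic A)
    (γ : Fin 4 → GalQ) : Prop :=
  LinearIndependent A (fun i => ρ.ρ (γ i)) ∧
    Submodule.span A (Set.range fun i => ρ.ρ (γ i)) = ⊤

/-- Residual version of structure constants. -/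
def ResHasStructConst {k : Type} [Field k] (ρbar : ResidualGaloisRep k)
    (γ : Fin 4 → GalQ) (cbar : GalQ → Fin 4 → k) : Prop :=
  ∀ σ : GalQ, ρbar.ρ σ = ∑ i, cbar σ i • ρbar.ρ (γ i)

/-- `γ` is a frame for the residual representation. -/
def IsResFrame {k : Type} [Field k] (ρbar : ResidualGaloisRep k) (γ : Fin 4 → GalQ) : Prop :=
  LinearIndependent k (fun i => ρbar.ρ (γ i))

end Fermat.Agent.S53
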