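import Fermat.Agent.S53.DescentAux

/-!
S53-WP3 : Carayol-type descent.  A system of structure constants realised in some `P`-algebra
comes from a representation over `P`.
-/

set_option autoImplicit false

open IsLocalRing

namespace Fermat.Agent.S53

/-- WP3 (the heart; Carayol-type descent).  `S` is any (noncommutative) `P`-algebra in which the
structure constants `c` are realised by a monoid hom `M` with `M (γ i)` linearly independent
over `P`.  Typical `S`: `Module.End A V` for a bigger ring `A ⊇ P`, or a product of such. -/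
theorem exists_rep_of_structConst
    {P : Type} [CommRing P] [IsLocalRing P] [IsNoetherianRing P]
    [IsAdicComplete (maximalIdeal P) P]
    {S : Type*} [Ring S] [Algebra P S]
    (M : GalQ →* S) (γ : Fin 4 → GalQ) (c : GalQ → Fin 4 → P)
    (hM : ∀ σ, M σ = ∑ i, c σ i • M (γ i))
    (hli : LinearIndependent P (fun i => M (γ i)))
    (hcont : ∀ n : ℕ, ∃ L : IntermediateField ℚ (AlgebraicClosure ℚ), FiniteDimensional ℚ L ∧
      ∀ σ : GalQ, (∀ x ∈ L, σ x = x) → ∀ i, c σ i - c 1 i ∈ maximalIdeal P ^ n)
    {k : Type} [Field k] (ρbar : ResidualGaloisRep k) (hγ : IsResFrame ρbar γ)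
    (ι : k →+* ResidueField P) (cbar : GalQ → Fin 4 → k)
    (hcbar : ResHasStructConst ρbar γ cbar)
    (hred : ∀ σ i, residue P (c σ i) = ι (cbar σ i)) :
    ∃ ρ : GaloisRepAdic P, IsFrameFor ρ γ ∧ HasStructConst ρ γ c := by
  -- residual data
  obtain ⟨r, hrli, hr⟩ := desc_exists_residual_matrix ρbar γ hγ ι cbar hcbar
  have hr' : ∀ σ, r σ = ∑ i, residue P (c σ i) • r (γ i) := by
    intro σ
    rw [hr σ]
    exact Finset.sum_congr rfl fun i _ => by rw [hred]
  -- the subalgebra generated by the image of `M`
  let E : Subalgebra P S := Algebra.adjoin P (Set.range M)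
  have hspan_mul : ∀ x ∈ Submodule.span P (Set.range fun i => M (γ i)),
      ∀ y ∈ Submodule.span P (Set.range fun i => M (γ i)),
      x * y ∈ Submodule.span P (Set.range fun i => M (γ i)) := by
    intro x hx y hy
    induction hx using Submodule.span_induction with
    | mem x hx =>
      obtain ⟨i, rfl⟩ := hx
      induction hy using Submodule.span_induction with
      | mem y hy =>
        obtain ⟨j, rfl⟩ := hy
        rw [← map_mul, hM]
        exact Submodule.sum_mem _ fun l _ =>
          Submodule.smul_mem _ _ (Submodule.subset_span ⟨l, rfl⟩)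
      | zero => rw [mul_zero]; exact Submodule.zero_mem _
      | add y z _ _ hy hz => rw [mul_add]; exact Submodule.add_mem _ hy hz
      | smul a y _ hy => rw [mul_smul_comm]; exact Submodule.smul_mem _ _ hy
    | zero => rw [zero_mul]; exact Submodule.zero_mem _
    | add x z _ _ hx hz => rw [add_mul]; exact Submodule.add_mem _ hx hz
    | smul a x _ hx => rw [smul_mul_assoc]; exact Submodule.smul_mem _ _ hx
  have hMmem : ∀ σ, M σ ∈ Submodule.span P (Set.range fun i => M (γ i)) := by
    intro σ
    rw [hM σ]
    exact Submodule.sum_mem _ fun l _ =>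
      Submodule.smul_mem _ _ (Submodule.subset_span ⟨l, rfl⟩)
  have hE : ∀ x ∈ E, x ∈ Submodule.span P (Set.range fun i => M (γ i)) := by
    intro x hx
    induction hx using Algebra.adjoin_induction with
    | mem x hx =>
      obtain ⟨σ, rfl⟩ := hx
      exact hMmem σ
    | algebraMap a =>
      rw [Algebra.algebraMap_eq_smul_one, ← map_one M]
      exact Submodule.smul_mem _ _ (hMmem 1)
    | add x y _ _ hx hy => exact Submodule.add_mem _ hx hy
    | mul x y _ _ hx hy => exact hspan_mul x hx y hy
  let M' : GalQ →* E :=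
    { toFun := fun σ => ⟨M σ, Algebra.subset_adjoin ⟨σ, rfl⟩⟩
      map_one' := Subtype.ext (map_one M)
      map_mul' := fun σ τ => Subtype.ext (map_mul M σ τ) }
  have hM'val : ∀ σ, ((M' σ : E) : S) = M σ := fun σ => rfl
  have hli' : LinearIndependent P (fun i => M' (γ i)) := by
    apply LinearIndependent.of_comp E.val.toLinearMap
    exact hli
  have hsp' : ⊤ ≤ Submodule.span P (Set.range fun i => M' (γ i)) := by
    rintro ⟨x, hx⟩ -
    have hx' := hE x hx
    rw [Submodule.mem_span_range_iff_exists_fun] at hx' ⊢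
    obtain ⟨g, hg⟩ := hx'
    refine ⟨g, Subtype.ext ?_⟩
    show ((∑ i, g i • M' (γ i) : E) : S) = x
    rw [← hg]
    simp [hM'val]
  let bS : Module.Basis (Fin 4) P E := Module.Basis.mk hli' hsp'
  have hb : ∀ i, bS i = M' (γ i) := fun i => by simp [bS]
  have hM' : ∀ σ, M' σ = ∑ i, c σ i • M' (γ i) := by
    intro σ
    apply Subtype.ext
    rw [hM'val, hM σ]
    simp [hM'val]
  obtain ⟨Ψ⟩ := desc_exists_algEquiv bS M' γ c hb hM' r hrli hr'
  exact desc_exists_rep_of_algEquiv Ψ bS M' γ c hb hM' hcont

end Fermat.Agent.S53
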