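import Fermat.Agent.S53.Defs
import Fermat.Prelude.Thm_IsAdicComplete_of_module_finite

/-!
Auxiliary algebra for S53-WP3 (descent): matrix units, idempotent lifting, the residual
algebra hom.  All names are prefixed `desc_`.
-/

set_option autoImplicit false
set_option linter.unusedSectionVars false

namespace Fermat.Agent.S53

open IsLocalRing

section MatrixUnits

variable {P : Type} [CommRing P] {S : Type*} [Ring S] [Algebra P S]

/-- the linear map from `2 × 2` matrices determined by a family `e i j` -/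
noncomputable def desc_Xi (e : Fin 2 → Fin 2 → S) : Matrix (Fin 2) (Fin 2) P →ₗ[P] S where
  toFun q := ∑ i, ∑ j, q i j • e i j
  map_add' p q := by
    simp only [Matrix.add_apply, add_smul, Finset.sum_add_distrib]
  map_smul' a q := by
    simp only [Matrix.smul_apply, smul_eq_mul, mul_smul, Finset.smul_sum, RingHom.id_apply]

theorem desc_Xi_apply (e : Fin 2 → Fin 2 → S) (q : Matrix (Fin 2) (Fin 2) P) :
    desc_Xi e q = ∑ i, ∑ j, q i j • e i j := rfl

theorem desc_Xi_mul (e : Fin 2 → Fin 2 → S)
    (hmul : ∀ i j k l, e i j * e k l = if j = k then e i l else 0)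
    (p q : Matrix (Fin 2) (Fin 2) P) :
    desc_Xi e (p * q) = desc_Xi e p * desc_Xi e q := by
  simp only [desc_Xi_apply, Matrix.mul_apply, Finset.sum_mul, Finset.mul_sum, smul_mul_smul_comm,
    hmul, Finset.sum_smul]
  simp only [Fin.sum_univ_two, Fin.isValue]
  simp
  abel

theorem desc_Xi_one (e : Fin 2 → Fin 2 → S) (hone : e 0 0 + e 1 1 = 1) :
    desc_Xi e (1 : Matrix (Fin 2) (Fin 2) P) = 1 := by
  simp [desc_Xi_apply, Fin.sum_univ_two, hone]

/-- the algebra hom attached to a system of matrix units -/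
noncomputable def desc_XiAlg (e : Fin 2 → Fin 2 → S)
    (hmul : ∀ i j k l, e i j * e k l = if j = k then e i l else 0)
    (hone : e 0 0 + e 1 1 = 1) : Matrix (Fin 2) (Fin 2) P →ₐ[P] S :=
  AlgHom.ofLinearMap (desc_Xi e) (desc_Xi_one e hone) (desc_Xi_mul e hmul)

theorem desc_Xi_corner (e : Fin 2 → Fin 2 → S)
    (hmul : ∀ i j k l, e i j * e k l = if j = k then e i l else 0)
    (q : Matrix (Fin 2) (Fin 2) P) (i j : Fin 2) :
    e 0 i * desc_Xi e q * e j 0 = q i j • e 0 0 := by
  simp only [desc_Xi_apply, Finset.sum_mul, Finset.mul_sum, mul_smul_comm, smul_mul_assoc, hmul]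
  fin_cases i <;> fin_cases j <;> simp [hmul]

theorem desc_Xi_injective (e : Fin 2 → Fin 2 → S)
    (hmul : ∀ i j k l, e i j * e k l = if j = k then e i l else 0)
    (htors : ∀ p : P, p • e 0 0 = 0 → p = 0) :
    Function.Injective (desc_Xi (P := P) e) := by
  rw [injective_iff_map_eq_zero]
  intro q hq
  ext i j
  apply htors
  rw [← desc_Xi_corner e hmul q i j, hq]
  simp

theorem desc_Xi_surjective [IsLocalRing P] [Module.Finite P S] (e : Fin 2 → Fin 2 → S)
    (hsurj : ∀ x : S, ∃ q : Matrix (Fin 2) (Fin 2) P,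
      x - desc_Xi e q ∈ maximalIdeal P • (⊤ : Submodule P S)) :
    Function.Surjective (desc_Xi (P := P) e) := by
  rw [← LinearMap.range_eq_top, eq_top_iff]
  refine Submodule.le_of_le_smul_of_le_jacobson_bot (Module.Finite.fg_top)
    (IsLocalRing.maximalIdeal_le_jacobson _) ?_
  intro x _
  obtain ⟨q, hq⟩ := hsurj x
  have : x = desc_Xi e q + (x - desc_Xi e q) := by abel
  rw [this]
  exact Submodule.add_mem_sup (LinearMap.mem_range_self _ q) hq

end MatrixUnits

section IdempotentLift

variable {P : Type} [CommRing P] {S : Type*} [Ring S] [Algebra P S]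

theorem desc_mul_mem_pow_smul_top (I : Ideal P) (a b : ℕ) {x y : S}
    (hx : x ∈ I ^ a • (⊤ : Submodule P S)) (hy : y ∈ I ^ b • (⊤ : Submodule P S)) :
    x * y ∈ I ^ (a + b) • (⊤ : Submodule P S) := by
  refine Submodule.smul_induction_on hx ?_ ?_
  · intro p hp s _
    refine Submodule.smul_induction_on hy ?_ ?_
    · intro q hq t _
      rw [smul_mul_smul_comm]
      exact Submodule.smul_mem_smul (by rw [pow_add]; exact Ideal.mul_mem_mul hp hq)
        Submodule.mem_top
    · intro u v hu hv
      rw [mul_add]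
      exact Submodule.add_mem _ hu hv
  · intro u v hu hv
    rw [add_mul]
    exact Submodule.add_mem _ hu hv

theorem desc_mul_mem_left (I : Ideal P) (a : ℕ) {x : S} (y : S)
    (hx : x ∈ I ^ a • (⊤ : Submodule P S)) : x * y ∈ I ^ a • (⊤ : Submodule P S) := by
  have := desc_mul_mem_pow_smul_top I a 0 hx (y := y) (by simp)
  simpa using this

theorem desc_mul_mem_right (I : Ideal P) (a : ℕ) {x : S} (y : S)
    (hx : x ∈ I ^ a • (⊤ : Submodule P S)) : y * x ∈ I ^ a • (⊤ : Submodule P S) := by
  have := desc_mul_mem_pow_smul_top I 0 a (x := y) (by simp) hx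
  simpa using this

theorem desc_pow_smul_top_anti (I : Ideal P) {a b : ℕ} (h : a ≤ b) :
    I ^ b • (⊤ : Submodule P S) ≤ I ^ a • (⊤ : Submodule P S) :=
  Submodule.smul_mono_left (Ideal.pow_le_pow_right h)

/-- the Newton iteration for idempotents -/
def desc_newton (x : S) : S := 3 * x * x - 2 * x * x * x

theorem desc_newton_sub (x : S) :
    desc_newton x - x = (x * x - x) * (1 - 2 * x) := by
  unfold desc_newton; noncomm_ring

theorem desc_newton_idem (x : S) :
    desc_newton x * desc_newton x - desc_newton x =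
      (x * x - x) * (x * x - x) * (-((3 - 2 * x) * (2 * x + 1))) := by
  unfold desc_newton; noncomm_ring

/-- the Newton sequence -/
def desc_newtonSeq (e₀ : S) : ℕ → S
  | 0 => e₀
  | n + 1 => desc_newton (desc_newtonSeq e₀ n)

theorem desc_newtonSeq_idem (I : Ideal P) (e₀ : S)
    (h : e₀ * e₀ - e₀ ∈ I • (⊤ : Submodule P S)) (n : ℕ) :
    desc_newtonSeq e₀ n * desc_newtonSeq e₀ n - desc_newtonSeq e₀ n ∈
      I ^ (n + 1) • (⊤ : Submodule P S) := by
  induction n with
  | zero => simpa [desc_newtonSeq] using h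
  | succ n ih =>
    show desc_newton _ * desc_newton _ - desc_newton _ ∈ _
    rw [desc_newton_idem]
    apply desc_mul_mem_left
    exact desc_pow_smul_top_anti I (by omega) (desc_mul_mem_pow_smul_top I (n + 1) (n + 1) ih ih)

theorem desc_newtonSeq_succ_sub (I : Ideal P) (e₀ : S)
    (h : e₀ * e₀ - e₀ ∈ I • (⊤ : Submodule P S)) (n : ℕ) :
    desc_newtonSeq e₀ (n + 1) - desc_newtonSeq e₀ n ∈ I ^ (n + 1) • (⊤ : Submodule P S) := by
  show desc_newton _ - _ ∈ _
  rw [desc_newton_sub]
  exact desc_mul_mem_left I (n + 1) _ (desc_newtonSeq_idem I e₀ h n)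

theorem desc_newtonSeq_sub (I : Ideal P) (e₀ : S)
    (h : e₀ * e₀ - e₀ ∈ I • (⊤ : Submodule P S)) {m n : ℕ} (hmn : m ≤ n) :
    desc_newtonSeq e₀ n - desc_newtonSeq e₀ m ∈ I ^ (m + 1) • (⊤ : Submodule P S) := by
  induction n, hmn using Nat.le_induction with
  | base => simp
  | succ n hmn ih =>
    have h1 := desc_pow_smul_top_anti (S := S) I (by omega : m + 1 ≤ n + 1)
      (desc_newtonSeq_succ_sub I e₀ h n)
    have := Submodule.add_mem _ h1 ih
    simpa using this

/-- idempotent lifting along an adically complete finite algebra -/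
theorem desc_exists_idempotent_lift [IsNoetherianRing P] (I : Ideal P) [IsAdicComplete I P]
    [Module.Finite P S] (e₀ : S) (h : e₀ * e₀ - e₀ ∈ I • (⊤ : Submodule P S)) :
    ∃ e : S, e * e = e ∧ e - e₀ ∈ I • (⊤ : Submodule P S) := by
  have hc : IsAdicComplete I S := IsAdicComplete.of_module_finite I S
  obtain ⟨e, he⟩ := IsPrecomplete.prec (I := I) (M := S) inferInstance
    (f := desc_newtonSeq e₀) (by
      intro m n hmn
      rw [SModEq.sub_mem]
      have := desc_pow_smul_top_anti (S := S) I (by omega : m ≤ m + 1)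
        (desc_newtonSeq_sub I e₀ h hmn)
      rw [← neg_sub]
      exact Submodule.neg_mem _ this)
  have he' : ∀ n, e - desc_newtonSeq e₀ n ∈ I ^ n • (⊤ : Submodule P S) := by
    intro n
    have := he n
    rw [SModEq.sub_mem] at this
    rw [← neg_sub]
    exact Submodule.neg_mem _ this
  refine ⟨e, ?_, ?_⟩
  · rw [← sub_eq_zero]
    apply IsHausdorff.haus (I := I) (M := S) inferInstance
    intro n
    rw [SModEq.sub_mem, sub_zero]
    set x := desc_newtonSeq e₀ n with hx
    have h1 : e * e - e = (e - x) * e + x * (e - x) - (e - x) + (x * x - x) := by noncomm_ring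
    rw [h1]
    refine Submodule.add_mem _ (Submodule.sub_mem _ (Submodule.add_mem _ ?_ ?_) (he' n)) ?_
    · exact desc_mul_mem_left I n _ (he' n)
    · exact desc_mul_mem_right I n _ (he' n)
    · exact desc_pow_smul_top_anti I (by omega) (desc_newtonSeq_idem I e₀ h n)
  · have h1 := he' 1
    have h2 := desc_newtonSeq_succ_sub I e₀ h 0
    have h3 := Submodule.add_mem _ h1 h2
    have h4 : e - desc_newtonSeq e₀ 1 + (desc_newtonSeq e₀ (0 + 1) - desc_newtonSeq e₀ 0) =
        e - e₀ := by
      simp [desc_newtonSeq]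
    rw [h4] at h3
    simpa using h3

end IdempotentLift

section Core

variable {P : Type} [CommRing P] [IsLocalRing P] {S : Type*} [Ring S] [Algebra P S]
  {G : Type*} [Monoid G]
  (bS : Module.Basis (Fin 4) P S) (M : G →* S) (γ : Fin 4 → G) (c : G → Fin 4 → P)
  (r : G →* Matrix (Fin 2) (Fin 2) (ResidueField P))

/-- the residual linear map -/
noncomputable def desc_PhiLin : S →ₗ[P] Matrix (Fin 2) (Fin 2) (ResidueField P) :=
  bS.constr P (fun i => r (γ i))

theorem desc_PhiLin_basis (i : Fin 4) : desc_PhiLin bS γ r (bS i) = r (γ i) := by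
  simp [desc_PhiLin]

variable (hb : ∀ i, bS i = M (γ i)) (hM : ∀ σ, M σ = ∑ i, c σ i • M (γ i))
  (hr : ∀ σ, r σ = ∑ i, residue P (c σ i) • r (γ i))

include hb hM hr in
theorem desc_PhiLin_M (σ : G) : desc_PhiLin bS γ r (M σ) = r σ := by
  rw [hM σ, map_sum, hr σ]
  refine Finset.sum_congr rfl fun i _ => ?_
  rw [map_smul, ← hb i, desc_PhiLin_basis]
  rfl

include hb hM hr in
theorem desc_PhiLin_mul (x y : S) :
    desc_PhiLin bS γ r (x * y) = desc_PhiLin bS γ r x * desc_PhiLin bS γ r y := by
  have h : (LinearMap.mul P S).compr₂ (desc_PhiLin bS γ r) =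
      (LinearMap.mul P (Matrix (Fin 2) (Fin 2) (ResidueField P))).compl₁₂
        (desc_PhiLin bS γ r) (desc_PhiLin bS γ r) := by
    refine bS.ext fun i => bS.ext fun j => ?_
    simp only [LinearMap.compr₂_apply, LinearMap.mul_apply', LinearMap.compl₁₂_apply]
    rw [hb i, hb j, ← map_mul, desc_PhiLin_M bS M γ c r hb hM hr,
      desc_PhiLin_M bS M γ c r hb hM hr, desc_PhiLin_M bS M γ c r hb hM hr, map_mul]
  have := congrArg (fun B => B x y) h
  simpa using this

include hb hM hr in
theorem desc_PhiLin_one : desc_PhiLin bS γ r (1 : S) = 1 := by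
  rw [← map_one M, desc_PhiLin_M bS M γ c r hb hM hr, map_one]

/-- the residual algebra hom -/
noncomputable def desc_Phi : S →ₐ[P] Matrix (Fin 2) (Fin 2) (ResidueField P) :=
  AlgHom.ofLinearMap (desc_PhiLin bS γ r) (desc_PhiLin_one bS M γ c r hb hM hr)
    (desc_PhiLin_mul bS M γ c r hb hM hr)

omit [IsLocalRing P] in
theorem desc_mem_ideal_smul_top_iff_repr {ι : Type*} (β : Module.Basis ι P S) (I : Ideal P)
    (x : S) : x ∈ I • (⊤ : Submodule P S) ↔ ∀ i, β.repr x i ∈ I := by
  rw [← β.span_eq, Submodule.mem_ideal_smul_span_iff_exists_sum]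
  constructor
  · rintro ⟨a, ha, rfl⟩ i
    have : β.repr (a.sum fun i c => c • β i) = a := by
      rw [← Finsupp.linearCombination_apply, β.repr_linearCombination]
    rw [this]
    exact ha i
  · intro h
    refine ⟨β.repr x, h, ?_⟩
    rw [← Finsupp.linearCombination_apply, β.linearCombination_repr]

theorem desc_PhiLin_apply (x : S) :
    desc_PhiLin bS γ r x = ∑ i, residue P (bS.repr x i) • r (γ i) := by
  rw [desc_PhiLin, Module.Basis.constr_apply_fintype]
  refine Finset.sum_congr rfl fun i _ => ?_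
  rw [← IsLocalRing.ResidueField.algebraMap_eq, algebraMap_smul]
  rfl

theorem desc_PhiLin_eq_zero_iff
    (hrli : LinearIndependent (ResidueField P) (fun i => r (γ i))) (x : S) :
    desc_PhiLin bS γ r x = 0 ↔ x ∈ maximalIdeal P • (⊤ : Submodule P S) := by
  rw [desc_PhiLin_apply, desc_mem_ideal_smul_top_iff_repr bS]
  constructor
  · intro h i
    have := Fintype.linearIndependent_iff.1 hrli _ h i
    exact (IsLocalRing.residue_eq_zero_iff _).1 this
  · intro h
    refine Finset.sum_eq_zero fun i _ => ?_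
    rw [(IsLocalRing.residue_eq_zero_iff _).2 (h i), zero_smul]

theorem desc_PhiLin_surjective
    (hrli : LinearIndependent (ResidueField P) (fun i => r (γ i))) :
    Function.Surjective (desc_PhiLin bS γ r) := by
  intro y
  let β := basisOfLinearIndependentOfCardEqFinrank hrli
    (by rw [Module.finrank_matrix]; simp)
  have hβ : ∀ i, β i = r (γ i) := fun i => by simp [β]
  choose p hp using fun i => IsLocalRing.residue_surjective (β.repr y i)
  refine ⟨∑ i, p i • bS i, ?_⟩
  rw [map_sum]
  conv_rhs => rw [← β.sum_repr y]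
  refine Finset.sum_congr rfl fun i _ => ?_
  rw [map_smul, desc_PhiLin_basis, hβ, ← hp i, ← IsLocalRing.ResidueField.algebraMap_eq,
    algebraMap_smul]

end Core

section Eps

variable {K : Type*} [CommRing K]

theorem desc_eps_one_sub : (1 : Matrix (Fin 2) (Fin 2) K) - Matrix.single 0 0 1 =
    Matrix.single 1 1 1 := by
  ext a b; fin_cases a <;> fin_cases b <;> simp

theorem desc_eps_mul (i j k l : Fin 2) :
    (Matrix.single i j (1 : K) : Matrix (Fin 2) (Fin 2) K) * Matrix.single k l 1 =
      if j = k then Matrix.single i l 1 else 0 := by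
  split_ifs with h
  · subst h; simp
  · simp [Matrix.single_mul_single_of_ne _ _ _ _ h]

end Eps

section Units

variable {P : Type} [CommRing P] [IsLocalRing P] {S : Type*} [Ring S] [Algebra P S]

/-- an idempotent in `𝔪 S` vanishes -/
theorem desc_idempotent_eq_zero [IsNoetherianRing P] [Module.Finite P S] (z : S)
    (hz : z * z = z) (hm : z ∈ maximalIdeal P • (⊤ : Submodule P S)) : z = 0 := by
  have hpow : ∀ n : ℕ, z ∈ maximalIdeal P ^ (n + 1) • (⊤ : Submodule P S) := by
    intro n
    induction n with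
    | zero => simpa using hm
    | succ n ih =>
      rw [← hz]
      exact desc_mul_mem_pow_smul_top (maximalIdeal P) (n + 1) 1 ih (by simpa using hm)
  have hki := Ideal.iInf_pow_smul_eq_bot_of_isLocalRing (M := S) (maximalIdeal P)
    (Ideal.IsMaximal.ne_top inferInstance)
  have : z ∈ (⨅ i : ℕ, maximalIdeal P ^ i • (⊤ : Submodule P S)) := by
    rw [Submodule.mem_iInf]
    intro i
    exact desc_pow_smul_top_anti (maximalIdeal P) (Nat.le_succ i) (hpow i)
  rw [hki] at this
  simpa using this

/-- the corner `e S e` as a submodule -/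
def desc_corner (e : S) : Submodule P S :=
  LinearMap.range ((LinearMap.mulLeft P e).comp (LinearMap.mulRight P e))

theorem desc_mem_corner (e : S) (he : e * e = e) (t : S) :
    t ∈ desc_corner (P := P) e ↔ e * t = t ∧ t * e = t := by
  constructor
  · rintro ⟨x, rfl⟩
    simp only [LinearMap.coe_comp, Function.comp_apply, LinearMap.mulRight_apply,
      LinearMap.mulLeft_apply]
    constructor
    · rw [← mul_assoc, he]
    · rw [mul_assoc, mul_assoc, he]
  · rintro ⟨h1, h2⟩
    refine ⟨t, ?_⟩
    simp only [LinearMap.coe_comp, Function.comp_apply, LinearMap.mulRight_apply,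
      LinearMap.mulLeft_apply]
    rw [h2, h1]

theorem desc_corner_inter (e : S) (he : e * e = e) (y : S) (hy : y ∈ desc_corner (P := P) e)
    (hm : y ∈ maximalIdeal P • (⊤ : Submodule P S)) :
    y ∈ maximalIdeal P • desc_corner (P := P) e := by
  have h1 : (maximalIdeal P • (⊤ : Submodule P S)).map
      ((LinearMap.mulLeft P e).comp (LinearMap.mulRight P e)) =
      maximalIdeal P • desc_corner (P := P) e := by
    rw [Submodule.map_smul'', Submodule.map_top]
    rfl
  rw [← h1]
  refine ⟨y, hm, ?_⟩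
  obtain ⟨h2, h3⟩ := (desc_mem_corner e he y).1 hy
  simp only [LinearMap.coe_comp, Function.comp_apply, LinearMap.mulRight_apply,
    LinearMap.mulLeft_apply]
  rw [h3, h2]

/-- right inverse in the corner ring, by Nakayama -/
theorem desc_exists_corner_inverse [Module.Finite P S] [IsNoetherianRing P] (e u : S)
    (he : e * e = e) (hu : u ∈ desc_corner (P := P) e)
    (hue : e - u ∈ maximalIdeal P • (⊤ : Submodule P S)) :
    ∃ w : S, e * w = w ∧ w * e = w ∧ u * w = e := by
  have hfg : (desc_corner (P := P) e).FG := IsNoetherian.noetherian _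
  have hle : desc_corner (P := P) e ≤
      (desc_corner (P := P) e).map (LinearMap.mulLeft P u) := by
    refine Submodule.le_of_le_smul_of_le_jacobson_bot hfg
      (IsLocalRing.maximalIdeal_le_jacobson _) ?_
    intro t ht
    obtain ⟨ht1, ht2⟩ := (desc_mem_corner e he t).1 ht
    obtain ⟨hu1, hu2⟩ := (desc_mem_corner e he u).1 hu
    have : t = u * t + (e - u) * t := by rw [sub_mul, ht1]; abel
    rw [this]
    refine Submodule.add_mem_sup ⟨t, ht, rfl⟩ ?_
    apply desc_corner_inter e he
    · rw [desc_mem_corner e he]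
      constructor
      · rw [← mul_assoc, mul_sub, he, hu1]
      · rw [mul_assoc, ht2]
    · have := desc_mul_mem_left (maximalIdeal P) 1 t (x := e - u) (by simpa using hue)
      simpa using this
  have hemem : e ∈ desc_corner (P := P) e := (desc_mem_corner e he e).2 ⟨he, he⟩
  obtain ⟨w, hw, hwe⟩ := hle hemem
  obtain ⟨hw1, hw2⟩ := (desc_mem_corner e he w).1 hw
  exact ⟨w, hw1, hw2, hwe⟩

/-- existence of a system of matrix units lifting the standard one -/
theorem desc_exists_matrixUnits [IsNoetherianRing P] [IsAdicComplete (maximalIdeal P) P]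
    [Module.Finite P S]
    (Φ : S →ₐ[P] Matrix (Fin 2) (Fin 2) (ResidueField P)) (hΦs : Function.Surjective Φ)
    (hΦk : ∀ x, Φ x = 0 ↔ x ∈ maximalIdeal P • (⊤ : Submodule P S)) :
    ∃ E : Fin 2 → Fin 2 → S, (∀ i j k l, E i j * E k l = if j = k then E i l else 0) ∧
      E 0 0 + E 1 1 = 1 ∧ ∀ i j, Φ (E i j) = Matrix.single i j 1 := by
  obtain ⟨x00, hx00⟩ := hΦs (Matrix.single 0 0 1)
  obtain ⟨x10, hx10⟩ := hΦs (Matrix.single 1 0 1)
  obtain ⟨x01, hx01⟩ := hΦs (Matrix.single 0 1 1)
  -- the idempotent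
  have h0 : x00 * x00 - x00 ∈ maximalIdeal P • (⊤ : Submodule P S) := by
    rw [← hΦk, map_sub, map_mul, hx00, desc_eps_mul, if_pos rfl, sub_self]
  obtain ⟨e, he, hee⟩ := desc_exists_idempotent_lift (maximalIdeal P) x00 h0
  have hΦe : Φ e = Matrix.single 0 0 1 := by
    rw [← hx00, ← sub_eq_zero, ← map_sub, hΦk]
    exact hee
  -- off-diagonal elements
  obtain ⟨f, hf⟩ : ∃ f : S, f = (1 - e) * x10 * e := ⟨_, rfl⟩
  obtain ⟨g, hg⟩ : ∃ g : S, g = e * x01 * (1 - e) := ⟨_, rfl⟩
  have hΦf : Φ f = Matrix.single 1 0 1 := by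
    rw [hf, map_mul, map_mul, map_sub, map_one, hΦe, hx10, desc_eps_one_sub, desc_eps_mul,
      if_pos rfl, desc_eps_mul, if_pos rfl]
  have hΦg : Φ g = Matrix.single 0 1 1 := by
    rw [hg, map_mul, map_mul, map_sub, map_one, hΦe, hx01, desc_eps_one_sub, desc_eps_mul,
      if_pos rfl, desc_eps_mul, if_pos rfl]
  have hef : e * f = 0 := by
    rw [hf, ← mul_assoc, ← mul_assoc, mul_sub, mul_one, he, sub_self, zero_mul, zero_mul]
  have hfe : f * e = f := by rw [hf, mul_assoc, he]
  have heg : e * g = g := by rw [hg, ← mul_assoc, ← mul_assoc, he]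
  have hge : g * e = 0 := by
    rw [hg, mul_assoc, sub_mul, one_mul, he, sub_self, mul_zero]
  -- the corner element `u = g f`
  have hu : g * f ∈ desc_corner (P := P) e := by
    rw [desc_mem_corner e he]
    constructor
    · rw [← mul_assoc, heg]
    · rw [mul_assoc, hfe]
  have hue : e - g * f ∈ maximalIdeal P • (⊤ : Submodule P S) := by
    rw [← hΦk, map_sub, map_mul, hΦe, hΦg, hΦf, desc_eps_mul, if_pos rfl, sub_self]
  obtain ⟨w, hew, hwe, huw⟩ := desc_exists_corner_inverse e (g * f) he hu hue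
  have hΦw : Φ w = Matrix.single 0 0 1 := by
    have h1 : Φ w = Φ e * Φ w := by rw [← map_mul, hew]
    have h2 : Φ (g * f) * Φ w = Φ e := by rw [← map_mul, huw]
    rw [map_mul, hΦg, hΦf, desc_eps_mul, if_pos rfl, ← hΦe] at h2
    rw [h1, h2, hΦe]
  obtain ⟨f', hf'⟩ : ∃ f' : S, f' = f * w := ⟨_, rfl⟩
  have hΦf' : Φ f' = Matrix.single 1 0 1 := by
    rw [hf', map_mul, hΦf, hΦw, desc_eps_mul, if_pos rfl]
  have hef' : e * f' = 0 := by rw [hf', ← mul_assoc, hef, zero_mul]
  have hf'e : f' * e = f' := by rw [hf', mul_assoc, hwe]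
  have hgf' : g * f' = e := by rw [hf', ← mul_assoc, huw]
  have hgg : g * g = 0 := by
    calc g * g = g * (e * g) := by rw [heg]
      _ = (g * e) * g := by rw [mul_assoc]
      _ = 0 := by rw [hge, zero_mul]
  have hf'f' : f' * f' = 0 := by
    calc f' * f' = (f' * e) * f' := by rw [hf'e]
      _ = f' * (e * f') := by rw [mul_assoc]
      _ = 0 := by rw [hef', mul_zero]
  -- `f' g = 1 - e`
  have hq : f' * g = 1 - e := by
    have hz : (1 - e - f' * g) * (1 - e - f' * g) = 1 - e - f' * g := by
      have e1 : f' * g * (f' * g) = f' * g := by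
        calc f' * g * (f' * g) = f' * (g * f') * g := by noncomm_ring
          _ = f' * g := by rw [hgf', hf'e]
      have e2 : e * (f' * g) = 0 := by rw [← mul_assoc, hef', zero_mul]
      have e3 : f' * g * e = 0 := by rw [mul_assoc, hge, mul_zero]
      calc (1 - e - f' * g) * (1 - e - f' * g)
          = 1 - e - e + e * e + e * (f' * g) - f' * g + f' * g * e + e * (f' * g)
            - (f' * g) + f' * g * (f' * g) - e * (f' * g) := by noncomm_ring
        _ = 1 - e - f' * g := by rw [he, e1, e2, e3]; noncomm_ring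
    have hzm : 1 - e - f' * g ∈ maximalIdeal P • (⊤ : Submodule P S) := by
      rw [← hΦk, map_sub, map_sub, map_one, map_mul, hΦe, hΦf', hΦg, desc_eps_one_sub,
        desc_eps_mul, if_pos rfl, sub_self]
    have := desc_idempotent_eq_zero _ hz hzm
    rw [sub_eq_zero] at this
    exact this.symm
  have heq : e * (1 - e) = 0 := by rw [mul_sub, mul_one, he, sub_self]
  have hqe : (1 - e) * e = 0 := by rw [sub_mul, one_mul, he, sub_self]
  have hqq : (1 - e) * (1 - e) = 1 - e := by
    rw [mul_sub, mul_one, hqe, sub_zero]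
  have hgq : g * (1 - e) = g := by rw [mul_sub, mul_one, hge, sub_zero]
  have hf'q : f' * (1 - e) = 0 := by rw [mul_sub, mul_one, hf'e, sub_self]
  have hqg : (1 - e) * g = 0 := by rw [sub_mul, one_mul, heg, sub_self]
  have hqf' : (1 - e) * f' = f' := by rw [sub_mul, one_mul, hef', sub_zero]
  refine ⟨![![e, g], ![f', 1 - e]], ?_, ?_, ?_⟩
  · intro i j k l
    fin_cases i <;> fin_cases j <;> fin_cases k <;> fin_cases l <;>
      simp [he, heg, hef', heq, hge, hgg, hgf', hgq, hf'e, hq, hf'f', hf'q, hqe, hqg, hqf', hqq]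
  · simp
  · intro i j
    fin_cases i <;> fin_cases j <;> simp [hΦe, hΦg, hΦf', desc_eps_one_sub]

end Units

section CoreAssembly

variable {P : Type} [CommRing P] [IsLocalRing P] {S : Type*} [Ring S] [Algebra P S]

/-- the algebra isomorphism `S ≃ M₂(P)` -/
theorem desc_exists_algEquiv [IsNoetherianRing P] [IsAdicComplete (maximalIdeal P) P]
    {G : Type*} [Monoid G]
    (bS : Module.Basis (Fin 4) P S) (M : G →* S) (γ : Fin 4 → G) (c : G → Fin 4 → P)
    (hb : ∀ i, bS i = M (γ i)) (hM : ∀ σ, M σ = ∑ i, c σ i • M (γ i))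
    (r : G →* Matrix (Fin 2) (Fin 2) (ResidueField P))
    (hrli : LinearIndependent (ResidueField P) (fun i => r (γ i)))
    (hr : ∀ σ, r σ = ∑ i, residue P (c σ i) • r (γ i)) :
    Nonempty (S ≃ₐ[P] Matrix (Fin 2) (Fin 2) P) := by
  have hfin : Module.Finite P S := Module.Finite.of_basis bS
  set Φ := desc_Phi bS M γ c r hb hM hr with hΦ
  have hΦapp : ∀ x, Φ x = desc_PhiLin bS γ r x := fun x => rfl
  have hΦs : Function.Surjective Φ := desc_PhiLin_surjective bS γ r hrli
  have hΦk : ∀ x, Φ x = 0 ↔ x ∈ maximalIdeal P • (⊤ : Submodule P S) :=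
    fun x => desc_PhiLin_eq_zero_iff bS γ r hrli x
  obtain ⟨E, hmul, hone, hΦE⟩ := desc_exists_matrixUnits Φ hΦs hΦk
  have hinj : Function.Injective (desc_Xi (P := P) E) := by
    apply desc_Xi_injective E hmul
    intro p hp
    have hnot : ¬ E 0 0 ∈ maximalIdeal P • (⊤ : Submodule P S) := by
      rw [← hΦk, hΦE]
      intro h
      have := congrFun (congrFun h 0) 0
      simp at this
    rw [desc_mem_ideal_smul_top_iff_repr bS] at hnot
    push Not at hnot
    obtain ⟨i, hi⟩ := hnot
    have hunit : IsUnit (bS.repr (E 0 0) i) := by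
      rwa [← IsLocalRing.notMem_maximalIdeal]
    have h1 : bS.repr (p • E 0 0) i = 0 := by rw [hp]; simp
    rw [map_smul, Finsupp.smul_apply, smul_eq_mul] at h1
    exact (hunit.mul_left_eq_zero).1 h1
  have hsurj : Function.Surjective (desc_Xi (P := P) E) := by
    apply desc_Xi_surjective E
    intro x
    choose q hq using fun i j => IsLocalRing.residue_surjective (Φ x i j)
    refine ⟨Matrix.of q, ?_⟩
    rw [← hΦk, map_sub, sub_eq_zero, desc_Xi_apply, map_sum]
    conv_lhs => rw [Matrix.matrix_eq_sum_single (Φ x)]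
    refine Finset.sum_congr rfl fun i _ => ?_
    rw [map_sum]
    refine Finset.sum_congr rfl fun j _ => ?_
    rw [map_smul, hΦE, Matrix.of_apply, ← algebraMap_smul (ResidueField P),
      IsLocalRing.ResidueField.algebraMap_eq, hq, Matrix.smul_single, smul_eq_mul, mul_one]
  exact ⟨(AlgEquiv.ofBijective (desc_XiAlg E hmul hone) ⟨hinj, hsurj⟩).symm⟩

/-- the representation attached to an algebra isomorphism `S ≃ M₂(P)` -/
theorem desc_exists_rep_of_algEquiv
    (Ψ : S ≃ₐ[P] Matrix (Fin 2) (Fin 2) P)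
    (bS : Module.Basis (Fin 4) P S) (M : GalQ →* S) (γ : Fin 4 → GalQ) (c : GalQ → Fin 4 → P)
    (hb : ∀ i, bS i = M (γ i)) (hM : ∀ σ, M σ = ∑ i, c σ i • M (γ i))
    (hcont : ∀ n : ℕ, ∃ L : IntermediateField ℚ (AlgebraicClosure ℚ), FiniteDimensional ℚ L ∧
      ∀ σ : GalQ, (∀ x ∈ L, σ x = x) → ∀ i, c σ i - c 1 i ∈ maximalIdeal P ^ n) :
    ∃ ρ : GaloisRepAdic P, IsFrameFor ρ γ ∧ HasStructConst ρ γ c := by
  let Λ : S ≃ₐ[P] Module.End P (Fin 2 → P) := Ψ.trans Matrix.toLinAlgEquiv'
  have hΛM : ∀ σ, Λ (M σ) = ∑ i, c σ i • Λ (M (γ i)) := by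
    intro σ
    conv_lhs => rw [hM σ]
    rw [map_sum]
    exact Finset.sum_congr rfl fun i _ => map_smul _ _ _
  let ρ : GaloisRepAdic P :=
    { V := Fin 2 → P
      finrank_eq := by simp
      ρ := { toFun := fun σ => Λ (M σ)
             map_one' := by rw [map_one, map_one]
             map_mul' := fun σ τ => by rw [map_mul, map_mul] }
      isAdicContinuous := by
        intro n
        obtain ⟨L, hL, hc⟩ := hcont n
        refine ⟨L, hL, fun σ hσ v => ?_⟩
        show Λ (M σ) v - v ∈ _
        have h2 : Λ (M 1) v = v := by rw [map_one, map_one]; rfl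
        have h1 : Λ (M σ) v - v = ∑ i, (c σ i - c 1 i) • (Λ (M (γ i)) v) := by
          calc Λ (M σ) v - v = Λ (M σ) v - Λ (M 1) v := by rw [h2]
            _ = ∑ i, (c σ i - c 1 i) • (Λ (M (γ i)) v) := by
              rw [hΛM σ, hΛM 1]
              simp only [LinearMap.sum_apply, LinearMap.smul_apply, ← Finset.sum_sub_distrib,
                sub_smul]
        rw [h1]
        exact Submodule.sum_mem _ fun i _ =>
          Submodule.smul_mem_smul (hc σ hσ i) Submodule.mem_top }
  have hΛsmul : ∀ (g : Fin 4 → P), Λ (∑ i, g i • bS i) = ∑ i, g i • Λ (M (γ i)) := by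
    intro g
    rw [map_sum]
    exact Finset.sum_congr rfl fun i _ => by rw [← hb i]; exact map_smul _ _ _
  refine ⟨ρ, ⟨?_, ?_⟩, ?_⟩
  · rw [Fintype.linearIndependent_iff]
    intro g hg i
    have h1 : Λ (∑ i, g i • bS i) = 0 := by rw [hΛsmul]; exact hg
    have h2 : ∑ i, g i • bS i = 0 := by
      have := Λ.injective (h1.trans (map_zero Λ).symm)
      exact this
    exact Fintype.linearIndependent_iff.1 bS.linearIndependent g h2 i
  · rw [eq_top_iff]
    intro T _
    obtain ⟨x, rfl⟩ := Λ.surjective T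
    rw [← bS.sum_repr x, hΛsmul]
    exact Submodule.sum_mem _ fun i _ =>
      Submodule.smul_mem _ _ (Submodule.subset_span ⟨i, rfl⟩)
  · intro σ
    exact hΛM σ

end CoreAssembly

section Residual

/-- linear independence of matrices is preserved by a field extension -/
theorem desc_linearIndependent_map {k K : Type*} [Field k] [Field K] (ι : k →+* K)
    (v : Fin 4 → Matrix (Fin 2) (Fin 2) k) (hv : LinearIndependent k v) :
    LinearIndependent K (fun i => (v i).map ι) := by
  classical
  let e : Fin 2 × Fin 2 ≃ Fin 4 := finProdFinEquiv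
  let A : Matrix (Fin 4) (Fin 4) k := fun j i => (v i) (e.symm j).1 (e.symm j).2
  have hA : A.det ≠ 0 := by
    intro h0
    obtain ⟨g, hg0, hg⟩ := Matrix.exists_mulVec_eq_zero_iff.2 h0
    apply hg0
    have hsum : ∑ i, g i • v i = 0 := by
      ext a b
      have := congrFun hg (e (a, b))
      simp only [Matrix.mulVec, dotProduct, A, Equiv.symm_apply_apply, Pi.zero_apply] at this
      simp only [Matrix.sum_apply, Matrix.smul_apply, smul_eq_mul, Matrix.zero_apply]
      rw [← this]
      exact Finset.sum_congr rfl fun i _ => mul_comm _ _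
    funext i
    exact Fintype.linearIndependent_iff.1 hv g hsum i
  have hA' : (A.map ι).det ≠ 0 := by
    rw [← RingHom.mapMatrix_apply, ← RingHom.map_det]
    exact (map_ne_zero ι).2 hA
  rw [Fintype.linearIndependent_iff]
  intro g hg i
  have hmv : (A.map ι).mulVec g = 0 := by
    funext j
    have := congrFun (congrFun hg (e.symm j).1) (e.symm j).2
    simp only [Matrix.sum_apply, Matrix.smul_apply, smul_eq_mul, Matrix.zero_apply,
      Matrix.map_apply] at this
    simp only [Matrix.mulVec, dotProduct, A, Pi.zero_apply]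
    rw [← this]
    exact Finset.sum_congr rfl fun i _ => mul_comm _ _
  have := Matrix.eq_zero_of_mulVec_eq_zero hA' hmv
  exact congrFun this i

/-- matrix form of the residual representation, base changed along `ι` -/
theorem desc_exists_residual_matrix {k : Type} [Field k] (ρbar : ResidualGaloisRep k)
    (γ : Fin 4 → GalQ) (hγ : IsResFrame ρbar γ) {K : Type*} [Field K] (ι : k →+* K)
    (cbar : GalQ → Fin 4 → k) (hcbar : ResHasStructConst ρbar γ cbar) :
    ∃ r : GalQ →* Matrix (Fin 2) (Fin 2) K, LinearIndependent K (fun i => r (γ i)) ∧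
      ∀ σ, r σ = ∑ i, ι (cbar σ i) • r (γ i) := by
  let β : Module.Basis (Fin 2) k ρbar.V := Module.finBasisOfFinrankEq k ρbar.V ρbar.finrank_eq
  let T : Module.End k ρbar.V ≃ₐ[k] Matrix (Fin 2) (Fin 2) k := LinearMap.toMatrixAlgEquiv β
  let r : GalQ →* Matrix (Fin 2) (Fin 2) K :=
    { toFun := fun σ => (T (ρbar.ρ σ)).map ι
      map_one' := by rw [map_one, map_one]; simp
      map_mul' := fun σ τ => by rw [map_mul, map_mul, Matrix.map_mul] }
  have hr : ∀ σ, r σ = (T (ρbar.ρ σ)).map ι := fun σ => rfl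
  refine ⟨r, ?_, ?_⟩
  · have h1 : LinearIndependent k (fun i => T (ρbar.ρ (γ i))) :=
      hγ.map' T.toLinearMap (LinearMap.ker_eq_bot.2 T.injective)
    exact desc_linearIndependent_map ι _ h1
  · intro σ
    rw [hr, hcbar σ, map_sum]
    ext a b
    simp only [Matrix.map_apply, Matrix.sum_apply, map_sum, Matrix.smul_apply, smul_eq_mul, hr,
      map_smul, map_mul]

end Residual

end Fermat.Agent.S53
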