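import Fermat.Agent.S53.Defs

set_option autoImplicit false
set_option linter.style.haveILetI false

open IsLocalRing

namespace Fermat.Agent.S53

/-- WP8 (file Fermat/Agent/S53/DualNumberHom.lean). The `𝒪`-algebra structure on the dual numbers
is EXACTLY the one used in `GaloisRep.TangentFinite`. -/
theorem exists_algHom_dualNumber (𝒪 : Type) [CommRing 𝒪] [IsLocalRing 𝒪]
    {A : Type} [CommRing A] [IsLocalRing A] [Algebra 𝒪 A]
    (hloc : IsLocalHom (algebraMap 𝒪 A))
    (hres : Function.Surjective (residue A ∘ algebraMap 𝒪 A))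
    (hsq : maximalIdeal A ^ 2 = ⊥) (hπ : ∀ a ∈ maximalIdeal 𝒪, algebraMap 𝒪 A a = 0)
    (v : A) (hv : v ∈ maximalIdeal A) (hv0 : v ≠ 0) :
    letI : Algebra 𝒪 (DualNumber (ResidueField 𝒪)) :=
      ((algebraMap (ResidueField 𝒪) (DualNumber (ResidueField 𝒪))).comp
        (algebraMap 𝒪 (ResidueField 𝒪))).toAlgebra
    ∃ φ : A →ₐ[𝒪] DualNumber (ResidueField 𝒪),
      IsLocalHom (φ : A →+* DualNumber (ResidueField 𝒪)) ∧ φ v ≠ 0 := by
  letI inst : Algebra 𝒪 (DualNumber (ResidueField 𝒪)) :=
    ((algebraMap (ResidueField 𝒪) (DualNumber (ResidueField 𝒪))).comp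
      (algebraMap 𝒪 (ResidueField 𝒪))).toAlgebra
  haveI := hloc
  -- the section k → A
  let s : ResidueField 𝒪 →+* A := Ideal.Quotient.lift (maximalIdeal 𝒪) (algebraMap 𝒪 A) hπ
  have hs : ∀ c : 𝒪, s (residue 𝒪 c) = algebraMap 𝒪 A c := fun c => rfl
  -- the iso k ≃ residue field of A
  let m : ResidueField 𝒪 →+* ResidueField A := ResidueField.map (algebraMap 𝒪 A)
  have hm : ∀ c : 𝒪, m (residue 𝒪 c) = residue A (algebraMap 𝒪 A c) := fun c => rfl
  have hminj : Function.Injective m := m.injective
  have hmsurj : Function.Surjective m := by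
    intro x
    obtain ⟨c, hc⟩ := hres x
    exact ⟨residue 𝒪 c, hc⟩
  let e : ResidueField 𝒪 ≃+* ResidueField A := RingEquiv.ofBijective m ⟨hminj, hmsurj⟩
  have he : ∀ x, e x = m x := fun x => rfl
  let r : A →+* ResidueField 𝒪 := (e.symm : ResidueField A →+* ResidueField 𝒪).comp (residue A)
  have hr : ∀ a, e (r a) = residue A a := fun a => e.apply_symm_apply _
  have hrs : ∀ x, r (s x) = x := by
    intro x
    obtain ⟨c, rfl⟩ := residue_surjective x
    apply e.injective
    rw [hr, hs, he, hm]
  have hres_s : ∀ x, residue A (s x) = e x := by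
    intro x
    obtain ⟨c, rfl⟩ := residue_surjective x
    rw [hs, he, hm]
  have hmem : ∀ a : A, a - s (r a) ∈ maximalIdeal A := by
    intro a
    rw [← residue_eq_zero_iff, map_sub, hres_s, hr, sub_self]
  have hrv : ∀ a ∈ maximalIdeal A, r a = 0 := by
    intro a ha
    apply e.injective
    rw [hr, map_zero]
    exact (residue_eq_zero_iff a).mpr ha
  have hmul0 : ∀ x ∈ maximalIdeal A, ∀ y ∈ maximalIdeal A, x * y = 0 := by
    intro x hx y hy
    have : x * y ∈ maximalIdeal A ^ 2 := by
      rw [pow_two]; exact Ideal.mul_mem_mul hx hy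
    rw [hsq] at this
    exact this
  -- k-algebra structure on A
  letI algkA : Algebra (ResidueField 𝒪) A := s.toAlgebra
  have hsmul : ∀ (x : ResidueField 𝒪) (a : A), x • a = s x * a := fun x a => rfl
  -- the maximal ideal as a k-vector space
  let M : Submodule (ResidueField 𝒪) A := (maximalIdeal A).restrictScalars (ResidueField 𝒪)
  have hvM : v ∈ M := hv
  -- a functional not vanishing at v
  obtain ⟨lam, hlam⟩ : ∃ lam : Module.Dual (ResidueField 𝒪) M, lam ⟨v, hvM⟩ ≠ 0 := by
    by_contra hcon
    push Not at hcon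
    have := (Module.forall_dual_apply_eq_zero_iff (ResidueField 𝒪) (⟨v, hvM⟩ : M)).mp hcon
    exact hv0 (congrArg Subtype.val this)
  -- the function
  let t : A → M := fun a => ⟨a - s (r a), hmem a⟩
  have ht_add : ∀ a b, t (a + b) = t a + t b := by
    intro a b
    apply Subtype.ext
    change (a + b) - s (r (a + b)) = (a - s (r a)) + (b - s (r b))
    rw [map_add, map_add]; ring
  have ht_mul : ∀ a b, t (a * b) = r a • t b + r b • t a := by
    intro a b
    apply Subtype.ext
    change (a * b) - s (r (a * b)) = s (r a) * (b - s (r b)) + s (r b) * (a - s (r a))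
    have h0 := hmul0 _ (hmem a) _ (hmem b)
    rw [map_mul, map_mul]
    linear_combination h0
  have ht_alg : ∀ c : 𝒪, t (algebraMap 𝒪 A c) = 0 := by
    intro c
    apply Subtype.ext
    change algebraMap 𝒪 A c - s (r (algebraMap 𝒪 A c)) = 0
    rw [← hs, hrs, sub_self]
  let φfun : A → DualNumber (ResidueField 𝒪) := fun a =>
    TrivSqZeroExt.inl (r a) + TrivSqZeroExt.inr (lam (t a))
  have hfst : ∀ a, (φfun a).fst = r a := fun a => by simp [φfun]
  have hsnd : ∀ a, (φfun a).snd = lam (t a) := fun a => by simp [φfun]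
  have ht_one : t 1 = 0 := by
    have := ht_alg 1
    rwa [map_one] at this
  let φ : A →ₐ[𝒪] DualNumber (ResidueField 𝒪) :=
    { toFun := φfun
      map_one' := by
        apply TrivSqZeroExt.ext
        · rw [hfst]; simp
        · rw [hsnd, ht_one]; simp
      map_mul' := fun a b => by
        apply TrivSqZeroExt.ext
        · rw [hfst, TrivSqZeroExt.fst_mul, hfst, hfst, map_mul]
        · rw [hsnd, TrivSqZeroExt.snd_mul, hfst, hfst, hsnd, hsnd, ht_mul, map_add, map_smul,
            map_smul]
          simp [mul_comm]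
      map_zero' := by
        apply TrivSqZeroExt.ext
        · rw [hfst]; simp
        · rw [hsnd]
          have : t 0 = 0 := by
            have := ht_alg 0
            rwa [map_zero] at this
          rw [this]; simp
      map_add' := fun a b => by
        apply TrivSqZeroExt.ext
        · rw [hfst, TrivSqZeroExt.fst_add, hfst, hfst, map_add]
        · rw [hsnd, TrivSqZeroExt.snd_add, hsnd, hsnd, ht_add, map_add]
      commutes' := fun c => by
        apply TrivSqZeroExt.ext
        · rw [hfst, ← hs, hrs]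
          rfl
        · rw [hsnd, ht_alg, map_zero]
          rfl }
  have hφfst : ∀ a, (φ a).fst = r a := hfst
  have hφsnd : ∀ a, (φ a).snd = lam (t a) := hsnd
  refine ⟨φ, ⟨fun a ha => ?_⟩, ?_⟩
  · by_contra hna
    have ha' : a ∈ maximalIdeal A := hna
    have h0 : (φ a).fst = 0 := by rw [hφfst, hrv a ha']
    have hu : IsUnit (φ a).fst := (TrivSqZeroExt.isUnit_iff_isUnit_fst).mp ha
    rw [h0] at hu
    exact not_isUnit_zero hu
  · intro h0
    have h1 : (φ v).snd = 0 := by rw [h0]; rfl
    rw [hφsnd] at h1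
    apply hlam
    have : t v = ⟨v, hvM⟩ := by
      apply Subtype.ext
      change v - s (r v) = v
      rw [hrv v hv, map_zero, sub_zero]
    rw [← this]
    exact h1

end Fermat.Agent.S53
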