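import Fermat.Agent.S53.Defs

/-!
# S53, work package 1: frames (Burnside in dimension two, lifting frames, base change)
-/

set_option autoImplicit false

namespace Fermat.Agent.S53

section Burnside

variable {K : Type*} [Field K] [IsAlgClosed K] {W : Type*} [AddCommGroup W] [Module K W]

/-- Burnside's theorem in dimension two: a multiplicatively closed set of endomorphisms of a
two-dimensional vector space over an algebraically closed field without invariant lines spans
the endomorphism algebra. -/
theorem frame_burnside_two (hW : Module.finrank K W = 2) (S : Submonoid (Module.End K W))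
    (hirr : ∀ U : Submodule K W, (∀ s ∈ S, ∀ x ∈ U, s x ∈ U) → U = ⊥ ∨ U = ⊤) :
    Submodule.span K (S : Set (Module.End K W)) = ⊤ := by
  classical
  have : FiniteDimensional K W := Module.finite_of_finrank_pos (by rw [hW]; norm_num)
  have : Nontrivial W := Module.nontrivial_of_finrank_pos (R := K) (by rw [hW]; norm_num)
  set E : Submodule K (Module.End K W) := Submodule.span K (S : Set (Module.End K W)) with hE
  have hSE : ∀ s ∈ S, s ∈ E := fun s hs => Submodule.subset_span hs
  have h1E : (1 : Module.End K W) ∈ E := hSE 1 S.one_mem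
  -- E is closed under multiplication
  have hmul : ∀ X ∈ E, ∀ Y ∈ E, X * Y ∈ E := by
    intro X hX Y hY
    have h1 : X * Y ∈ E * E := Submodule.mul_mem_mul hX hY
    have h2 : E * E ≤ E := by
      rw [hE, Submodule.span_mul_span]
      apply Submodule.span_mono
      rintro _ ⟨a, ha, b, hb, rfl⟩
      exact S.mul_mem ha hb
    exact h2 h1
  -- (i) transitivity
  have htrans : ∀ v : W, v ≠ 0 → ∀ w : W, ∃ X ∈ E, X v = w := by
    intro v hv w
    set U : Submodule K W := E.map (LinearMap.applyₗ v) with hU
    have hUstab : ∀ s ∈ S, ∀ x ∈ U, s x ∈ U := by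
      rintro s hs x ⟨X, hX, rfl⟩
      exact ⟨s * X, hmul s (hSE s hs) X hX, rfl⟩
    have hvU : v ∈ U := ⟨1, h1E, rfl⟩
    rcases hirr U hUstab with h | h
    · rw [h] at hvU
      exact absurd ((Submodule.mem_bot K).mp hvU) hv
    · have : w ∈ U := by rw [h]; exact Submodule.mem_top
      obtain ⟨X, hX, hXw⟩ := this
      exact ⟨X, hX, hXw⟩
  -- (ii) a non-scalar element
  have hnonscalar : ∃ Y ∈ S, ∀ c : K, Y ≠ c • (1 : Module.End K W) := by
    by_contra hcon
    push Not at hcon
    obtain ⟨v, hv⟩ := exists_ne (0 : W)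
    have hstab : ∀ s ∈ S, ∀ x ∈ Submodule.span K ({v} : Set W), s x ∈ Submodule.span K ({v} : Set W) := by
      intro s hs x hx
      obtain ⟨c, hc⟩ := hcon s hs
      rw [hc]
      simpa using Submodule.smul_mem _ c hx
    rcases hirr _ hstab with h | h
    · have : v ∈ Submodule.span K ({v} : Set W) := Submodule.mem_span_singleton_self v
      rw [h] at this
      exact hv ((Submodule.mem_bot K).mp this)
    · have h1 : Module.finrank K (Submodule.span K ({v} : Set W)) = 1 := finrank_span_singleton hv
      rw [h, finrank_top, hW] at h1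
      omega
  obtain ⟨Y, hYS, hY⟩ := hnonscalar
  obtain ⟨lam, hlam⟩ := Module.End.exists_eigenvalue Y
  obtain ⟨v, hv⟩ := hlam.exists_hasEigenvector
  have hv0 : v ≠ 0 := hv.2
  have hYv : Y v = lam • v := hv.apply_eq_smul
  set X : Module.End K W := Y - lam • 1 with hX
  have hXE : X ∈ E := E.sub_mem (hSE Y hYS) (E.smul_mem lam h1E)
  have hXv : X v = 0 := by simp [hX, hYv]
  have hX0 : X ≠ 0 := by
    intro h0
    apply hY lam
    have : Y - lam • 1 = 0 := h0
    exact sub_eq_zero.mp this
  obtain ⟨w₀, hw₀⟩ : ∃ w₀, X w₀ ≠ 0 := by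
    by_contra hcon
    push Not at hcon
    exact hX0 (LinearMap.ext hcon)
  set u := X w₀ with hu
  -- basis v, w₀
  have hli : LinearIndependent K ![v, w₀] := by
    rw [LinearIndependent.pair_iff]
    intro s t hst
    have h1 := congrArg X hst
    simp only [map_add, map_smul, hXv, smul_zero, zero_add, map_zero] at h1
    have ht : t = 0 := by
      rcases smul_eq_zero.mp h1 with h | h
      · exact h
      · exact absurd h hw₀
    rw [ht, zero_smul, add_zero] at hst
    have hs : s = 0 := by
      rcases smul_eq_zero.mp hst with h | h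
      · exact h
      · exact absurd h hv0
    exact ⟨hs, ht⟩
  let b : Module.Basis (Fin 2) K W := basisOfLinearIndependentOfCardEqFinrank hli (by simp [hW])
  have hb0 : b 0 = v := by simp [b]
  have hb1 : b 1 = w₀ := by simp [b]
  -- the transitive elements
  obtain ⟨Z₁, hZ₁E, hZ₁⟩ := htrans v hv0 w₀
  have hYw : ∀ w : W, ∃ Yw ∈ E, Yw u = w := htrans u hw₀
  -- decomposition of Z₁ w₀
  set c := b.repr (Z₁ w₀) 1 with hc
  have hZw : Z₁ w₀ = b.repr (Z₁ w₀) 0 • v + c • w₀ := by
    conv_lhs => rw [← b.sum_repr (Z₁ w₀)]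
    rw [Fin.sum_univ_two, hb0, hb1]
  have hXZw : X (Z₁ w₀) = c • u := by
    rw [hZw, map_add, map_smul, map_smul, hXv, smul_zero, zero_add]
  rw [eq_top_iff]
  intro T _
  obtain ⟨Y₁, hY₁E, hY₁⟩ := hYw (T v)
  obtain ⟨Y₂, hY₂E, hY₂⟩ := hYw (T w₀)
  have hT : T = Y₁ * X * Z₁ - c • (Y₁ * X) + Y₂ * X := by
    apply b.ext
    intro i
    fin_cases i
    · simp only [Fin.zero_eta, hb0, LinearMap.add_apply, LinearMap.sub_apply, Module.End.mul_apply,
        LinearMap.smul_apply, hZ₁, hXv, map_zero, smul_zero, sub_zero, add_zero]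
      rw [← hu, hY₁]
    · simp only [Fin.mk_one, hb1, LinearMap.add_apply, LinearMap.sub_apply, Module.End.mul_apply,
        LinearMap.smul_apply, hXZw, map_smul]
      rw [← hu, hY₁, hY₂]
      simp
  rw [hT]
  exact E.add_mem (E.sub_mem (hmul _ (hmul _ hY₁E _ hXE) _ hZ₁E) (E.smul_mem c (hmul _ hY₁E _ hXE)))
    (hmul _ hY₂E _ hXE)

end Burnside

section Extract

variable {K : Type*} [Field K] {W : Type*} [AddCommGroup W] [Module K W]

theorem frame_finrank_end (hW : Module.finrank K W = 2) :
    Module.finrank K (Module.End K W) = 4 := by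
  have : FiniteDimensional K W := Module.finite_of_finrank_pos (by rw [hW]; norm_num)
  rw [Module.finrank_linearMap, hW]

/-- From a spanning set of `End W` extract four linearly independent elements. -/
theorem frame_exists_four (hW : Module.finrank K W = 2) (S : Set (Module.End K W))
    (hS : Submodule.span K S = ⊤) :
    ∃ f : Fin 4 → Module.End K W, (∀ i, f i ∈ S) ∧ LinearIndependent K f := by
  have : FiniteDimensional K W := Module.finite_of_finrank_pos (by rw [hW]; norm_num)
  have : Module.Finite K (Submodule.span K S) := by rw [hS]; infer_instance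
  obtain ⟨f, hfS, -, hfli⟩ := Submodule.exists_fun_fin_finrank_span_eq K S
  have h4 : Module.finrank K (Submodule.span K S) = 4 := by
    rw [hS, finrank_top, frame_finrank_end hW]
  refine ⟨f ∘ Fin.cast h4.symm, fun i => hfS _, ?_⟩
  exact hfli.comp _ (Fin.cast_injective _)

end Extract

section WP1a

open scoped TensorProduct

/-- Base change of endomorphisms reflects linear independence. -/
theorem frame_linearIndependent_of_baseChange {k : Type*} [Field k] {K : Type*} [Field K]
    [Algebra k K] {V : Type*} [AddCommGroup V] [Module k V] {ι : Type*}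
    (T : ι → Module.End k V)
    (h : LinearIndependent K (fun i => (T i).baseChange K)) : LinearIndependent k T := by
  have h1 : LinearIndependent k (fun i => (T i).baseChange K) :=
    LinearIndependent.restrict_scalars' k h
  exact LinearIndependent.of_comp (LinearMap.baseChangeHom k K V V) h1

/-- WP1a (Burnside, dim 2). -/
theorem exists_isResFrame {k : Type} [Field k] (ρbar : ResidualGaloisRep k)
    (h : ρbar.IsAbsolutelyIrreducible) : ∃ γ : Fin 4 → GalQ, IsResFrame ρbar γ := by
  have hW : Module.finrank (AlgebraicClosure k) (ρbar.baseChange (AlgebraicClosure k)).V = 2 :=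
    (ρbar.baseChange (AlgebraicClosure k)).finrank_eq
  have hspan := frame_burnside_two hW (MonoidHom.mrange (ρbar.baseChange (AlgebraicClosure k)).ρ)
    (fun U hU => h U (fun σ x hx => hU _ ⟨σ, rfl⟩ x hx))
  obtain ⟨f, hfS, hfli⟩ := frame_exists_four hW _ hspan
  choose γ hγ using hfS
  refine ⟨γ, ?_⟩
  apply frame_linearIndependent_of_baseChange (K := AlgebraicClosure k)
  have : (fun i => (ρbar.ρ (γ i)).baseChange (AlgebraicClosure k)) = f := by
    funext i
    exact hγ i
  rw [this]
  exact hfli

/-- WP1a'. A residual frame spans, hence structure constants exist (and are unique). -/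
theorem exists_resHasStructConst {k : Type} [Field k] (ρbar : ResidualGaloisRep k)
    (γ : Fin 4 → GalQ) (hγ : IsResFrame ρbar γ) :
    ∃ cbar : GalQ → Fin 4 → k, ResHasStructConst ρbar γ cbar := by
  have h4 : Fintype.card (Fin 4) = Module.finrank k (Module.End k ρbar.V) := by
    rw [frame_finrank_end ρbar.finrank_eq]; rfl
  let b : Module.Basis (Fin 4) k (Module.End k ρbar.V) :=
    basisOfLinearIndependentOfCardEqFinrank hγ h4
  refine ⟨fun σ i => b.repr (ρbar.ρ σ) i, fun σ => ?_⟩
  conv_lhs => rw [← b.sum_repr (ρbar.ρ σ)]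
  refine Finset.sum_congr rfl fun i _ => ?_
  have hbi : b i = ρbar.ρ (γ i) :=
    congrFun (coe_basisOfLinearIndependentOfCardEqFinrank hγ h4) i
  rw [hbi]

end WP1a


section EndBasis

open scoped TensorProduct
open Module

variable {R : Type*} [CommRing R] {V : Type*} [AddCommGroup V] [Module R V]

/-- index bijection -/
def frameIdx : Fin 2 × Fin 2 ≃ Fin 4 := finProdFinEquiv (m := 2) (n := 2)

/-- The basis of `End_R(V)` by matrix units attached to a basis `b` of `V`, indexed by `Fin 4`. -/
noncomputable def frameEndBasis (b : Basis (Fin 2) R V) : Basis (Fin 4) R (Module.End R V) :=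
  ((Matrix.stdBasis R (Fin 2) (Fin 2)).map (LinearMap.toMatrix b b).symm).reindex frameIdx

theorem frameEndBasis_repr (b : Basis (Fin 2) R V) (T : Module.End R V) (i : Fin 4) :
    (frameEndBasis b).repr T i =
      LinearMap.toMatrix b b T (frameIdx.symm i).1 (frameIdx.symm i).2 := by
  simp [frameEndBasis, Matrix.stdBasis]

/-- frame determinant -/
noncomputable def frameDet (b : Basis (Fin 2) R V) (T : Fin 4 → Module.End R V) : R :=
  (frameEndBasis b).det T

theorem frameDet_eq (b : Basis (Fin 2) R V) (T : Fin 4 → Module.End R V) :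
    frameDet b T = Matrix.det (Matrix.of fun i j : Fin 4 =>
      LinearMap.toMatrix b b (T j) (frameIdx.symm i).1 (frameIdx.symm i).2) := by
  unfold frameDet
  rw [Basis.det_apply]
  congr 1

theorem frame_isBasis_iff (b : Basis (Fin 2) R V) (T : Fin 4 → Module.End R V) :
    (LinearIndependent R T ∧ Submodule.span R (Set.range T) = ⊤) ↔ IsUnit (frameDet b T) :=
  (frameEndBasis b).is_basis_iff_det

theorem frameDet_baseChange (b : Basis (Fin 2) R V) (T : Fin 4 → Module.End R V)
    (B : Type*) [CommRing B] [Algebra R B] :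
    frameDet (Algebra.TensorProduct.basis B b) (fun i => (T i).baseChange B)
      = algebraMap R B (frameDet b T) := by
  rw [frameDet_eq, frameDet_eq, RingHom.map_det]
  congr 1
  ext i j
  simp only [LinearMap.toMatrix_baseChange, Matrix.map_apply, RingHom.mapMatrix_apply,
    Matrix.of_apply]

end EndBasis


section WP1c

open scoped TensorProduct
open Module IsLocalRing

/-- A basis of the rank two module underlying a `GaloisRepAdic`. -/
noncomputable def frameBasisOf {A : Type} [CommRing A] [IsLocalRing A] (ρ : GaloisRepAdic A) :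
    Basis (Fin 2) A ρ.V :=
  Module.finBasisOfFinrankEq A ρ.V ρ.finrank_eq

theorem isFrameFor_iff_isUnit {A : Type} [CommRing A] [IsLocalRing A] (ρ : GaloisRepAdic A)
    (γ : Fin 4 → GalQ) :
    IsFrameFor ρ γ ↔ IsUnit (frameDet (frameBasisOf ρ) (fun i => ρ.ρ (γ i))) :=
  frame_isBasis_iff (frameBasisOf ρ) (fun i => ρ.ρ (γ i))

/-- general base change of a "frame" -/
theorem frame_isBasis_baseChange {R : Type*} [CommRing R] {V : Type*} [AddCommGroup V]
    [Module R V] (b : Basis (Fin 2) R V) (T : Fin 4 → Module.End R V)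
    (B : Type*) [CommRing B] [Algebra R B]
    (h : LinearIndependent R T ∧ Submodule.span R (Set.range T) = ⊤) :
    LinearIndependent B (fun i => (T i).baseChange B) ∧
      Submodule.span B (Set.range fun i => (T i).baseChange B) = ⊤ := by
  rw [frame_isBasis_iff (Algebra.TensorProduct.basis B b), frameDet_baseChange]
  exact ((frame_isBasis_iff b T).mp h).map _

/-- general base change of structure constants -/
theorem frame_structConst_baseChange {R : Type*} [CommRing R] {V : Type*} [AddCommGroup V]
    [Module R V] {ι : Type*} [Fintype ι] (T : ι → Module.End R V) (X : Module.End R V)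
    (c : ι → R) (B : Type*) [CommRing B] [Algebra R B] (h : X = ∑ i, c i • T i) :
    X.baseChange B = ∑ i, algebraMap R B (c i) • (T i).baseChange B := by
  rw [h]
  have hsum : (∑ j, c j • T j).baseChange B = ∑ j, (c j • T j).baseChange B :=
    map_sum (LinearMap.baseChangeHom R B V V) _ _
  rw [hsum]
  refine Finset.sum_congr rfl fun j _ => ?_
  rw [LinearMap.baseChange_smul, algebraMap_smul]

/-- WP1c: frames and structure constants are stable under base change. -/
theorem isFrameFor_baseChangeAlong {A B : Type} [CommRing A] [IsLocalRing A] [CommRing B]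
    [IsLocalRing B] (φ : A →+* B) (hφ : IsLocalHom φ) (ρ : GaloisRepAdic A)
    (γ : Fin 4 → GalQ) (h : IsFrameFor ρ γ) : IsFrameFor (ρ.baseChangeAlong φ hφ) γ := by
  letI : Algebra A B := φ.toAlgebra
  exact frame_isBasis_baseChange (frameBasisOf ρ) (fun i => ρ.ρ (γ i)) B h

theorem hasStructConst_baseChangeAlong {A B : Type} [CommRing A] [IsLocalRing A] [CommRing B]
    [IsLocalRing B] (φ : A →+* B) (hφ : IsLocalHom φ) (ρ : GaloisRepAdic A)
    (γ : Fin 4 → GalQ) (c : GalQ → Fin 4 → A) (h : HasStructConst ρ γ c) :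
    HasStructConst (ρ.baseChangeAlong φ hφ) γ (fun σ i => φ (c σ i)) := by
  letI : Algebra A B := φ.toAlgebra
  intro σ
  exact frame_structConst_baseChange (fun i => ρ.ρ (γ i)) (ρ.ρ σ) (c σ) B (h σ)

end WP1c

section WP1b

open scoped TensorProduct
open Module IsLocalRing

/-- Over a field, four linearly independent endomorphisms of a plane span. -/
theorem frame_span_of_linearIndependent {K : Type*} [Field K] {W : Type*} [AddCommGroup W]
    [Module K W] (hW : finrank K W = 2) (T : Fin 4 → Module.End K W)
    (h : LinearIndependent K T) : Submodule.span K (Set.range T) = ⊤ := by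
  have : FiniteDimensional K W := Module.finite_of_finrank_pos (by rw [hW]; norm_num)
  exact h.span_eq_top_of_card_eq_finrank' (by rw [frame_finrank_end hW]; rfl)

/-- Intertwined families: linear independence transfers along an equivalence. -/
theorem frame_linearIndependent_of_intertwine {K : Type*} [CommRing K] {V V' : Type*}
    [AddCommGroup V] [Module K V] [AddCommGroup V'] [Module K V'] {ι : Type*}
    (e : V ≃ₗ[K] V') (T : ι → Module.End K V) (T' : ι → Module.End K V')
    (hT : ∀ i x, e (T i x) = T' i (e x)) (h : LinearIndependent K T') :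
    LinearIndependent K T := by
  have hconj : (fun i => e.conj (T i)) = T' := by
    funext i
    apply LinearMap.ext
    intro y
    rw [LinearEquiv.conj_apply_apply, hT, LinearEquiv.apply_symm_apply]
  rw [← hconj] at h
  exact LinearIndependent.of_comp e.conj.toLinearMap h

theorem frame_conj_eq_of_intertwine {K : Type*} [CommRing K] {V V' : Type*}
    [AddCommGroup V] [Module K V] [AddCommGroup V'] [Module K V']
    (e : V ≃ₗ[K] V') (X : Module.End K V) (X' : Module.End K V')
    (hX : ∀ x, e (X x) = X' (e x)) : e.symm.conj X' = X := by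
  apply LinearMap.ext
  intro y
  rw [LinearEquiv.conj_apply_apply, LinearEquiv.symm_symm, ← hX, LinearEquiv.symm_apply_apply]

/-- The core of WP1b, with an explicit algebra structure on the residue field. -/
theorem frame_lift_core {k : Type} [Field k] (ρbar : ResidualGaloisRep k)
    (γ : Fin 4 → GalQ) (hγ : IsResFrame ρbar γ) (cbar : GalQ → Fin 4 → k)
    (hcbar : ResHasStructConst ρbar γ cbar)
    {A : Type} [CommRing A] [IsLocalRing A] [Algebra k (ResidueField A)]
    (ρ : GaloisRepAdic A)
    (e : (ResidueField A ⊗[A] ρ.V) ≃ₗ[ResidueField A] (ResidueField A ⊗[k] ρbar.V))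
    (he : ∀ (σ : GalQ) (x : ResidueField A ⊗[A] ρ.V),
      e ((ρ.ρ σ).baseChange (ResidueField A) x) = (ρbar.ρ σ).baseChange (ResidueField A) (e x)) :
    IsFrameFor ρ γ ∧ ∃ c : GalQ → Fin 4 → A, HasStructConst ρ γ c ∧
      ∀ σ i, residue A (c σ i) = algebraMap k (ResidueField A) (cbar σ i) := by
  -- residual frame over k
  have hspan : Submodule.span k (Set.range fun i => ρbar.ρ (γ i)) = ⊤ :=
    frame_span_of_linearIndependent ρbar.finrank_eq _ hγ
  let bbar : Basis (Fin 2) k ρbar.V := Module.finBasisOfFinrankEq k ρbar.V ρbar.finrank_eq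
  -- base change to the residue field of A
  have h' := frame_isBasis_baseChange bbar (fun i => ρbar.ρ (γ i)) (ResidueField A) ⟨hγ, hspan⟩
  -- transport along e
  have hli_r : LinearIndependent (ResidueField A)
      (fun i => (ρ.ρ (γ i)).baseChange (ResidueField A)) :=
    frame_linearIndependent_of_intertwine e _ _ (fun i x => he (γ i) x) h'.1
  have hfin_r : finrank (ResidueField A) (ResidueField A ⊗[A] ρ.V) = 2 := by
    rw [Module.finrank_baseChange, ρ.finrank_eq]
  have hspan_r := frame_span_of_linearIndependent hfin_r _ hli_r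
  -- the frame determinant is a unit
  have hunit_r := (frame_isBasis_iff (Algebra.TensorProduct.basis (ResidueField A) (frameBasisOf ρ))
    (fun i => (ρ.ρ (γ i)).baseChange (ResidueField A))).mp ⟨hli_r, hspan_r⟩
  rw [frameDet_baseChange, ResidueField.algebraMap_eq] at hunit_r
  have hunit : IsUnit (frameDet (frameBasisOf ρ) (fun i => ρ.ρ (γ i))) :=
    isUnit_of_map_unit (residue A) _ hunit_r
  have hframe : IsFrameFor ρ γ := (isFrameFor_iff_isUnit ρ γ).mpr hunit
  refine ⟨hframe, ?_⟩
  -- structure constants
  let bE : Basis (Fin 4) A (Module.End A ρ.V) := Basis.mk hframe.1 hframe.2.ge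
  have hbE : ∀ i, bE i = ρ.ρ (γ i) := fun i => by simp [bE]
  have hc : HasStructConst ρ γ (fun σ i => bE.repr (ρ.ρ σ) i) := by
    intro σ
    conv_lhs => rw [← bE.sum_repr (ρ.ρ σ)]
    refine Finset.sum_congr rfl fun i _ => ?_
    rw [hbE]
  refine ⟨fun σ i => bE.repr (ρ.ρ σ) i, hc, ?_⟩
  intro σ
  -- two expansions of the residual endomorphism
  have h1 := frame_structConst_baseChange (fun i => ρ.ρ (γ i)) (ρ.ρ σ)
    (fun i => bE.repr (ρ.ρ σ) i) (ResidueField A) (hc σ)
  have h2 := frame_structConst_baseChange (fun i => ρbar.ρ (γ i)) (ρbar.ρ σ)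
    (cbar σ) (ResidueField A) (hcbar σ)
  have h3 : (ρ.ρ σ).baseChange (ResidueField A)
      = ∑ i, algebraMap k (ResidueField A) (cbar σ i) •
          (ρ.ρ (γ i)).baseChange (ResidueField A) := by
    rw [← frame_conj_eq_of_intertwine e _ _ (he σ), h2, map_sum]
    refine Finset.sum_congr rfl fun i _ => ?_
    rw [map_smul, frame_conj_eq_of_intertwine e _ _ (he (γ i))]
  rw [h1] at h3
  have h4 := Fintype.linearIndependent_iffₛ.mp hli_r _ _ h3
  intro i
  have := h4 i
  rwa [ResidueField.algebraMap_eq] at this

/-- WP1b (Nakayama): a lift of a residual frame is a frame, and its structure constants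
reduce to the residual ones. -/
theorem isFrameFor_of_residual_isEquiv {k : Type} [Field k] (ρbar : ResidualGaloisRep k)
    (γ : Fin 4 → GalQ) (hγ : IsResFrame ρbar γ) (cbar : GalQ → Fin 4 → k)
    (hcbar : ResHasStructConst ρbar γ cbar)
    {A : Type} [CommRing A] [IsLocalRing A] (ι : k →+* ResidueField A)
    (ρ : GaloisRepAdic A) (hρ : ρ.residual.IsEquiv (ρbar.baseChangeAlong ι)) :
    IsFrameFor ρ γ ∧ ∃ c : GalQ → Fin 4 → A, HasStructConst ρ γ c ∧
      ∀ σ i, residue A (c σ i) = ι (cbar σ i) := by
  letI : Algebra k (ResidueField A) := ι.toAlgebra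
  obtain ⟨E⟩ := hρ
  exact frame_lift_core ρbar γ hγ cbar hcbar ρ E.toLinearEquiv E.map_apply

end WP1b

section WP1d

open scoped TensorProduct
open Module IsLocalRing

/-- Field case of Skolem–Noether in terms of structure constants: two monoid representations on
vector spaces with a common frame and the same structure constants are intertwined by a linear
equivalence. -/
theorem frame_equiv_of_structConst {K : Type*} [Field K] {V V' : Type*} [AddCommGroup V]
    [Module K V] [AddCommGroup V'] [Module K V'] {G : Type*} [Monoid G]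
    (r : G →* Module.End K V) (r' : G →* Module.End K V') (γ : Fin 4 → G) (c : G → Fin 4 → K)
    (hf : LinearIndependent K (fun i => r (γ i)) ∧
      Submodule.span K (Set.range fun i => r (γ i)) = ⊤)
    (hf' : LinearIndependent K (fun i => r' (γ i)) ∧
      Submodule.span K (Set.range fun i => r' (γ i)) = ⊤)
    (h : ∀ σ, r σ = ∑ i, c σ i • r (γ i)) (h' : ∀ σ, r' σ = ∑ i, c σ i • r' (γ i)) :
    ∃ T : V ≃ₗ[K] V', ∀ σ x, T (r σ x) = r' σ (T x) := by
  classical
  let b : Basis (Fin 4) K (Module.End K V) := Basis.mk hf.1 hf.2.ge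
  let b' : Basis (Fin 4) K (Module.End K V') := Basis.mk hf'.1 hf'.2.ge
  have hb : ∀ i, b i = r (γ i) := fun i => by simp [b]
  have hb' : ∀ i, b' i = r' (γ i) := fun i => by simp [b']
  let α : Module.End K V ≃ₗ[K] Module.End K V' := b.equiv b' (Equiv.refl _)
  have hαb : ∀ i, α (r (γ i)) = r' (γ i) := by
    intro i
    rw [← hb, ← hb']
    simp [α]
  have hα : ∀ σ, α (r σ) = r' σ := by
    intro σ
    rw [h σ, h' σ, map_sum]
    refine Finset.sum_congr rfl fun i _ => ?_
    rw [map_smul, hαb]
  have hmul1 : ∀ i (y : Module.End K V), α (r (γ i) * y) = r' (γ i) * α y := by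
    intro i y
    have : α.toLinearMap ∘ₗ LinearMap.mulLeft K (r (γ i))
        = LinearMap.mulLeft K (r' (γ i)) ∘ₗ α.toLinearMap := by
      refine b.ext fun j => ?_
      simp only [LinearMap.comp_apply, LinearMap.mulLeft_apply, LinearEquiv.coe_coe]
      rw [hb, ← map_mul, hα, hαb, map_mul]
    exact LinearMap.congr_fun this y
  have hmul : ∀ x y : Module.End K V, α (x * y) = α x * α y := by
    intro x y
    have : α.toLinearMap ∘ₗ LinearMap.mulRight K y
        = LinearMap.mulRight K (α y) ∘ₗ α.toLinearMap := by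
      refine b.ext fun j => ?_
      simp only [LinearMap.comp_apply, LinearMap.mulRight_apply, LinearEquiv.coe_coe]
      rw [hb, hmul1, hαb]
    exact LinearMap.congr_fun this x
  have hone : α 1 = 1 := by
    rw [← map_one r, hα, map_one]
  obtain ⟨T, hT⟩ := (AlgEquiv.ofLinearEquiv α hone hmul).eq_linearEquivConjAlgEquiv
  refine ⟨T, fun σ x => ?_⟩
  have h1 : α (r σ) = T.conjAlgEquiv K (r σ) := by
    rw [← hT]; rfl
  rw [hα, LinearEquiv.conjAlgEquiv_apply] at h1
  rw [h1]
  simp
  
/-- WP1d (converse of WP1b): a representation with frame `γ`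
whose structure constants reduce to those of `ρbar` has residual representation `≅ ρbar`. -/
theorem residual_isEquiv_of_isFrameFor {k : Type} [Field k] (ρbar : ResidualGaloisRep k)
    (γ : Fin 4 → GalQ) (hγ : IsResFrame ρbar γ) (cbar : GalQ → Fin 4 → k)
    (hcbar : ResHasStructConst ρbar γ cbar)
    {A : Type} [CommRing A] [IsLocalRing A] (ι : k →+* ResidueField A)
    (ρ : GaloisRepAdic A) (hf : IsFrameFor ρ γ) (c : GalQ → Fin 4 → A)
    (hc : HasStructConst ρ γ c) (hred : ∀ σ i, residue A (c σ i) = ι (cbar σ i)) :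
    ρ.residual.IsEquiv (ρbar.baseChangeAlong ι) := by
  letI : Algebra k (ResidueField A) := ι.toAlgebra
  have hspan : Submodule.span k (Set.range fun i => ρbar.ρ (γ i)) = ⊤ :=
    frame_span_of_linearIndependent ρbar.finrank_eq _ hγ
  let bbar : Basis (Fin 2) k ρbar.V := Module.finBasisOfFinrankEq k ρbar.V ρbar.finrank_eq
  have h2 := frame_isBasis_baseChange bbar (fun i => ρbar.ρ (γ i)) (ResidueField A) ⟨hγ, hspan⟩
  have h1 := frame_isBasis_baseChange (frameBasisOf ρ) (fun i => ρ.ρ (γ i)) (ResidueField A) hf
  have hs1 : ∀ σ, ρ.residual.ρ σ = ∑ i, ι (cbar σ i) • ρ.residual.ρ (γ i) := by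
    intro σ
    have := frame_structConst_baseChange (fun i => ρ.ρ (γ i)) (ρ.ρ σ) (c σ) (ResidueField A)
      (hc σ)
    simp only [ResidueField.algebraMap_eq, hred] at this
    exact this
  have hs2 : ∀ σ, (ρbar.baseChangeAlong ι).ρ σ
      = ∑ i, ι (cbar σ i) • (ρbar.baseChangeAlong ι).ρ (γ i) := by
    intro σ
    exact frame_structConst_baseChange (fun i => ρbar.ρ (γ i)) (ρbar.ρ σ) (cbar σ)
      (ResidueField A) (hcbar σ)
  obtain ⟨T, hT⟩ := frame_equiv_of_structConst ρ.residual.ρ (ρbar.baseChangeAlong ι).ρ γ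
    (fun σ i => ι (cbar σ i)) h1 h2 hs1 hs2
  exact ⟨⟨T, hT⟩⟩

end WP1d

end Fermat.Agent.S53
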