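import Fermat.Agent.S53.Defs

set_option autoImplicit false

open IsLocalRing

namespace Fermat.Agent.S53

/-! ### WP2a -/

/-- WP2a: equivalent representations have the same structure constants and frames. -/
theorem hasStructConst_of_isEquiv {A : Type} [CommRing A] [IsLocalRing A]
    (ρ ρ' : GaloisRepAdic A) (e : ρ.IsEquiv ρ') (γ : Fin 4 → GalQ) (c : GalQ → Fin 4 → A)
    (h : HasStructConst ρ γ c) : HasStructConst ρ' γ c := by
  obtain ⟨e⟩ := e
  have hconj : ∀ σ : GalQ, ρ'.ρ σ = e.toLinearEquiv.conj (ρ.ρ σ) := by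
    intro σ
    apply LinearMap.ext
    intro y
    rw [LinearEquiv.conj_apply_apply, e.map_apply, LinearEquiv.apply_symm_apply]
  intro σ
  rw [hconj σ, h σ, map_sum]
  refine Finset.sum_congr rfl fun i _ => ?_
  rw [map_smul, hconj]

theorem isFrameFor_of_isEquiv {A : Type} [CommRing A] [IsLocalRing A]
    (ρ ρ' : GaloisRepAdic A) (e : ρ.IsEquiv ρ') (γ : Fin 4 → GalQ)
    (h : IsFrameFor ρ γ) : IsFrameFor ρ' γ := by
  obtain ⟨e⟩ := e
  have hconj : ∀ σ : GalQ, ρ'.ρ σ = e.toLinearEquiv.conj (ρ.ρ σ) := by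
    intro σ
    apply LinearMap.ext
    intro y
    rw [LinearEquiv.conj_apply_apply, e.map_apply, LinearEquiv.apply_symm_apply]
  have hfun : (fun i => ρ'.ρ (γ i)) = ⇑(e.toLinearEquiv.conj) ∘ (fun i => ρ.ρ (γ i)) := by
    funext i
    exact hconj (γ i)
  obtain ⟨hli, hsp⟩ := h
  refine ⟨?_, ?_⟩
  · rw [hfun]
    exact hli.map' (e.toLinearEquiv.conj : Module.End A ρ.V →ₗ[A] Module.End A ρ'.V)
      (LinearEquiv.ker _)
  · rw [hfun, Set.range_comp, ← LinearEquiv.coe_coe, ← Submodule.map_span, hsp, Submodule.map_top,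
      LinearEquiv.range]


/-! ### WP2b : Skolem–Noether core -/

section SNCore

variable {A : Type*} [CommRing A]

/-- The matrix with first column `x` and second column `0`. -/
def snColMat (x : Fin 2 → A) : Matrix (Fin 2) (Fin 2) A :=
  Matrix.of fun i j => if j = 0 then x i else 0

theorem snColMat_add (x y : Fin 2 → A) : snColMat (x + y) = snColMat x + snColMat y := by
  ext i j
  simp only [snColMat, Matrix.of_apply, Matrix.add_apply, Pi.add_apply]
  split_ifs <;> simp

theorem snColMat_smul (a : A) (x : Fin 2 → A) : snColMat (a • x) = a • snColMat x := by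
  ext i j
  simp only [snColMat, Matrix.of_apply, Matrix.smul_apply, Pi.smul_apply]
  split_ifs <;> simp

theorem snColMat_mulVec (M : Matrix (Fin 2) (Fin 2) A) (x : Fin 2 → A) :
    snColMat (M.mulVec x) = M * snColMat x := by
  ext i j
  simp only [snColMat, Matrix.of_apply, Matrix.mul_apply, Matrix.mulVec, dotProduct]
  split_ifs <;> simp

theorem snColMat_eq (x : Fin 2 → A) :
    snColMat x = x 0 • Matrix.single 0 0 (1 : A) + x 1 • Matrix.single 1 0 (1 : A) := by
  ext i j
  fin_cases i <;> fin_cases j <;> simp [snColMat, Matrix.single]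

variable [IsLocalRing A] {W : Type*} [AddCommGroup W] [Module A W]
  [Module.Free A W] [Module.Finite A W]

theorem sn_core (hW : Module.finrank A W = 2)
    (β : Matrix (Fin 2) (Fin 2) A →ₐ[A] Module.End A W) :
    ∃ T : (Fin 2 → A) ≃ₗ[A] W, ∀ (M : Matrix (Fin 2) (Fin 2) A) (x : Fin 2 → A),
      T (M.mulVec x) = β M (T x) := by
  classical
  -- images of the matrix units
  set f : Fin 2 → Fin 2 → Module.End A W := fun i j => β (Matrix.single i j 1) with hf
  have hmul_same : ∀ i j l, f i j * f j l = f i l := by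
    intro i j l
    simp only [hf]
    rw [← map_mul, Matrix.single_mul_single_same, mul_one]
  have hmul_ne : ∀ i j k l, j ≠ k → f i j * f k l = 0 := by
    intro i j k l hjk
    simp only [hf]
    rw [← map_mul, Matrix.single_mul_single_of_ne (1 : A) i j k hjk (1 : A), map_zero]
  have hone : f 0 0 + f 1 1 = 1 := by
    simp only [hf]
    rw [← map_add, ← map_one β]
    congr 1
    ext i j
    fin_cases i <;> fin_cases j <;> simp [Matrix.single]
  have happ_same : ∀ i j l (x : W), f i j (f j l x) = f i l x := fun i j l x => by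
    rw [← Module.End.mul_apply, hmul_same]
  have happ_ne : ∀ i j k l, j ≠ k → ∀ x : W, f i j (f k l x) = 0 := fun i j k l h x => by
    rw [← Module.End.mul_apply, hmul_ne i j k l h, LinearMap.zero_apply]
  have hsplit : ∀ x : W, x = f 0 0 x + f 1 1 x := fun x => by
    rw [← LinearMap.add_apply, hone, Module.End.one_apply]
  -- the summand `P = f₀₀ W`
  set P : Submodule A W := LinearMap.range (f 0 0) with hP
  have hPmem : ∀ x : W, x ∈ P ↔ f 0 0 x = x := by
    intro x
    constructor
    · rintro ⟨y, rfl⟩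
      exact happ_same 0 0 0 y
    · intro h
      exact ⟨x, h⟩
  have h01mem : ∀ x : W, f 0 1 x ∈ P := fun x => (hPmem _).mpr (happ_same 0 0 1 x)
  haveI : Module.Finite A P := Module.Finite.range (f 0 0)
  haveI : Module.Projective A P :=
    Module.Projective.of_split P.subtype (f 0 0).rangeRestrict (by
      apply LinearMap.ext
      rintro ⟨x, hx⟩
      apply Subtype.ext
      exact (hPmem x).mp hx)
  haveI : Module.Free A P := Module.free_of_flat_of_isLocalRing
  -- `W ≃ P × P`
  let toPP : W →ₗ[A] P × P :=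
    ((f 0 0).rangeRestrict).prod ((f 0 1).codRestrict P h01mem)
  let ofPP : P × P →ₗ[A] W := P.subtype.coprod ((f 1 0) ∘ₗ P.subtype)
  have h1 : ofPP ∘ₗ toPP = LinearMap.id := by
    apply LinearMap.ext
    intro x
    show f 0 0 x + f 1 0 (f 0 1 x) = x
    rw [happ_same 1 0 1 x]
    exact (hsplit x).symm
  have h2 : toPP ∘ₗ ofPP = LinearMap.id := by
    apply LinearMap.ext
    rintro ⟨⟨p, hp⟩, ⟨q, hq⟩⟩
    have hp' := (hPmem p).mp hp
    have hq' := (hPmem q).mp hq
    apply Prod.ext
    · apply Subtype.ext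
      show f 0 0 (p + f 1 0 q) = p
      rw [map_add, hp', happ_ne 0 0 1 0 (by decide), add_zero]
    · apply Subtype.ext
      show f 0 1 (p + f 1 0 q) = q
      rw [map_add, happ_same 0 1 0 q, hq', ← hp', happ_ne 0 1 0 0 (by decide), zero_add]
  let ePP : W ≃ₗ[A] P × P := LinearEquiv.ofLinearMap toPP ofPP h2 h1
  have hrankP : Module.finrank A P = 1 := by
    have := ePP.finrank_eq
    rw [Module.finrank_prod, hW] at this
    omega
  -- a generator of `P`
  let w : Module.Basis (Fin 1) A P := Module.finBasisOfFinrankEq A P hrankP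
  set w₀ : W := (w 0 : W) with hw₀
  have hw₀P : f 0 0 w₀ = w₀ := (hPmem w₀).mp (w 0).2
  have hgen : ∀ p ∈ P, ∃ a : A, p = a • w₀ := by
    intro p hp
    refine ⟨w.repr ⟨p, hp⟩ 0, ?_⟩
    have := w.sum_repr ⟨p, hp⟩
    rw [Fin.sum_univ_one] at this
    have h := congrArg (Subtype.val) this
    simpa using h.symm
  -- the map `T₀`
  let T₀ : (Fin 2 → A) →ₗ[A] W :=
    { toFun := fun x => β (snColMat x) w₀
      map_add' := fun x y => by rw [snColMat_add, map_add, LinearMap.add_apply]
      map_smul' := fun a x => by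
        rw [snColMat_smul, map_smul, LinearMap.smul_apply, RingHom.id_apply] }
  have hT₀ : ∀ x, T₀ x = β (snColMat x) w₀ := fun x => rfl
  have hequiv : ∀ (M : Matrix (Fin 2) (Fin 2) A) (x : Fin 2 → A),
      T₀ (M.mulVec x) = β M (T₀ x) := by
    intro M x
    rw [hT₀, hT₀, snColMat_mulVec, map_mul, Module.End.mul_apply]
  have hT₀val : ∀ x : Fin 2 → A, T₀ x = x 0 • w₀ + x 1 • f 1 0 w₀ := by
    intro x
    rw [hT₀, snColMat_eq, map_add, map_smul, map_smul, LinearMap.add_apply, LinearMap.smul_apply,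
      LinearMap.smul_apply]
    show x 0 • f 0 0 w₀ + x 1 • f 1 0 w₀ = _
    rw [hw₀P]
  have hsurj : Function.Surjective T₀ := by
    intro y
    obtain ⟨a, ha⟩ := hgen (f 0 0 y) ⟨y, rfl⟩
    obtain ⟨b, hb⟩ := hgen (f 0 1 y) (h01mem y)
    refine ⟨![a, b], ?_⟩
    rw [hT₀val]
    simp only [Matrix.cons_val_zero, Matrix.cons_val_one]
    rw [← map_smul, ← hb, happ_same 1 0 1 y, ← ha]
    exact (hsplit y).symm
  have hinj : Function.Injective T₀ := by
    let bW : Module.Basis (Fin 2) A W := Module.finBasisOfFinrankEq A W hW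
    exact OrzechProperty.injective_of_surjective_of_injective
      (bW.equivFun.symm : (Fin 2 → A) →ₗ[A] W) T₀ bW.equivFun.symm.injective hsurj
  exact ⟨LinearEquiv.ofBijective T₀ ⟨hinj, hsurj⟩, hequiv⟩

end SNCore

/-- Skolem–Noether for rank two free modules over a local ring: an algebra homomorphism
`End V → End V'` is induced by a linear isomorphism `V ≃ V'`. -/
theorem sn_exists_intertwiner {A : Type*} [CommRing A] [IsLocalRing A]
    {V V' : Type*} [AddCommGroup V] [Module A V] [Module.Free A V] [Module.Finite A V]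
    [AddCommGroup V'] [Module A V'] [Module.Free A V'] [Module.Finite A V']
    (hV : Module.finrank A V = 2) (hV' : Module.finrank A V' = 2)
    (α : Module.End A V →ₐ[A] Module.End A V') :
    ∃ T : V ≃ₗ[A] V', ∀ (φ : Module.End A V) (x : V), T (φ x) = α φ (T x) := by
  classical
  let v : Module.Basis (Fin 2) A V := Module.finBasisOfFinrankEq A V hV
  let β : Matrix (Fin 2) (Fin 2) A →ₐ[A] Module.End A V' :=
    α.comp (LinearMap.toMatrixAlgEquiv v).symm.toAlgHom
  obtain ⟨T, hT⟩ := sn_core hV' β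
  refine ⟨v.equivFun.trans T, fun φ x => ?_⟩
  have h1 : v.equivFun (φ x) = (LinearMap.toMatrixAlgEquiv v φ).mulVec (v.equivFun x) := by
    rw [Module.Basis.equivFun_apply, Module.Basis.equivFun_apply]
    exact (LinearMap.toMatrix_mulVec_repr v v φ x).symm
  rw [LinearEquiv.trans_apply, LinearEquiv.trans_apply, h1, hT]
  have h2 : β (LinearMap.toMatrixAlgEquiv v φ) = α φ := by
    show α ((LinearMap.toMatrixAlgEquiv v).symm (LinearMap.toMatrixAlgEquiv v φ)) = α φ
    rw [AlgEquiv.symm_apply_apply]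
  rw [h2]

/-- WP2b (Skolem–Noether over a local ring): two representations with a common frame and the same
structure constants are equivalent. -/
theorem isEquiv_of_hasStructConst {A : Type} [CommRing A] [IsLocalRing A]
    (ρ ρ' : GaloisRepAdic A) (γ : Fin 4 → GalQ) (c : GalQ → Fin 4 → A)
    (hf : IsFrameFor ρ γ) (hf' : IsFrameFor ρ' γ)
    (h : HasStructConst ρ γ c) (h' : HasStructConst ρ' γ c) : ρ.IsEquiv ρ' := by
  classical
  let B : Module.Basis (Fin 4) A (Module.End A ρ.V) := Module.Basis.mk hf.1 hf.2.ge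
  have hB : ∀ i, B i = ρ.ρ (γ i) := fun i => Module.Basis.mk_apply hf.1 hf.2.ge i
  let α₀ : Module.End A ρ.V →ₗ[A] Module.End A ρ'.V := B.constr A (fun i => ρ'.ρ (γ i))
  have hα₀B : ∀ i, α₀ (B i) = ρ'.ρ (γ i) := fun i => B.constr_basis A _ i
  have hα₀ρ : ∀ σ : GalQ, α₀ (ρ.ρ σ) = ρ'.ρ σ := by
    intro σ
    rw [h σ, h' σ, map_sum]
    refine Finset.sum_congr rfl fun i _ => ?_
    rw [map_smul, ← hB, hα₀B]
  have hmul : ∀ x y, α₀ (x * y) = α₀ x * α₀ y := by
    have hbil : (LinearMap.mul A (Module.End A ρ.V)).compr₂ α₀ =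
        (LinearMap.mul A (Module.End A ρ'.V)).compl₁₂ α₀ α₀ := by
      apply LinearMap.ext_basis B B
      intro i j
      show α₀ (B i * B j) = α₀ (B i) * α₀ (B j)
      rw [hα₀B, hα₀B, hB, hB, ← map_mul, hα₀ρ, map_mul]
    intro x y
    exact LinearMap.congr_fun (LinearMap.congr_fun hbil x) y
  have hone : α₀ 1 = 1 := by
    rw [← map_one ρ.ρ, hα₀ρ, map_one]
  let α : Module.End A ρ.V →ₐ[A] Module.End A ρ'.V := AlgHom.ofLinearMap α₀ hone hmul
  obtain ⟨T, hT⟩ := sn_exists_intertwiner ρ.finrank_eq ρ'.finrank_eq α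
  exact ⟨{ toLinearEquiv := T
           map_apply := fun σ x => by
             rw [hT (ρ.ρ σ) x]
             show α₀ (ρ.ρ σ) (T x) = _
             rw [hα₀ρ] }⟩

end Fermat.Agent.S53
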