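import Fermat.Agent.S53.GoodDefs
import Fermat.Agent.S53.Frame
import Fermat.Agent.S53.SkolemNoether
import Fermat.Agent.S53.Descent

set_option autoImplicit false
set_option linter.unusedSectionVars false
set_option linter.unusedVariables false
set_option linter.style.haveILetI false

open IsLocalRing

namespace Fermat.Agent.S53

section Defo

variable {𝒪 : Type} [CommRing 𝒪] [IsLocalRing 𝒪]
  {ρbar : ResidualGaloisRep (ResidueField 𝒪)}
  {𝒟 : ∀ ⦃A : Type⦄ [CommRing A] [IsLocalRing A] [Algebra 𝒪 A], GaloisRepAdic A → Prop}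
  {γ : Fin 4 → GalQ} {cbar : GalQ → Fin 4 → ResidueField 𝒪}

theorem good_ker_ev (H : Setup 𝒪 ρbar 𝒟 γ cbar) [Finite (ResidueField 𝒪)]
    {A : Type} [CommRing A] [IsLocalRing A] [Algebra 𝒪 A]
    [IsLocalHom (algebraMap 𝒪 A)] (hA : GaloisRep.IsArtinianTestAlgebra 𝒪 A)
    (ρ : GaloisRepAdic A) (c : GalQ → Fin 4 → A) (h : IsDefo 𝒪 𝒟 γ cbar ρ c) :
    Good 𝒪 𝒟 γ cbar (RingHom.ker (ev (𝒪 := 𝒪) c : Pol 𝒪 →+* A)) := by
  haveI := hA.isArtinian
  haveI : Finite A := finite_of_isArtinianTestAlgebra hA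
  set P : Subalgebra 𝒪 A := (ev (𝒪 := 𝒪) c).range with hP
  set f : Pol 𝒪 →ₐ[𝒪] P := (ev (𝒪 := 𝒪) c).rangeRestrict with hf
  have hT : IsTestQuot cbar f := isTestQuot_rangeRestrict h.red
  haveI : IsLocalRing P := hT.isLocalRing
  haveI : IsLocalHom (algebraMap 𝒪 P) := hT.isLocalHom
  have hPtest : GaloisRep.IsArtinianTestAlgebra 𝒪 P := hT.isArtinianTestAlgebra
  haveI := hPtest.isArtinian
  set cP : GalQ → Fin 4 → P := fun σ i => f (MvPolynomial.X (σ, i)) with hcP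
  have hcPval : ∀ σ i, ((cP σ i : P) : A) = c σ i := by
    intro σ i
    simp [hcP, hf]
  have hφloc : IsLocalHom ((P.val : P →ₐ[𝒪] A) : P →+* A) := by
    constructor
    intro x hx
    obtain ⟨p, rfl⟩ := hT.surj x
    rw [hT.isUnit_iff]
    intro hp
    have h1 : ev (𝒪 := 𝒪) c p ∈ maximalIdeal A := (ev_mem_maximalIdeal_iff h.red p).mpr hp
    exact (IsLocalRing.mem_maximalIdeal _).mp h1 (by simpa [hf] using hx)
  -- apply the descent package
  obtain ⟨L, hL, hLc⟩ := exists_level_of_isArtinian h.frame h.struct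
  obtain ⟨ρP, hρPf, hρPc⟩ := exists_rep_of_structConst (P := P) (S := Module.End A ρ.V)
    ρ.ρ γ cP
    (by
      intro σ
      rw [h.struct σ]
      refine Finset.sum_congr rfl fun i _ => ?_
      rw [← hcPval σ i]
      rfl)
    (by
      refine LinearIndependent.restrict_scalars (R := P) (K := A) ?_ h.frame.1
      intro x y hxy
      apply Subtype.ext
      simpa [Algebra.smul_def] using hxy)
    (by
      intro n
      refine ⟨L, hL, fun σ hσ i => ?_⟩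
      have : cP σ i = cP 1 i := by
        apply Subtype.ext
        rw [hcPval, hcPval, hLc σ hσ]
      rw [this, sub_self]
      exact zero_mem _)
    ρbar H.hγ (resMap 𝒪 P) cbar H.hcbar
    (by
      intro σ i
      rw [hcP, hT.residue_eq, ev_X])
  have hval : (fun σ i => (P.val : P →ₐ[𝒪] A) (cP σ i)) = c := by
    funext σ i
    exact hcPval σ i
  have hequiv : ρ.IsEquiv (ρP.baseChangeAlong ((P.val : P →ₐ[𝒪] A) : P →+* A) hφloc) := by
    refine isEquiv_of_hasStructConst ρ _ γ c h.frame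
      (isFrameFor_baseChangeAlong _ hφloc ρP γ hρPf) h.struct ?_
    have := hasStructConst_baseChangeAlong ((P.val : P →ₐ[𝒪] A) : P →+* A) hφloc ρP γ cP hρPc
    rw [← hval]
    exact this
  have h𝒟P : 𝒟 ρP := by
    refine H.h𝒟.of_baseChangeAlong_injective hPtest hA (P.val) hφloc ?_ ?_
    · exact Subtype.val_injective
    · exact H.h𝒟.of_isEquiv hA hequiv h.isOfType
  have hevP : ev (𝒪 := 𝒪) cP = f := (algHom_eq_ev f).symm
  refine ⟨P, inferInstance, inferInstance, inferInstance, inferInstance, hPtest, ρP, cP,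
    ⟨h𝒟P, hρPf, hρPc, ?_⟩, ?_, ?_⟩
  · intro σ i
    rw [hcP, hT.residue_eq, ev_X]
  · rw [hevP]; exact hT.surj
  · rw [hevP]
    ext p
    simp only [RingHom.mem_ker]
    constructor
    · intro hp
      have := congrArg Subtype.val hp
      simpa [hf] using this
    · intro hp
      apply Subtype.ext
      simpa [hf] using hp

theorem IsDefo.map (H : Setup 𝒪 ρbar 𝒟 γ cbar) {A B : Type} [CommRing A] [IsLocalRing A]
    [Algebra 𝒪 A] [IsLocalHom (algebraMap 𝒪 A)] [CommRing B] [IsLocalRing B] [Algebra 𝒪 B]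
    [IsLocalHom (algebraMap 𝒪 B)] (hA : GaloisRep.IsArtinianTestAlgebra 𝒪 A)
    (hB : GaloisRep.IsArtinianTestAlgebra 𝒪 B) (φ : A →ₐ[𝒪] B)
    (hφ : IsLocalHom (φ : A →+* B)) {ρ : GaloisRepAdic A} {c : GalQ → Fin 4 → A}
    (h : IsDefo 𝒪 𝒟 γ cbar ρ c) :
    IsDefo 𝒪 𝒟 γ cbar (ρ.baseChangeAlong (φ : A →+* B) hφ) (fun σ i => φ (c σ i)) where
  isOfType := H.h𝒟.baseChangeAlong hA hB φ hφ h.isOfType
  frame := isFrameFor_baseChangeAlong _ hφ ρ γ h.frame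
  struct := hasStructConst_baseChangeAlong _ hφ ρ γ c h.struct
  red := red_map φ hφ h.red

/-- Push a good ideal forward: if `J` is good and `J ≤ J' ≤ maxPol`, then `J'` is good. -/
theorem Good.of_le (H : Setup 𝒪 ρbar 𝒟 γ cbar) {J J' : Ideal (Pol 𝒪)}
    (h : Good 𝒪 𝒟 γ cbar J) (hJ : J ≤ J') (hJ' : J' ≤ maxPol cbar) :
    Good 𝒪 𝒟 γ cbar J' := by
  obtain ⟨A, _, _, _, _, hA, ρ, c, hd, hsurj, rfl⟩ := h
  set I : Ideal A := J'.map (ev (𝒪 := 𝒪) c : Pol 𝒪 →+* A) with hI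
  have hIle : I ≤ maximalIdeal A := by
    rw [hI, Ideal.map_le_iff_le_comap]
    intro p hp
    exact (ev_mem_maximalIdeal_iff hd.red p).mpr (hJ' hp)
  obtain ⟨hloc, hmk, hA'⟩ := quotient_test hA I hIle
  haveI := hloc
  haveI := hA'.isLocalHom
  have hmk' : IsLocalHom ((Ideal.Quotient.mkₐ 𝒪 I : A →ₐ[𝒪] A ⧸ I) : A →+* A ⧸ I) := hmk
  have hd' := IsDefo.map H hA hA' (Ideal.Quotient.mkₐ 𝒪 I) hmk' hd
  refine ⟨A ⧸ I, inferInstance, inferInstance, inferInstance, inferInstance, hA', _, _, hd',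
    ?_, ?_⟩
  · rw [← ev_comp]
    exact (Ideal.Quotient.mkₐ_surjective 𝒪 I).comp hsurj
  · rw [← ev_comp]
    ext p
    simp only [RingHom.mem_ker, AlgHom.coe_toRingHom, AlgHom.comp_apply,
      Ideal.Quotient.mkₐ_eq_mk, Ideal.Quotient.eq_zero_iff_mem]
    have hsurj' : Function.Surjective (ev (𝒪 := 𝒪) c : Pol 𝒪 →+* A) := hsurj
    rw [hI, Ideal.mem_map_iff_of_surjective _ hsurj']
    constructor
    · rintro ⟨q, hq, hqp⟩
      have h1 : p - q ∈ J' := hJ (by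
        rw [RingHom.mem_ker, map_sub, hqp]
        exact sub_self _)
      have := J'.add_mem h1 hq
      simpa using this
    · intro hp
      exact ⟨p, hp, rfl⟩

/-- Good ideals are closed under binary intersection. -/
theorem Good.inf (H : Setup 𝒪 ρbar 𝒟 γ cbar) [Finite (ResidueField 𝒪)] {J₁ J₂ : Ideal (Pol 𝒪)}
    (h₁ : Good 𝒪 𝒟 γ cbar J₁) (h₂ : Good 𝒪 𝒟 γ cbar J₂) : Good 𝒪 𝒟 γ cbar (J₁ ⊓ J₂) := by
  obtain ⟨N₁, hN₁⟩ := h₁.exists_pow_le
  obtain ⟨N₂, hN₂⟩ := h₂.exists_pow_le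
  have hJ₁le := h₁.le_maxPol
  obtain ⟨A₁, _, _, _, _, hA₁, ρ₁, c₁, hd₁, hs₁, hk₁⟩ := h₁
  obtain ⟨A₂, _, _, _, _, hA₂, ρ₂, c₂, hd₂, hs₂, hk₂⟩ := h₂
  haveI := hA₁.isArtinian
  haveI := hA₂.isArtinian
  haveI : Finite A₁ := finite_of_isArtinianTestAlgebra hA₁
  haveI : Finite A₂ := finite_of_isArtinianTestAlgebra hA₂
  set c : GalQ → Fin 4 → A₁ × A₂ := fun σ i => (c₁ σ i, c₂ σ i) with hc
  have hfst : ∀ p, (ev (𝒪 := 𝒪) c p).1 = ev (𝒪 := 𝒪) c₁ p := by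
    intro p
    have := ev_comp_apply (AlgHom.fst 𝒪 A₁ A₂) c p
    simpa using this
  have hsnd : ∀ p, (ev (𝒪 := 𝒪) c p).2 = ev (𝒪 := 𝒪) c₂ p := by
    intro p
    have := ev_comp_apply (AlgHom.snd 𝒪 A₁ A₂) c p
    simpa using this
  have hkerc : RingHom.ker (ev (𝒪 := 𝒪) c : Pol 𝒪 →+* A₁ × A₂) = J₁ ⊓ J₂ := by
    ext p
    rw [RingHom.mem_ker, Ideal.mem_inf, ← hk₁, ← hk₂, RingHom.mem_ker, RingHom.mem_ker]
    change ev (𝒪 := 𝒪) c p = 0 ↔ ev (𝒪 := 𝒪) c₁ p = 0 ∧ ev (𝒪 := 𝒪) c₂ p = 0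
    rw [Prod.ext_iff, hfst, hsnd]
    rfl
  set P : Subalgebra 𝒪 (A₁ × A₂) := (ev (𝒪 := 𝒪) c).range with hP
  set f : Pol 𝒪 →ₐ[𝒪] P := (ev (𝒪 := 𝒪) c).rangeRestrict with hf
  have hfval : ∀ p, ((f p : P) : A₁ × A₂) = ev (𝒪 := 𝒪) c p := fun p => rfl
  have hT : IsTestQuot cbar f := by
    refine ⟨AlgHom.rangeRestrict_surjective _, ?_, ?_⟩
    · rw [hf, ker_rangeRestrict, hkerc]
      exact inf_le_left.trans hJ₁le
    · refine ⟨max N₁ N₂, ?_⟩
      rw [hf, ker_rangeRestrict, hkerc]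
      exact le_inf ((Ideal.pow_le_pow_right (le_max_left _ _)).trans hN₁)
        ((Ideal.pow_le_pow_right (le_max_right _ _)).trans hN₂)
  haveI : IsLocalRing P := hT.isLocalRing
  haveI : IsLocalHom (algebraMap 𝒪 P) := hT.isLocalHom
  have hPtest : GaloisRep.IsArtinianTestAlgebra 𝒪 P := hT.isArtinianTestAlgebra
  haveI := hPtest.isArtinian
  set pA : P →ₐ[𝒪] A₁ := (AlgHom.fst 𝒪 A₁ A₂).comp P.val with hpA
  set pB : P →ₐ[𝒪] A₂ := (AlgHom.snd 𝒪 A₁ A₂).comp P.val with hpB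
  have hpAf : ∀ p, pA (f p) = ev (𝒪 := 𝒪) c₁ p := fun p => hfst p
  have hpBf : ∀ p, pB (f p) = ev (𝒪 := 𝒪) c₂ p := fun p => hsnd p
  have hpAloc : IsLocalHom (pA : P →+* A₁) := by
    constructor
    intro x hx
    obtain ⟨p, rfl⟩ := hT.surj x
    rw [hT.isUnit_iff]
    intro hp
    have h1 : ev (𝒪 := 𝒪) c₁ p ∈ maximalIdeal A₁ := (ev_mem_maximalIdeal_iff hd₁.red p).mpr hp
    exact (IsLocalRing.mem_maximalIdeal _).mp h1 (by rw [← hpAf]; exact hx)
  have hpBloc : IsLocalHom (pB : P →+* A₂) := by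
    constructor
    intro x hx
    obtain ⟨p, rfl⟩ := hT.surj x
    rw [hT.isUnit_iff]
    intro hp
    have h1 : ev (𝒪 := 𝒪) c₂ p ∈ maximalIdeal A₂ := (ev_mem_maximalIdeal_iff hd₂.red p).mpr hp
    exact (IsLocalRing.mem_maximalIdeal _).mp h1 (by rw [← hpBf]; exact hx)
  set cP : GalQ → Fin 4 → P := fun σ i => f (MvPolynomial.X (σ, i)) with hcP
  have hcPA : ∀ σ i, pA (cP σ i) = c₁ σ i := by
    intro σ i
    rw [hcP, hpAf, ev_X]
  have hcPB : ∀ σ i, pB (cP σ i) = c₂ σ i := by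
    intro σ i
    rw [hcP, hpBf, ev_X]
  -- the algebra structures
  letI alg1 : Algebra P (Module.End A₁ ρ₁.V) := Algebra.compHom _ (pA : P →+* A₁)
  letI alg2 : Algebra P (Module.End A₂ ρ₂.V) := Algebra.compHom _ (pB : P →+* A₂)
  have hsm1 : ∀ (x : P) (s : Module.End A₁ ρ₁.V), x • s = pA x • s := fun _ _ => rfl
  have hsm2 : ∀ (x : P) (s : Module.End A₂ ρ₂.V), x • s = pB x • s := fun _ _ => rfl
  obtain ⟨L₁, hL₁, hLc₁⟩ := exists_level_of_isArtinian hd₁.frame hd₁.struct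
  obtain ⟨L₂, hL₂, hLc₂⟩ := exists_level_of_isArtinian hd₂.frame hd₂.struct
  obtain ⟨ρP, hρPf, hρPc⟩ := exists_rep_of_structConst (P := P)
    (S := Module.End A₁ ρ₁.V × Module.End A₂ ρ₂.V)
    (ρ₁.ρ.prod ρ₂.ρ) γ cP
    (by
      intro σ
      apply Prod.ext
      · rw [Prod.fst_sum]
        simp only [MonoidHom.prod_apply, Prod.smul_fst, hsm1, hcPA]
        exact hd₁.struct σ
      · rw [Prod.snd_sum]
        simp only [MonoidHom.prod_apply, Prod.smul_snd, hsm2, hcPB]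
        exact hd₂.struct σ)
    (by
      rw [Fintype.linearIndependent_iff]
      intro g hg i
      have h1 := congrArg Prod.fst hg
      have h2 := congrArg Prod.snd hg
      rw [Prod.fst_sum] at h1
      rw [Prod.snd_sum] at h2
      simp only [MonoidHom.prod_apply, Prod.smul_fst, Prod.smul_snd, hsm1, hsm2, Prod.fst_zero,
        Prod.snd_zero] at h1 h2
      have e1 := Fintype.linearIndependent_iff.mp hd₁.frame.1 (fun i => pA (g i)) h1 i
      have e2 := Fintype.linearIndependent_iff.mp hd₂.frame.1 (fun i => pB (g i)) h2 i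
      apply Subtype.ext
      apply Prod.ext
      · exact e1
      · exact e2)
    (by
      intro n
      haveI := hL₁
      haveI := hL₂
      refine ⟨L₁ ⊔ L₂, IntermediateField.finiteDimensional_sup L₁ L₂, fun σ hσ i => ?_⟩
      have e1 : c₁ σ = c₁ 1 := hLc₁ σ fun x hx => hσ x ((le_sup_left : L₁ ≤ L₁ ⊔ L₂) hx)
      have e2 : c₂ σ = c₂ 1 := hLc₂ σ fun x hx => hσ x ((le_sup_right : L₂ ≤ L₁ ⊔ L₂) hx)
      have : cP σ i = cP 1 i := by
        apply Subtype.ext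
        apply Prod.ext
        · have := hcPA σ i
          have := hcPA 1 i
          change pA (cP σ i) = pA (cP 1 i)
          rw [hcPA, hcPA, e1]
        · change pB (cP σ i) = pB (cP 1 i)
          rw [hcPB, hcPB, e2]
      rw [this, sub_self]
      exact zero_mem _)
    ρbar H.hγ (resMap 𝒪 P) cbar H.hcbar
    (by
      intro σ i
      rw [hcP, hT.residue_eq, ev_X])
  -- the fibre product datum
  set I : Ideal A₁ := (RingHom.ker (ev (𝒪 := 𝒪) c₂ : Pol 𝒪 →+* A₂)).map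
    (ev (𝒪 := 𝒪) c₁ : Pol 𝒪 →+* A₁) with hI
  have hIle : I ≤ maximalIdeal A₁ := by
    rw [hI, Ideal.map_le_iff_le_comap]
    intro p hp
    exact (ev_mem_maximalIdeal_iff hd₁.red p).mpr (ker_ev_le hd₂.red hp)
  obtain ⟨hloc, hmk, hC⟩ := quotient_test hA₁ I hIle
  haveI := hloc
  set fC : A₁ →ₐ[𝒪] A₁ ⧸ I := Ideal.Quotient.mkₐ 𝒪 I with hfC
  have hle : RingHom.ker (ev (𝒪 := 𝒪) c₂).toRingHom ≤
      RingHom.ker (fC.comp (ev (𝒪 := 𝒪) c₁)).toRingHom := by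
    intro p hp
    rw [RingHom.mem_ker]
    change fC (ev (𝒪 := 𝒪) c₁ p) = 0
    rw [hfC, Ideal.Quotient.mkₐ_eq_mk, Ideal.Quotient.eq_zero_iff_mem]
    exact Ideal.mem_map_of_mem _ hp
  set gC : A₂ →ₐ[𝒪] A₁ ⧸ I :=
    AlgHom.liftOfSurjective (ev (𝒪 := 𝒪) c₂) hs₂ (fC.comp (ev (𝒪 := 𝒪) c₁)) hle with hgC
  have hgCev : ∀ p, gC (ev (𝒪 := 𝒪) c₂ p) = fC (ev (𝒪 := 𝒪) c₁ p) := fun p =>
    AlgHom.liftOfSurjective_apply _ hs₂ _ hle p
  have hvalA : (fun σ i => pA (cP σ i)) = c₁ := by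
    funext σ i; exact hcPA σ i
  have hvalB : (fun σ i => pB (cP σ i)) = c₂ := by
    funext σ i; exact hcPB σ i
  have hequivA : ρ₁.IsEquiv (ρP.baseChangeAlong (pA : P →+* A₁) hpAloc) := by
    refine isEquiv_of_hasStructConst ρ₁ _ γ c₁ hd₁.frame
      (isFrameFor_baseChangeAlong _ hpAloc ρP γ hρPf) hd₁.struct ?_
    have := hasStructConst_baseChangeAlong (pA : P →+* A₁) hpAloc ρP γ cP hρPc
    rw [← hvalA]
    exact this
  have hequivB : ρ₂.IsEquiv (ρP.baseChangeAlong (pB : P →+* A₂) hpBloc) := by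
    refine isEquiv_of_hasStructConst ρ₂ _ γ c₂ hd₂.frame
      (isFrameFor_baseChangeAlong _ hpBloc ρP γ hρPf) hd₂.struct ?_
    have := hasStructConst_baseChangeAlong (pB : P →+* A₂) hpBloc ρP γ cP hρPc
    rw [← hvalB]
    exact this
  have h𝒟P : 𝒟 ρP := by
    refine H.h𝒟.of_fibreProduct hA₁ hA₂ hC hPtest fC gC pA pB hpAloc hpBloc ?_ ?_ ?_
      (H.h𝒟.of_isEquiv hA₁ hequivA hd₁.isOfType) (H.h𝒟.of_isEquiv hA₂ hequivB hd₂.isOfType)
    · apply AlgHom.ext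
      intro x
      obtain ⟨p, rfl⟩ := hT.surj x
      change fC (pA (f p)) = gC (pB (f p))
      rw [hpAf, hpBf, hgCev]
    · intro x y hxy
      apply Subtype.ext
      have h1 := congrArg Prod.fst hxy
      have h2 := congrArg Prod.snd hxy
      exact Prod.ext h1 h2
    · intro a b hab
      obtain ⟨p, rfl⟩ := hs₁ a
      obtain ⟨q, rfl⟩ := hs₂ b
      rw [hgCev, ← sub_eq_zero, ← map_sub, ← map_sub, hfC, Ideal.Quotient.mkₐ_eq_mk,
        Ideal.Quotient.eq_zero_iff_mem] at hab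
      have hs₁' : Function.Surjective (ev (𝒪 := 𝒪) c₁ : Pol 𝒪 →+* A₁) := hs₁
      rw [hI, Ideal.mem_map_iff_of_surjective _ hs₁'] at hab
      obtain ⟨r, hr, hrpq⟩ := hab
      rw [RingHom.mem_ker] at hr
      refine ⟨f (q + r), ?_, ?_⟩
      · rw [hpAf, map_add]
        change ev (𝒪 := 𝒪) c₁ q + (ev (𝒪 := 𝒪) c₁ : Pol 𝒪 →+* A₁) r = _
        rw [hrpq]
        simp
      · rw [hpBf, map_add]
        change ev (𝒪 := 𝒪) c₂ q + (ev (𝒪 := 𝒪) c₂ : Pol 𝒪 →+* A₂) r = _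
        rw [hr, add_zero]
  have hevP : ev (𝒪 := 𝒪) cP = f := (algHom_eq_ev f).symm
  refine ⟨P, inferInstance, inferInstance, inferInstance, inferInstance, hPtest, ρP, cP,
    ⟨h𝒟P, hρPf, hρPc, ?_⟩, ?_, ?_⟩
  · intro σ i
    rw [hcP, hT.residue_eq, ev_X]
  · rw [hevP]; exact hT.surj
  · rw [hevP, hf, ker_rangeRestrict, hkerc]

end Defo

end Fermat.Agent.S53
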