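import Fermat.Agent.S53.Defs

set_option autoImplicit false
set_option linter.unusedSectionVars false
set_option linter.unusedVariables false
set_option linter.style.haveILetI false

open IsLocalRing

namespace Fermat.Agent.S53

/-- The big polynomial ring carrying the universal structure constants. -/
abbrev Pol (𝒪 : Type) [CommRing 𝒪] : Type := MvPolynomial (GalQ × Fin 4) 𝒪

section Basic

variable {𝒪 : Type} [CommRing 𝒪] [IsLocalRing 𝒪]

/-- Evaluation of the universal structure constants at `c`. -/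
noncomputable def ev {A : Type} [CommRing A] [Algebra 𝒪 A] (c : GalQ → Fin 4 → A) :
    Pol 𝒪 →ₐ[𝒪] A :=
  MvPolynomial.aeval (fun p : GalQ × Fin 4 => c p.1 p.2)

@[simp] theorem ev_X {A : Type} [CommRing A] [Algebra 𝒪 A] (c : GalQ → Fin 4 → A)
    (σ : GalQ) (i : Fin 4) : ev (𝒪 := 𝒪) c (MvPolynomial.X (σ, i)) = c σ i := by
  simp [ev]

@[simp] theorem ev_C {A : Type} [CommRing A] [Algebra 𝒪 A] (c : GalQ → Fin 4 → A)
    (a : 𝒪) : ev (𝒪 := 𝒪) c (MvPolynomial.C a) = algebraMap 𝒪 A a := by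
  simp [ev]

theorem ev_comp {A B : Type} [CommRing A] [Algebra 𝒪 A] [CommRing B] [Algebra 𝒪 B]
    (φ : A →ₐ[𝒪] B) (c : GalQ → Fin 4 → A) :
    φ.comp (ev (𝒪 := 𝒪) c) = ev (fun σ i => φ (c σ i)) := by
  apply MvPolynomial.algHom_ext
  rintro ⟨σ, i⟩
  simp [ev]

theorem ev_comp_apply {A B : Type} [CommRing A] [Algebra 𝒪 A] [CommRing B] [Algebra 𝒪 B]
    (φ : A →ₐ[𝒪] B) (c : GalQ → Fin 4 → A) (p : Pol 𝒪) :
    φ (ev (𝒪 := 𝒪) c p) = ev (fun σ i => φ (c σ i)) p := by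
  rw [← ev_comp]; rfl

theorem algHom_eq_ev {A : Type} [CommRing A] [Algebra 𝒪 A] (f : Pol 𝒪 →ₐ[𝒪] A) :
    f = ev (fun σ i => f (MvPolynomial.X (σ, i))) := by
  apply MvPolynomial.algHom_ext
  rintro ⟨σ, i⟩
  simp [ev]

/-- The maximal ideal of `Pol` cut out by the residual structure constants. -/
noncomputable def maxPol (cbar : GalQ → Fin 4 → ResidueField 𝒪) : Ideal (Pol 𝒪) :=
  RingHom.ker (ev (𝒪 := 𝒪) cbar)

theorem mem_maxPol {cbar : GalQ → Fin 4 → ResidueField 𝒪} {p : Pol 𝒪} :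
    p ∈ maxPol cbar ↔ ev (𝒪 := 𝒪) cbar p = 0 := Iff.rfl

theorem ev_cbar_surjective (cbar : GalQ → Fin 4 → ResidueField 𝒪) :
    Function.Surjective (ev (𝒪 := 𝒪) cbar) := by
  intro x
  obtain ⟨a, rfl⟩ := IsLocalRing.residue_surjective x
  exact ⟨MvPolynomial.C a, by simp [ev]⟩

instance maxPol_isMaximal (cbar : GalQ → Fin 4 → ResidueField 𝒪) :
    (maxPol cbar).IsMaximal :=
  RingHom.ker_isMaximal_of_surjective _ (ev_cbar_surjective cbar)

theorem C_mem_maxPol (cbar : GalQ → Fin 4 → ResidueField 𝒪) {a : 𝒪}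
    (ha : a ∈ maximalIdeal 𝒪) : (MvPolynomial.C a : Pol 𝒪) ∈ maxPol cbar := by
  rw [mem_maxPol, ev_C]
  exact (IsLocalRing.residue_eq_zero_iff a).mpr ha

end Basic

section TestAlgebra

variable {𝒪 : Type} [CommRing 𝒪] [IsLocalRing 𝒪]

/-- The canonical map on residue fields, as a function of a test algebra. -/
noncomputable abbrev resMap (𝒪 : Type) [CommRing 𝒪] [IsLocalRing 𝒪] (A : Type) [CommRing A]
    [IsLocalRing A] [Algebra 𝒪 A] [IsLocalHom (algebraMap 𝒪 A)] :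
    ResidueField 𝒪 →+* ResidueField A :=
  ResidueField.map (algebraMap 𝒪 A)

theorem resMap_surjective {A : Type} [CommRing A] [IsLocalRing A] [Algebra 𝒪 A]
    [IsLocalHom (algebraMap 𝒪 A)]
    (h : Function.Surjective (residue A ∘ algebraMap 𝒪 A)) :
    Function.Surjective (resMap 𝒪 A) := by
  intro x
  obtain ⟨a, rfl⟩ := h x
  exact ⟨residue 𝒪 a, by simp [resMap, ResidueField.map_residue]⟩

theorem finite_of_isArtinianTestAlgebra [Finite (ResidueField 𝒪)] {A : Type} [CommRing A]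
    [IsLocalRing A] [Algebra 𝒪 A] (h : GaloisRep.IsArtinianTestAlgebra 𝒪 A) : Finite A := by
  haveI := h.isLocalHom
  haveI := h.isArtinian
  haveI : Finite (ResidueField A) :=
    Finite.of_surjective _ (resMap_surjective (𝒪 := 𝒪) h.residue_surjective)
  have h1 : Finite (A ⧸ (⊥ : Ideal A)) := by
    rw [IsLocalRing.finite_quotient_iff]
    obtain ⟨n, hn⟩ := (isArtinianRing_iff_isNilpotent_maximalIdeal A).mp inferInstance
    exact ⟨n, le_of_eq hn⟩
  exact Finite.of_equiv _ (RingEquiv.quotientBot A).toEquiv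

theorem exists_maximalIdeal_pow_eq_bot {A : Type} [CommRing A]
    [IsLocalRing A] [IsArtinianRing A] : ∃ n, maximalIdeal A ^ n = ⊥ :=
  (isArtinianRing_iff_isNilpotent_maximalIdeal A).mp inferInstance

end TestAlgebra

section TestQuot

variable {𝒪 : Type} [CommRing 𝒪] [IsLocalRing 𝒪] (cbar : GalQ → Fin 4 → ResidueField 𝒪)

/-- A surjective `𝒪`-algebra hom `f : Pol → B` whose kernel is squeezed between a power of
`maxPol` and `maxPol`. -/
structure IsTestQuot {B : Type} [CommRing B] [Algebra 𝒪 B] (f : Pol 𝒪 →ₐ[𝒪] B) : Prop where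
  surj : Function.Surjective f
  ker_le : RingHom.ker (f : Pol 𝒪 →+* B) ≤ maxPol cbar
  pow_le : ∃ N, maxPol cbar ^ N ≤ RingHom.ker (f : Pol 𝒪 →+* B)

namespace IsTestQuot

variable {cbar} {B : Type} [CommRing B] [Algebra 𝒪 B] {f : Pol 𝒪 →ₐ[𝒪] B}

theorem isUnit_iff (h : IsTestQuot cbar f) (p : Pol 𝒪) : IsUnit (f p) ↔ p ∉ maxPol cbar := by
  constructor
  · intro hu hp
    obtain ⟨b, hb⟩ := hu.exists_right_inv
    obtain ⟨q, rfl⟩ := h.surj b
    have h1 : p * q - 1 ∈ maxPol cbar := h.ker_le (by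
      rw [RingHom.mem_ker]; simp [hb])
    have h2 : (1 : Pol 𝒪) ∈ maxPol cbar := by
      have := (maxPol cbar).sub_mem ((maxPol cbar).mul_mem_right q hp) h1
      simpa using this
    exact (maxPol_isMaximal cbar).ne_top ((Ideal.eq_top_iff_one _).mpr h2)
  · intro hp
    obtain ⟨q, i, hi, hq⟩ := (maxPol_isMaximal cbar).exists_inv hp
    obtain ⟨N, hN⟩ := h.pow_le
    -- q * p + i = 1 with i ∈ maxPol
    have h1 : f i ^ N = 0 := by
      have : i ^ N ∈ RingHom.ker (f : Pol 𝒪 →+* B) := hN (Ideal.pow_mem_pow hi N)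
      rw [RingHom.mem_ker] at this
      simpa using this
    have h2 : IsNilpotent (f i) := ⟨N, h1⟩
    have h3 : f q * f p = 1 - f i := by
      rw [← map_mul, ← map_one f, ← map_sub, ← hq]; congr 1; ring
    have h4 : IsUnit (f q * f p) := by
      rw [h3]; exact h2.isUnit_one_sub
    exact isUnit_of_mul_isUnit_right h4

theorem nontrivial (h : IsTestQuot cbar f) : Nontrivial B := by
  refine ⟨⟨1, 0, fun h10 => ?_⟩⟩
  have : (1 : Pol 𝒪) ∈ maxPol cbar := h.ker_le (by rw [RingHom.mem_ker]; simpa using h10)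
  exact (maxPol_isMaximal cbar).ne_top ((Ideal.eq_top_iff_one _).mpr this)

theorem isLocalRing (h : IsTestQuot cbar f) : IsLocalRing B := by
  haveI := h.nontrivial
  refine IsLocalRing.of_nonunits_add ?_
  intro a b ha hb
  obtain ⟨p, rfl⟩ := h.surj a
  obtain ⟨q, rfl⟩ := h.surj b
  rw [mem_nonunits_iff, h.isUnit_iff, not_not] at ha hb
  rw [mem_nonunits_iff, ← map_add, h.isUnit_iff, not_not]
  exact (maxPol cbar).add_mem ha hb

theorem mem_maximalIdeal_iff [IsLocalRing B] (h : IsTestQuot cbar f) (p : Pol 𝒪) :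
    f p ∈ maximalIdeal B ↔ p ∈ maxPol cbar := by
  rw [IsLocalRing.mem_maximalIdeal, mem_nonunits_iff, h.isUnit_iff, not_not]

theorem map_maxPol [IsLocalRing B] (h : IsTestQuot cbar f) :
    (maxPol cbar).map (f : Pol 𝒪 →+* B) = maximalIdeal B := by
  apply le_antisymm
  · rw [Ideal.map_le_iff_le_comap]
    intro p hp
    exact (h.mem_maximalIdeal_iff p).mpr hp
  · intro x hx
    obtain ⟨p, rfl⟩ := h.surj x
    exact Ideal.mem_map_of_mem _ ((h.mem_maximalIdeal_iff p).mp hx)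

theorem maximalIdeal_pow_eq_bot [IsLocalRing B] (h : IsTestQuot cbar f) :
    ∃ N, maximalIdeal B ^ N = ⊥ := by
  obtain ⟨N, hN⟩ := h.pow_le
  refine ⟨N, ?_⟩
  rw [← h.map_maxPol, ← Ideal.map_pow, eq_bot_iff]
  rw [Ideal.map_le_iff_le_comap]
  intro p hp
  have := hN hp
  rw [RingHom.mem_ker] at this
  simpa [Ideal.mem_comap] using this

theorem isLocalHom [IsLocalRing B] (h : IsTestQuot cbar f) : IsLocalHom (algebraMap 𝒪 B) := by
  constructor
  intro a ha
  by_contra hna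
  have h1 : (MvPolynomial.C a : Pol 𝒪) ∈ maxPol cbar :=
    C_mem_maxPol cbar ((IsLocalRing.mem_maximalIdeal a).mpr hna)
  have h2 : f (MvPolynomial.C a) = algebraMap 𝒪 B a := by
    rw [← MvPolynomial.algebraMap_eq, AlgHom.commutes]
  rw [← h2, h.isUnit_iff] at ha
  exact ha h1

theorem residue_surjective [IsLocalRing B] (h : IsTestQuot cbar f) :
    Function.Surjective (residue B ∘ algebraMap 𝒪 B) := by
  intro x
  obtain ⟨b, rfl⟩ := IsLocalRing.residue_surjective x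
  obtain ⟨p, rfl⟩ := h.surj b
  obtain ⟨a, ha⟩ := IsLocalRing.residue_surjective (ev (𝒪 := 𝒪) cbar p)
  refine ⟨a, ?_⟩
  have h1 : p - MvPolynomial.C a ∈ maxPol cbar := by
    rw [mem_maxPol, map_sub, ev_C, ← ha]
    exact sub_self _
  have h2 : f (p - MvPolynomial.C a) ∈ maximalIdeal B := (h.mem_maximalIdeal_iff _).mpr h1
  have h3 : f (MvPolynomial.C a) = algebraMap 𝒪 B a := by
    rw [← MvPolynomial.algebraMap_eq, AlgHom.commutes]
  rw [map_sub, h3, ← IsLocalRing.residue_eq_zero_iff, map_sub, sub_eq_zero] at h2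
  exact h2.symm

theorem residue_eq [IsLocalRing B] [IsLocalHom (algebraMap 𝒪 B)] (h : IsTestQuot cbar f)
    (p : Pol 𝒪) : residue B (f p) = resMap 𝒪 B (ev (𝒪 := 𝒪) cbar p) := by
  obtain ⟨a, ha⟩ := IsLocalRing.residue_surjective (ev (𝒪 := 𝒪) cbar p)
  have h1 : p - MvPolynomial.C a ∈ maxPol cbar := by
    rw [mem_maxPol, map_sub, ev_C, ← ha]
    exact sub_self _
  have h2 : f (p - MvPolynomial.C a) ∈ maximalIdeal B := (h.mem_maximalIdeal_iff _).mpr h1
  have h3 : f (MvPolynomial.C a) = algebraMap 𝒪 B a := by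
    rw [← MvPolynomial.algebraMap_eq, AlgHom.commutes]
  rw [map_sub, h3, ← IsLocalRing.residue_eq_zero_iff, map_sub, sub_eq_zero] at h2
  rw [h2, ← ha, resMap, ResidueField.map_residue]

theorem isArtinianTestAlgebra [IsLocalRing B] [Finite B] (h : IsTestQuot cbar f) :
    GaloisRep.IsArtinianTestAlgebra 𝒪 B where
  isLocalHom := h.isLocalHom
  residue_surjective := h.residue_surjective
  isArtinian := inferInstance

end IsTestQuot

end TestQuot

section Defo

variable (𝒪 : Type) [CommRing 𝒪] [IsLocalRing 𝒪]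
  (ρbar : ResidualGaloisRep (ResidueField 𝒪))
  (𝒟 : ∀ ⦃A : Type⦄ [CommRing A] [IsLocalRing A] [Algebra 𝒪 A], GaloisRepAdic A → Prop)
  (γ : Fin 4 → GalQ) (cbar : GalQ → Fin 4 → ResidueField 𝒪)

/-- The standing hypotheses. -/
structure Setup : Prop where
  h𝒟 : GaloisRep.IsDeformationCondition 𝒪 𝒟
  hγ : IsResFrame ρbar γ
  hcbar : ResHasStructConst ρbar γ cbar

/-- A framed deformation of type `𝒟` with structure constants `c`. -/
structure IsDefo {A : Type} [CommRing A] [IsLocalRing A] [Algebra 𝒪 A]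
    [IsLocalHom (algebraMap 𝒪 A)] (ρ : GaloisRepAdic A) (c : GalQ → Fin 4 → A) : Prop where
  isOfType : 𝒟 ρ
  frame : IsFrameFor ρ γ
  struct : HasStructConst ρ γ c
  red : ∀ σ i, residue A (c σ i) = resMap 𝒪 A (cbar σ i)

/-- Good ideals of `Pol`: kernels of surjective classifying maps of framed deformations over
Artinian test algebras. -/
def Good (J : Ideal (Pol 𝒪)) : Prop :=
  ∃ (A : Type) (_ : CommRing A) (_ : IsLocalRing A) (_ : Algebra 𝒪 A)
    (_ : IsLocalHom (algebraMap 𝒪 A)) (_ : GaloisRep.IsArtinianTestAlgebra 𝒪 A)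
    (ρ : GaloisRepAdic A) (c : GalQ → Fin 4 → A),
    IsDefo 𝒪 𝒟 γ cbar ρ c ∧ Function.Surjective (ev (𝒪 := 𝒪) c) ∧
      RingHom.ker (ev (𝒪 := 𝒪) c : Pol 𝒪 →+* A) = J

variable {𝒪 ρbar 𝒟 γ cbar}

theorem residue_ev {A : Type} [CommRing A] [IsLocalRing A] [Algebra 𝒪 A]
    [IsLocalHom (algebraMap 𝒪 A)] {c : GalQ → Fin 4 → A}
    (hred : ∀ σ i, residue A (c σ i) = resMap 𝒪 A (cbar σ i)) (p : Pol 𝒪) :
    residue A (ev (𝒪 := 𝒪) c p) = resMap 𝒪 A (ev (𝒪 := 𝒪) cbar p) := by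
  have h : ((residue A).comp (ev (𝒪 := 𝒪) c : Pol 𝒪 →+* A)) =
      (resMap 𝒪 A).comp (ev (𝒪 := 𝒪) cbar : Pol 𝒪 →+* ResidueField 𝒪) := by
    apply MvPolynomial.ringHom_ext
    · intro a
      simp [resMap, ResidueField.map_residue]
    · rintro ⟨σ, i⟩
      simpa using hred σ i
  exact RingHom.congr_fun h p

theorem ev_mem_maximalIdeal_iff {A : Type} [CommRing A] [IsLocalRing A] [Algebra 𝒪 A]
    [IsLocalHom (algebraMap 𝒪 A)] {c : GalQ → Fin 4 → A}
    (hred : ∀ σ i, residue A (c σ i) = resMap 𝒪 A (cbar σ i)) (p : Pol 𝒪) :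
    ev (𝒪 := 𝒪) c p ∈ maximalIdeal A ↔ p ∈ maxPol cbar := by
  rw [← IsLocalRing.residue_eq_zero_iff, residue_ev hred, mem_maxPol,
    map_eq_zero_iff _ (resMap 𝒪 A).injective]

theorem ker_ev_le {A : Type} [CommRing A] [IsLocalRing A] [Algebra 𝒪 A]
    [IsLocalHom (algebraMap 𝒪 A)] {c : GalQ → Fin 4 → A}
    (hred : ∀ σ i, residue A (c σ i) = resMap 𝒪 A (cbar σ i)) :
    RingHom.ker (ev (𝒪 := 𝒪) c : Pol 𝒪 →+* A) ≤ maxPol cbar := by
  intro p hp
  rw [← ev_mem_maximalIdeal_iff hred]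
  rw [RingHom.mem_ker] at hp
  change ev (𝒪 := 𝒪) c p = 0 at hp
  rw [hp]; exact zero_mem _

theorem maxPol_pow_le_ker_ev {A : Type} [CommRing A] [IsLocalRing A] [Algebra 𝒪 A]
    [IsLocalHom (algebraMap 𝒪 A)] {c : GalQ → Fin 4 → A}
    (hred : ∀ σ i, residue A (c σ i) = resMap 𝒪 A (cbar σ i)) {N : ℕ}
    (hN : maximalIdeal A ^ N = ⊥) :
    maxPol cbar ^ N ≤ RingHom.ker (ev (𝒪 := 𝒪) c : Pol 𝒪 →+* A) := by
  have h1 : (maxPol cbar).map (ev (𝒪 := 𝒪) c : Pol 𝒪 →+* A) ≤ maximalIdeal A := by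
    rw [Ideal.map_le_iff_le_comap]
    intro p hp
    exact (ev_mem_maximalIdeal_iff hred p).mpr hp
  have h2 : (maxPol cbar ^ N).map (ev (𝒪 := 𝒪) c : Pol 𝒪 →+* A) ≤ ⊥ := by
    rw [Ideal.map_pow, ← hN]
    exact Ideal.pow_right_mono h1 N
  intro p hp
  rw [RingHom.mem_ker]
  have := h2 (Ideal.mem_map_of_mem _ hp)
  simpa using this

theorem isTestQuot_rangeRestrict {A : Type} [CommRing A] [IsLocalRing A] [Algebra 𝒪 A]
    [IsLocalHom (algebraMap 𝒪 A)] [IsArtinianRing A] {c : GalQ → Fin 4 → A}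
    (hred : ∀ σ i, residue A (c σ i) = resMap 𝒪 A (cbar σ i)) :
    IsTestQuot cbar (ev (𝒪 := 𝒪) c).rangeRestrict := by
  have hker : RingHom.ker ((ev (𝒪 := 𝒪) c).rangeRestrict : Pol 𝒪 →+* (ev (𝒪 := 𝒪) c).range) =
      RingHom.ker (ev (𝒪 := 𝒪) c : Pol 𝒪 →+* A) := by
    ext p
    simp only [RingHom.mem_ker]
    constructor
    · intro h
      have := congrArg Subtype.val h
      simpa using this
    · intro h
      apply Subtype.ext
      simpa using h
  refine ⟨AlgHom.rangeRestrict_surjective _, ?_, ?_⟩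
  · rw [hker]; exact ker_ev_le hred
  · obtain ⟨N, hN⟩ := exists_maximalIdeal_pow_eq_bot (A := A)
    exact ⟨N, by rw [hker]; exact maxPol_pow_le_ker_ev hred hN⟩

theorem structConst_eq_of_rho_eq {A : Type} [CommRing A] [IsLocalRing A] {ρ : GaloisRepAdic A}
    {γ : Fin 4 → GalQ} {c c' : GalQ → Fin 4 → A} (hf : IsFrameFor ρ γ)
    (hc : HasStructConst ρ γ c) (hc' : HasStructConst ρ γ c') {σ τ : GalQ}
    (h : ρ.ρ σ = ρ.ρ τ) : c σ = c' τ := by
  have h1 : ∑ i, (c σ i - c' τ i) • ρ.ρ (γ i) = 0 := by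
    simp only [sub_smul, Finset.sum_sub_distrib]
    rw [← hc σ, ← hc' τ, h, sub_self]
  funext i
  have := Fintype.linearIndependent_iff.mp hf.1 (fun i => c σ i - c' τ i) h1 i
  exact sub_eq_zero.mp this

theorem structConst_unique {A : Type} [CommRing A] [IsLocalRing A] {ρ : GaloisRepAdic A}
    {γ : Fin 4 → GalQ} {c c' : GalQ → Fin 4 → A} (hf : IsFrameFor ρ γ)
    (hc : HasStructConst ρ γ c) (hc' : HasStructConst ρ γ c') : c = c' := by
  funext σ
  exact structConst_eq_of_rho_eq hf hc hc' rfl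

theorem exists_level_of_isArtinian {A : Type} [CommRing A] [IsLocalRing A] [IsArtinianRing A]
    {ρ : GaloisRepAdic A} {γ : Fin 4 → GalQ} {c : GalQ → Fin 4 → A} (hf : IsFrameFor ρ γ)
    (hc : HasStructConst ρ γ c) :
    ∃ L : IntermediateField ℚ (AlgebraicClosure ℚ), FiniteDimensional ℚ L ∧
      ∀ σ : GalQ, (∀ x ∈ L, σ x = x) → c σ = c 1 := by
  obtain ⟨N, hN⟩ := exists_maximalIdeal_pow_eq_bot (A := A)
  obtain ⟨L, hL, h1⟩ := ρ.isAdicContinuous N
  refine ⟨L, hL, fun σ hσ => ?_⟩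
  apply structConst_eq_of_rho_eq hf hc hc
  rw [map_one]
  ext v
  have := h1 σ hσ v
  rw [hN, Submodule.bot_smul, Submodule.mem_bot, sub_eq_zero] at this
  simpa using this

theorem red_map {A B : Type} [CommRing A] [IsLocalRing A] [Algebra 𝒪 A]
    [IsLocalHom (algebraMap 𝒪 A)] [CommRing B] [IsLocalRing B] [Algebra 𝒪 B]
    [IsLocalHom (algebraMap 𝒪 B)] (φ : A →ₐ[𝒪] B) (hφ : IsLocalHom (φ : A →+* B))
    {c : GalQ → Fin 4 → A} (hred : ∀ σ i, residue A (c σ i) = resMap 𝒪 A (cbar σ i)) :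
    ∀ σ i, residue B (φ (c σ i)) = resMap 𝒪 B (cbar σ i) := by
  intro σ i
  obtain ⟨a, ha⟩ := IsLocalRing.residue_surjective (cbar σ i)
  have h1 := hred σ i
  rw [← ha, resMap, ResidueField.map_residue, ← sub_eq_zero, ← map_sub,
    IsLocalRing.residue_eq_zero_iff] at h1
  rw [← ha, resMap, ResidueField.map_residue, ← sub_eq_zero, ← map_sub,
    IsLocalRing.residue_eq_zero_iff, ← AlgHom.commutes φ a, ← map_sub]
  rw [IsLocalRing.mem_maximalIdeal, mem_nonunits_iff] at h1 ⊢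
  intro hu
  exact h1 (hφ.map_nonunit _ hu)

theorem Good.le_maxPol {J : Ideal (Pol 𝒪)} (h : Good 𝒪 𝒟 γ cbar J) : J ≤ maxPol cbar := by
  obtain ⟨A, _, _, _, _, hA, ρ, c, hd, hsurj, rfl⟩ := h
  exact ker_ev_le hd.red

theorem Good.exists_pow_le {J : Ideal (Pol 𝒪)} (h : Good 𝒪 𝒟 γ cbar J) :
    ∃ N, maxPol cbar ^ N ≤ J := by
  obtain ⟨A, _, _, _, _, hA, ρ, c, hd, hsurj, rfl⟩ := h
  haveI := hA.isArtinian
  obtain ⟨N, hN⟩ := exists_maximalIdeal_pow_eq_bot (A := A)
  exact ⟨N, maxPol_pow_le_ker_ev hd.red hN⟩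

/-- Quotients of test algebras by proper ideals are test algebras. -/
theorem quotient_test {A : Type} [CommRing A] [IsLocalRing A] [Algebra 𝒪 A]
    (hA : GaloisRep.IsArtinianTestAlgebra 𝒪 A) (I : Ideal A) (hI : I ≤ maximalIdeal A) :
    ∃ (_ : IsLocalRing (A ⧸ I)) (_ : IsLocalHom (Ideal.Quotient.mk I)),
      GaloisRep.IsArtinianTestAlgebra 𝒪 (A ⧸ I) := by
  haveI := hA.isArtinian
  haveI := hA.isLocalHom
  have hne : I ≠ ⊤ := fun h => (IsLocalRing.maximalIdeal.isMaximal A).ne_top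
    (top_le_iff.mp (h ▸ hI))
  haveI : Nontrivial (A ⧸ I) := Ideal.Quotient.nontrivial_iff.mpr hne
  haveI hloc : IsLocalRing (A ⧸ I) :=
    IsLocalRing.of_surjective' (Ideal.Quotient.mk I) Ideal.Quotient.mk_surjective
  have hmk : IsLocalHom (Ideal.Quotient.mk I) := by
    constructor
    intro a ha
    by_contra hna
    have h1 : a ∈ maximalIdeal A := (IsLocalRing.mem_maximalIdeal a).mpr hna
    obtain ⟨b, hb⟩ := ha.exists_right_inv
    obtain ⟨b, rfl⟩ := Ideal.Quotient.mk_surjective b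
    rw [← map_mul, ← map_one (Ideal.Quotient.mk I), Ideal.Quotient.eq] at hb
    have h2 : a * b - 1 ∈ maximalIdeal A := hI hb
    have h3 : (1 : A) ∈ maximalIdeal A := by
      have := (maximalIdeal A).sub_mem ((maximalIdeal A).mul_mem_right b h1) h2
      simpa using this
    exact (IsLocalRing.maximalIdeal.isMaximal A).ne_top ((Ideal.eq_top_iff_one _).mpr h3)
  refine ⟨hloc, hmk, ?_, ?_, inferInstance⟩
  · constructor
    intro a ha
    have : IsUnit (Ideal.Quotient.mk I (algebraMap 𝒪 A a)) := ha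
    exact (hA.isLocalHom).map_nonunit a (hmk.map_nonunit _ this)
  · intro x
    obtain ⟨y, rfl⟩ := IsLocalRing.residue_surjective x
    obtain ⟨y, rfl⟩ := Ideal.Quotient.mk_surjective y
    obtain ⟨a, ha⟩ := hA.residue_surjective (residue A y)
    refine ⟨a, ?_⟩
    simp only [Function.comp_apply] at ha ⊢
    rw [← sub_eq_zero, ← map_sub, IsLocalRing.residue_eq_zero_iff] at ha ⊢
    rw [IsLocalRing.mem_maximalIdeal, mem_nonunits_iff] at ha ⊢
    intro hu
    apply ha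
    apply hmk.map_nonunit
    rw [map_sub]
    exact hu

theorem ker_rangeRestrict {B : Type} [CommRing B] [Algebra 𝒪 B] (g : Pol 𝒪 →ₐ[𝒪] B) :
    RingHom.ker (g.rangeRestrict : Pol 𝒪 →+* g.range) = RingHom.ker (g : Pol 𝒪 →+* B) := by
  ext p
  simp only [RingHom.mem_ker]
  constructor
  · intro h
    have := congrArg Subtype.val h
    simpa using this
  · intro h
    apply Subtype.ext
    simpa using h

end Defo

end Fermat.Agent.S53
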