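import Fermat.Agent.S53.LimitRing
import Fermat.Prelude.Def_GaloisRep_DeformationCondition

/-!
WP10 of S53: maps out of the limit ring.
-/

set_option autoImplicit false

open IsLocalRing

namespace Fermat.Agent.S53

section Aux

/-- A local homomorphism maps the `n`-th power of the maximal ideal into the `n`-th power of
the maximal ideal. -/
theorem limMap_map_pow_mem {R A : Type*} [CommRing R] [IsLocalRing R] [CommRing A]
    [IsLocalRing A] (φ : R →+* A) (hφ : IsLocalHom φ) (n : ℕ) {r : R}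
    (hr : r ∈ maximalIdeal R ^ n) : φ r ∈ maximalIdeal A ^ n := by
  have h1 : (maximalIdeal R).map φ ≤ maximalIdeal A := by
    rw [Ideal.map_le_iff_le_comap]
    intro a ha
    exact Ideal.mem_comap.mpr (haveI := hφ; map_nonunit φ a ha)
  have h2 : (maximalIdeal R ^ n).map φ ≤ maximalIdeal A ^ n := by
    rw [Ideal.map_pow]
    exact Ideal.pow_right_mono h1 n
  exact h2 (Ideal.mem_map_of_mem φ hr)

variable {𝒪 : Type} [CommRing 𝒪] [IsLocalRing 𝒪] {Pol : Type}
  [CommRing Pol] [Algebra 𝒪 Pol] {J : ℕ → Ideal Pol} (D : LimitRingData 𝒪 Pol J)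

/-- density of the image of `Pol` in the limit ring -/
theorem limMap_exists_toR_sub_mem (n : ℕ) (r : D.R) :
    ∃ p : Pol, D.proj n r = Ideal.Quotient.mk (J n) p ∧ r - D.toR p ∈ maximalIdeal D.R ^ n := by
  obtain ⟨p, hp⟩ := Ideal.Quotient.mk_surjective (D.proj n r)
  refine ⟨p, hp.symm, ?_⟩
  rw [← D.ker_proj n, RingHom.mem_ker]
  show D.proj n (r - D.toR p) = 0
  rw [map_sub, D.proj_toR, hp, sub_self]

theorem limMap_proj_surjective (n : ℕ) : Function.Surjective (D.proj n) := by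
  intro x
  obtain ⟨p, hp⟩ := Ideal.Quotient.mk_surjective x
  exact ⟨D.toR p, by rw [D.proj_toR, hp]⟩

theorem limMap_proj_eq_of_le {m n : ℕ} (hmn : m ≤ n) (r : D.R) (p : Pol)
    (h : D.proj n r = Ideal.Quotient.mk (J n) p) :
    D.proj m r = Ideal.Quotient.mk (J m) p := by
  have h1 : r - D.toR p ∈ RingHom.ker (D.proj n : D.R →+* Pol ⧸ J n) := by
    rw [RingHom.mem_ker]
    show D.proj n (r - D.toR p) = 0
    rw [map_sub, D.proj_toR, h, sub_self]
  rw [D.ker_proj n] at h1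
  have h2 : r - D.toR p ∈ RingHom.ker (D.proj m : D.R →+* Pol ⧸ J m) := by
    rw [D.ker_proj m]
    exact Ideal.pow_le_pow_right hmn h1
  rw [RingHom.mem_ker] at h2
  have h3 : D.proj m (r - D.toR p) = 0 := h2
  rw [map_sub, D.proj_toR, sub_eq_zero] at h3
  exact h3

end Aux

theorem LimitRingData.algHom_eq_of_toR {𝒪 : Type} [CommRing 𝒪] [IsLocalRing 𝒪] {Pol : Type}
    [CommRing Pol] [Algebra 𝒪 Pol] {J : ℕ → Ideal Pol} (D : LimitRingData 𝒪 Pol J)
    {A : Type} [CommRing A] [IsLocalRing A] [Algebra 𝒪 A] [IsHausdorff (maximalIdeal A) A]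
    (φ φ' : D.R →ₐ[𝒪] A) (hφ : IsLocalHom (φ : D.R →+* A))
    (hφ' : IsLocalHom (φ' : D.R →+* A))
    (h : ∀ p, φ (D.toR p) = φ' (D.toR p)) : φ = φ' := by
  apply AlgHom.ext
  intro r
  rw [← sub_eq_zero]
  apply IsHausdorff.haus (I := maximalIdeal A) inferInstance
  intro n
  rw [SModEq.zero, smul_eq_mul, Ideal.mul_top]
  obtain ⟨p, -, hp⟩ := limMap_exists_toR_sub_mem D n r
  have h1 : φ r - φ' r = (φ : D.R →+* A) (r - D.toR p) - (φ' : D.R →+* A) (r - D.toR p) := by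
    simp only [map_sub, RingHom.coe_coe, h p]
    ring
  rw [h1]
  exact Ideal.sub_mem _ (limMap_map_pow_mem _ hφ n hp) (limMap_map_pow_mem _ hφ' n hp)

theorem LimitRingData.exists_algHom {𝒪 : Type} [CommRing 𝒪] [IsLocalRing 𝒪] {Pol : Type}
    [CommRing Pol] [Algebra 𝒪 Pol] {J : ℕ → Ideal Pol} (D : LimitRingData 𝒪 Pol J)
    {A : Type} [CommRing A] [IsLocalRing A] [Algebra 𝒪 A]
    [IsAdicComplete (maximalIdeal A) A]
    (f : Pol →ₐ[𝒪] A) (hf : ∀ n p, p ∈ J n → f p ∈ maximalIdeal A ^ n) :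
    ∃ φ : D.R →ₐ[𝒪] A, IsLocalHom (φ : D.R →+* A) ∧ ∀ p, φ (D.toR p) = f p := by
  -- the maps on finite levels
  let g : ∀ n, (Pol ⧸ J n) →ₐ[𝒪] A ⧸ maximalIdeal A ^ n := fun n =>
    Ideal.Quotient.liftₐ (J n) ((Ideal.Quotient.mkₐ 𝒪 (maximalIdeal A ^ n)).comp f)
      (fun p hp => by
        show Ideal.Quotient.mk _ (f p) = 0
        exact Ideal.Quotient.eq_zero_iff_mem.mpr (hf n p hp))
  have hg : ∀ n p, g n (Ideal.Quotient.mk (J n) p) = Ideal.Quotient.mk _ (f p) := fun n p => rfl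
  let F : ∀ n, D.R →ₐ[𝒪] A ⧸ maximalIdeal A ^ n := fun n => (g n).comp (D.proj n)
  have hF : ∀ {m n : ℕ} (hle : m ≤ n),
      (Ideal.Quotient.factorₐ 𝒪 (Ideal.pow_le_pow_right hle)).comp (F n) = F m := by
    intro m n hle
    apply AlgHom.ext
    intro r
    obtain ⟨p, hp, -⟩ := limMap_exists_toR_sub_mem D n r
    have hp' := limMap_proj_eq_of_le D hle r p hp
    show Ideal.Quotient.factorₐ 𝒪 (Ideal.pow_le_pow_right hle) (g n (D.proj n r))
      = g m (D.proj m r)
    rw [hp, hp', hg, hg]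
    rfl
  let φ : D.R →ₐ[𝒪] A := IsAdicComplete.liftAlgHom (maximalIdeal A) F hF
  have hφ : ∀ n r, Ideal.Quotient.mk (maximalIdeal A ^ n) (φ r) = F n r := fun n r =>
    IsAdicComplete.mk_liftAlgHom (maximalIdeal A) F hF n r
  have hφtoR : ∀ p, φ (D.toR p) = f p := by
    intro p
    rw [← sub_eq_zero]
    apply IsHausdorff.haus (I := maximalIdeal A) inferInstance
    intro n
    rw [SModEq.zero, smul_eq_mul, Ideal.mul_top, ← Ideal.Quotient.eq_zero_iff_mem, map_sub,
      hφ n]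
    show g n (D.proj n (D.toR p)) - _ = 0
    rw [D.proj_toR, hg, sub_self]
  refine ⟨φ, ?_, hφtoR⟩
  -- locality
  constructor
  intro r hr
  by_contra hnu
  have hr1 : r ∈ maximalIdeal D.R := hnu
  obtain ⟨p, hp, -⟩ := limMap_exists_toR_sub_mem D 1 r
  have h1 : r ∈ RingHom.ker (D.proj 1 : D.R →+* Pol ⧸ J 1) := by
    rw [D.ker_proj 1, pow_one]; exact hr1
  have h2 : D.proj 1 r = 0 := h1
  have h3 : Ideal.Quotient.mk (maximalIdeal A ^ 1) (φ r) = 0 := by
    rw [hφ 1 r]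
    show g 1 (D.proj 1 r) = 0
    rw [h2, map_zero]
  rw [Ideal.Quotient.eq_zero_iff_mem, pow_one] at h3
  exact h3 hr

theorem isArtinianTestAlgebra_quotient_pow (𝒪 : Type) [CommRing 𝒪] [IsLocalRing 𝒪]
    {A : Type} [CommRing A] [IsLocalRing A] [IsNoetherianRing A] [Algebra 𝒪 A]
    (hloc : IsLocalHom (algebraMap 𝒪 A))
    (hres : Function.Surjective (residue A ∘ algebraMap 𝒪 A)) (n : ℕ) (hn : 1 ≤ n) :
    ∃ (_ : IsLocalRing (A ⧸ maximalIdeal A ^ n))
      (_ : IsLocalHom (Ideal.Quotient.mk (maximalIdeal A ^ n))),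
      GaloisRep.IsArtinianTestAlgebra 𝒪 (A ⧸ maximalIdeal A ^ n) ∧
        maximalIdeal (A ⧸ maximalIdeal A ^ n) ^ n = ⊥ := by
  have hne : maximalIdeal A ^ n ≠ ⊤ := by
    intro h
    have := Ideal.pow_le_self (I := maximalIdeal A) (by omega : n ≠ 0)
    rw [h] at this
    exact (maximalIdeal.isMaximal A).ne_top (top_le_iff.mp this)
  have : Nontrivial (A ⧸ maximalIdeal A ^ n) := Ideal.Quotient.nontrivial_iff.mpr hne
  have hlocal : IsLocalRing (A ⧸ maximalIdeal A ^ n) :=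
    IsLocalRing.of_surjective' (Ideal.Quotient.mk (maximalIdeal A ^ n))
      Ideal.Quotient.mk_surjective
  have hmkloc : IsLocalHom (Ideal.Quotient.mk (maximalIdeal A ^ n)) := by
    constructor
    intro a ha
    by_contra hnu
    have ha1 : a ∈ maximalIdeal A := hnu
    -- then mk a is nilpotent, contradiction
    have h1 : (Ideal.Quotient.mk (maximalIdeal A ^ n) a) ^ n = 0 := by
      rw [← map_pow, Ideal.Quotient.eq_zero_iff_mem]
      exact Ideal.pow_mem_pow ha1 n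
    have h2 : IsUnit ((Ideal.Quotient.mk (maximalIdeal A ^ n) a) ^ n) := ha.pow n
    rw [h1] at h2
    exact not_isUnit_zero h2
  have hmax : maximalIdeal (A ⧸ maximalIdeal A ^ n)
      = (maximalIdeal A).map (Ideal.Quotient.mk (maximalIdeal A ^ n)) := by
    apply le_antisymm
    · intro x hx
      obtain ⟨a, rfl⟩ := Ideal.Quotient.mk_surjective x
      apply Ideal.mem_map_of_mem
      by_contra hnu
      have : IsUnit a := by
        by_contra h
        exact hnu h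
      exact hx (this.map _)
    · rw [Ideal.map_le_iff_le_comap]
      intro a ha
      exact Ideal.mem_comap.mpr (haveI := hmkloc; map_nonunit _ a ha)
  have hpow : maximalIdeal (A ⧸ maximalIdeal A ^ n) ^ n = ⊥ := by
    rw [hmax, ← Ideal.map_pow, Ideal.map_quotient_self]
  refine ⟨hlocal, hmkloc, ⟨?_, ?_, ?_⟩, hpow⟩
  · -- the structure map is local
    have : (algebraMap 𝒪 (A ⧸ maximalIdeal A ^ n))
        = (Ideal.Quotient.mk (maximalIdeal A ^ n)).comp (algebraMap 𝒪 A) := rfl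
    rw [this]
    constructor
    intro a ha
    have h1 : IsUnit (algebraMap 𝒪 A a) := hmkloc.map_nonunit _ ha
    exact hloc.map_nonunit _ h1
  · -- residue surjectivity
    intro x
    obtain ⟨y, rfl⟩ := IsLocalRing.residue_surjective x
    obtain ⟨a, rfl⟩ := Ideal.Quotient.mk_surjective y
    obtain ⟨o, ho⟩ := hres (residue A a)
    refine ⟨o, ?_⟩
    have ho' : residue A (algebraMap 𝒪 A o) = residue A a := ho
    have h1 : algebraMap 𝒪 A o - a ∈ maximalIdeal A := by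
      rw [← IsLocalRing.residue_eq_zero_iff, map_sub, ho', sub_self]
    show residue _ (Ideal.Quotient.mk (maximalIdeal A ^ n) (algebraMap 𝒪 A o))
      = residue _ (Ideal.Quotient.mk (maximalIdeal A ^ n) a)
    rw [← sub_eq_zero, ← map_sub, ← map_sub, IsLocalRing.residue_eq_zero_iff, hmax]
    exact Ideal.mem_map_of_mem _ h1
  · -- Artinian
    rw [isArtinianRing_iff_isNilpotent_maximalIdeal]
    exact ⟨n, hpow⟩

theorem LimitRingData.exists_factor {𝒪 : Type} [CommRing 𝒪] [IsLocalRing 𝒪] {Pol : Type}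
    [CommRing Pol] [Algebra 𝒪 Pol] {J : ℕ → Ideal Pol} (D : LimitRingData 𝒪 Pol J)
    {B : Type} [CommRing B] [IsLocalRing B] [IsArtinianRing B] [Algebra 𝒪 B]
    (q : D.R →ₐ[𝒪] B) (hq : IsLocalHom (q : D.R →+* B)) :
    ∃ n, 1 ≤ n ∧ ∃ g : (Pol ⧸ J n) →ₐ[𝒪] B, ∀ r, g (D.proj n r) = q r := by
  obtain ⟨N, hN⟩ := (isArtinianRing_iff_isNilpotent_maximalIdeal B).mp inferInstance
  have hN' : maximalIdeal B ^ (N + 1) = ⊥ := by
    rw [pow_succ, hN, zero_mul]
    rfl
  refine ⟨N + 1, by omega, ?_⟩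
  have hker : RingHom.ker (D.proj (N + 1) : D.R →+* Pol ⧸ J (N + 1)) ≤ RingHom.ker (q : D.R →+* B) := by
    rw [D.ker_proj]
    intro r hr
    have := limMap_map_pow_mem (q : D.R →+* B) hq (N + 1) hr
    rw [hN'] at this
    exact this
  refine ⟨AlgHom.liftOfSurjective (D.proj (N + 1)) (limMap_proj_surjective D (N + 1)) q hker, ?_⟩
  intro r
  exact AlgHom.liftOfSurjective_apply _ _ _ _ _

end Fermat.Agent.S53
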