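import Fermat.Agent.S53.PowerSeries
import Fermat.Prelude.Thm_IsLocalRing_isAdicComplete_of_module_finite

/-!
WP4 of S53: the limit ring `lim Pol / J n`, realised as a quotient of a power series ring.
All helper declarations live in `Fermat.Agent.S53.LimitRing`.
-/

set_option autoImplicit false
set_option linter.unusedSectionVars false
set_option linter.unusedVariables false
set_option linter.style.haveILetI false

open IsLocalRing

namespace Fermat.Agent.S53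

/-- Output of WP4. -/
structure LimitRingData (𝒪 : Type) [CommRing 𝒪] [IsLocalRing 𝒪] (Pol : Type) [CommRing Pol]
    [Algebra 𝒪 Pol] (J : ℕ → Ideal Pol) : Type 1 where
  R : Type
  [instCommRing : CommRing R]
  [instIsLocalRing : IsLocalRing R]
  [instIsNoetherianRing : IsNoetherianRing R]
  [instIsAdicComplete : IsAdicComplete (maximalIdeal R) R]
  [instAlgebra : Algebra 𝒪 R]
  [instIsLocalHom : IsLocalHom (algebraMap 𝒪 R)]
  residue_surjective : Function.Surjective (residue R ∘ algebraMap 𝒪 R)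
  /-- the canonical map `Pol → lim Pol/J n` -/
  toR : Pol →ₐ[𝒪] R
  /-- the projections -/
  proj : ∀ n, R →ₐ[𝒪] Pol ⧸ J n
  proj_toR : ∀ n p, proj n (toR p) = Ideal.Quotient.mk (J n) p
  ker_proj : ∀ n, RingHom.ker (proj n : R →+* Pol ⧸ J n) = maximalIdeal R ^ n

attribute [instance] LimitRingData.instCommRing LimitRingData.instIsLocalRing
  LimitRingData.instIsNoetherianRing LimitRingData.instIsAdicComplete
  LimitRingData.instAlgebra LimitRingData.instIsLocalHom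

namespace LimitRing

variable (𝒪 : Type) [CommRing 𝒪] [IsLocalRing 𝒪]
  (Pol : Type) [CommRing Pol] [Algebra 𝒪 Pol] (𝔐 : Ideal Pol)
  (J : ℕ → Ideal Pol) (d : ℕ) (t : Fin d → Pol)

/-- the hypotheses of WP4, bundled -/
structure Hyp : Prop where
  max : 𝔐.IsMaximal
  h𝒪 : ∀ a ∈ maximalIdeal 𝒪, algebraMap 𝒪 Pol a ∈ 𝔐
  hres : Function.Surjective ((Ideal.Quotient.mk 𝔐).comp (algebraMap 𝒪 Pol))
  hJ : ∀ n, 1 ≤ n → J n ≤ 𝔐
  hpow : ∀ n, 𝔐 ^ n ≤ J n
  hstep : ∀ n, J n = J (n + 1) ⊔ 𝔐 ^ n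
  ht : ∀ i, t i ∈ 𝔐
  hsurj : ∀ n (p : Pol), ∃ q : MvPolynomial (Fin d) 𝒪, p - MvPolynomial.aeval t q ∈ J n

variable {𝒪 Pol 𝔐 J d t}

theorem Hyp.antitone (H : Hyp 𝒪 Pol 𝔐 J d t) : Antitone J :=
  antitone_nat_of_succ_le fun n => by
    rw [H.hstep n]
    exact le_sup_left

/-- the evaluation maps exist -/
theorem Hyp.exists_psi (H : Hyp 𝒪 Pol 𝔐 J d t) (n : ℕ) :
    ∃ ψ : MvPowerSeries (Fin d) 𝒪 →ₐ[𝒪] Pol ⧸ J n,
      (∀ p : MvPolynomial (Fin d) 𝒪, ψ (p : MvPowerSeries (Fin d) 𝒪) =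
        Ideal.Quotient.mk (J n) (MvPolynomial.aeval t p)) ∧
      ∀ f ∈ maximalIdeal (MvPowerSeries (Fin d) 𝒪) ^ n, ψ f = 0 := by
  obtain ⟨ψ, hψ1, hψ2⟩ := exists_algHom_mvPowerSeries 𝒪 d (B := Pol ⧸ J n)
    (𝔐.map (Ideal.Quotient.mk (J n))) n
    (by
      rw [← Ideal.map_pow]
      exact (Ideal.map_eq_bot_iff_le_ker _).mpr (by rw [Ideal.mk_ker]; exact H.hpow n))
    (fun a ha => by
      show Ideal.Quotient.mk (J n) (algebraMap 𝒪 Pol a) ∈ _
      exact Ideal.mem_map_of_mem _ (H.h𝒪 a ha))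
    (fun i => Ideal.Quotient.mk (J n) (t i))
    (fun i => Ideal.mem_map_of_mem _ (H.ht i))
  refine ⟨ψ, fun p => ?_, hψ2⟩
  rw [hψ1 p]
  have := MvPolynomial.comp_aeval_apply (R := 𝒪) t (Ideal.Quotient.mkₐ 𝒪 (J n)) p
  exact this.symm

/-- the evaluation map `𝒪⟦X⟧ → Pol ⧸ J n`, `X i ↦ t i` -/
noncomputable def psi (H : Hyp 𝒪 Pol 𝔐 J d t) (n : ℕ) :
    MvPowerSeries (Fin d) 𝒪 →ₐ[𝒪] Pol ⧸ J n :=
  (H.exists_psi n).choose

theorem psi_poly (H : Hyp 𝒪 Pol 𝔐 J d t) (n : ℕ) (p : MvPolynomial (Fin d) 𝒪) :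
    psi H n (p : MvPowerSeries (Fin d) 𝒪) = Ideal.Quotient.mk (J n) (MvPolynomial.aeval t p) :=
  (H.exists_psi n).choose_spec.1 p

theorem psi_pow (H : Hyp 𝒪 Pol 𝔐 J d t) (n : ℕ) (f : MvPowerSeries (Fin d) 𝒪)
    (hf : f ∈ maximalIdeal (MvPowerSeries (Fin d) 𝒪) ^ n) : psi H n f = 0 :=
  (H.exists_psi n).choose_spec.2 f hf

theorem pow_le_ker_psi (H : Hyp 𝒪 Pol 𝔐 J d t) (n : ℕ) :
    maximalIdeal (MvPowerSeries (Fin d) 𝒪) ^ n ≤ RingHom.ker (psi H n) :=
  fun f hf => psi_pow H n f hf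

theorem psi_surjective (H : Hyp 𝒪 Pol 𝔐 J d t) (n : ℕ) : Function.Surjective (psi H n) := by
  intro q
  obtain ⟨p, rfl⟩ := Ideal.Quotient.mk_surjective q
  obtain ⟨q, hq⟩ := H.hsurj n p
  refine ⟨(q : MvPowerSeries (Fin d) 𝒪), ?_⟩
  rw [psi_poly, eq_comm, Ideal.Quotient.eq]
  exact hq

/-- compatibility of the kernels -/
theorem ker_psi_antitone (H : Hyp 𝒪 Pol 𝔐 J d t) {m n : ℕ} (hmn : m ≤ n) :
    RingHom.ker (psi H n) ≤ RingHom.ker (psi H m) := by
  intro f hf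
  rw [RingHom.mem_ker] at hf ⊢
  obtain ⟨p, hp⟩ := exists_mvPolynomial_sub_mem_pow 𝒪 d f n
  have h1 : psi H n (p : MvPowerSeries (Fin d) 𝒪) = 0 := by
    have := psi_pow H n _ hp
    rw [map_sub, hf, zero_sub, neg_eq_zero] at this
    exact this
  rw [psi_poly, Ideal.Quotient.eq_zero_iff_mem] at h1
  have h2 : psi H m (p : MvPowerSeries (Fin d) 𝒪) = 0 := by
    rw [psi_poly, Ideal.Quotient.eq_zero_iff_mem]
    exact H.antitone hmn h1
  have h3 : psi H m (f - (p : MvPowerSeries (Fin d) 𝒪)) = 0 :=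
    psi_pow H m _ (Ideal.pow_le_pow_right hmn hp)
  rw [map_sub, h2, sub_zero] at h3
  exact h3

theorem psi_eq_mk_of_le (H : Hyp 𝒪 Pol 𝔐 J d t) {m n : ℕ} (hmn : m ≤ n)
    (f : MvPowerSeries (Fin d) 𝒪) (p : Pol) (h : psi H n f = Ideal.Quotient.mk (J n) p) :
    psi H m f = Ideal.Quotient.mk (J m) p := by
  obtain ⟨q, hq⟩ := H.hsurj n p
  have h1 : psi H n (q : MvPowerSeries (Fin d) 𝒪) = Ideal.Quotient.mk (J n) p := by
    rw [psi_poly, eq_comm, Ideal.Quotient.eq]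
    exact hq
  have h2 : f - (q : MvPowerSeries (Fin d) 𝒪) ∈ RingHom.ker (psi H n) := by
    rw [RingHom.mem_ker, map_sub, h, h1, sub_self]
  have h3 := ker_psi_antitone H hmn h2
  rw [RingHom.mem_ker, map_sub, sub_eq_zero] at h3
  rw [h3, psi_poly, eq_comm, Ideal.Quotient.eq]
  exact H.antitone hmn hq

/-- for `n ≥ 1`, the maximal ideal of the power series ring is the preimage of `𝔐 / J n` -/
theorem maximalIdeal_eq_comap (H : Hyp 𝒪 Pol 𝔐 J d t) {n : ℕ} (hn : 1 ≤ n) :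
    maximalIdeal (MvPowerSeries (Fin d) 𝒪) =
      (𝔐.map (Ideal.Quotient.mk (J n))).comap (psi H n) := by
  haveI := H.max
  have hJ𝔐 : J n ≤ 𝔐 := H.hJ n hn
  let ρ : MvPowerSeries (Fin d) 𝒪 →+* Pol ⧸ 𝔐 :=
    (Ideal.Quotient.factor hJ𝔐).comp (psi H n : MvPowerSeries (Fin d) 𝒪 →+* Pol ⧸ J n)
  have hρ : Function.Surjective ρ :=
    (Ideal.Quotient.factor_surjective hJ𝔐).comp (psi_surjective H n)
  letI : Field (Pol ⧸ 𝔐) := Ideal.Quotient.field 𝔐
  have hmax : (RingHom.ker ρ).IsMaximal := RingHom.ker_isMaximal_of_surjective ρ hρ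
  rw [← IsLocalRing.eq_maximalIdeal hmax]
  ext f
  rw [RingHom.mem_ker, Ideal.mem_comap]
  obtain ⟨p, hp⟩ := Ideal.Quotient.mk_surjective (psi H n f)
  have : ρ f = Ideal.Quotient.mk 𝔐 p := by
    show Ideal.Quotient.factor hJ𝔐 (psi H n f) = _
    rw [← hp, Ideal.Quotient.factor_mk]
  rw [this, ← hp, Ideal.Quotient.eq_zero_iff_mem, Ideal.mem_quotient_iff_mem hJ𝔐]

theorem map_maximalIdeal_psi (H : Hyp 𝒪 Pol 𝔐 J d t) {n : ℕ} (hn : 1 ≤ n) :
    (maximalIdeal (MvPowerSeries (Fin d) 𝒪)).map (psi H n) =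
      𝔐.map (Ideal.Quotient.mk (J n)) := by
  rw [maximalIdeal_eq_comap H hn]
  exact Ideal.map_comap_of_surjective _ (psi_surjective H n) _

/-- step (a) -/
theorem ker_psi_le_succ (H : Hyp 𝒪 Pol 𝔐 J d t) (n : ℕ) :
    RingHom.ker (psi H n) ≤
      RingHom.ker (psi H (n + 1)) ⊔ maximalIdeal (MvPowerSeries (Fin d) 𝒪) ^ n := by
  intro f hf
  rw [RingHom.mem_ker] at hf
  obtain ⟨p, hp⟩ := Ideal.Quotient.mk_surjective (psi H (n + 1) f)
  have h1 : psi H n f = Ideal.Quotient.mk (J n) p :=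
    psi_eq_mk_of_le H (Nat.le_succ n) f p hp.symm
  rw [hf, eq_comm, Ideal.Quotient.eq_zero_iff_mem, H.hstep n] at h1
  obtain ⟨j, hj, x, hx, rfl⟩ := Submodule.mem_sup.mp h1
  have h2 : Ideal.Quotient.mk (J (n + 1)) (j + x) = Ideal.Quotient.mk (J (n + 1)) x := by
    rw [map_add, Ideal.Quotient.eq_zero_iff_mem.mpr hj, zero_add]
  have h3 : Ideal.Quotient.mk (J (n + 1)) x ∈
      (maximalIdeal (MvPowerSeries (Fin d) 𝒪) ^ n).map (psi H (n + 1)) := by
    rw [Ideal.map_pow, map_maximalIdeal_psi H (Nat.succ_le_succ (Nat.zero_le n)), ← Ideal.map_pow]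
    exact Ideal.mem_map_of_mem _ hx
  obtain ⟨g, hg, hgx⟩ := (Ideal.mem_map_iff_of_surjective _ (psi_surjective H (n + 1))).mp h3
  have h4 : f - g ∈ RingHom.ker (psi H (n + 1)) := by
    rw [RingHom.mem_ker, map_sub, hgx, ← hp, h2, sub_self]
  have : f = (f - g) + g := by ring
  rw [this]
  exact Submodule.add_mem_sup h4 hg

/-- the approximating sequence used in the successive approximation argument -/
noncomputable def approx (H : Hyp 𝒪 Pol 𝔐 J d t) (n : ℕ) (f : MvPowerSeries (Fin d) 𝒪)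
    (hf : f ∈ RingHom.ker (psi H n)) :
    (j : ℕ) → {g : MvPowerSeries (Fin d) 𝒪 // g ∈ RingHom.ker (psi H (n + j))}
  | 0 => ⟨f, hf⟩
  | j + 1 =>
    ⟨(Submodule.mem_sup.mp (ker_psi_le_succ H (n + j) (approx H n f hf j).2)).choose,
      (Submodule.mem_sup.mp (ker_psi_le_succ H (n + j) (approx H n f hf j).2)).choose_spec.1⟩

theorem approx_zero (H : Hyp 𝒪 Pol 𝔐 J d t) (n : ℕ) (f : MvPowerSeries (Fin d) 𝒪)
    (hf : f ∈ RingHom.ker (psi H n)) : (approx H n f hf 0).1 = f := rfl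

theorem approx_succ_sub (H : Hyp 𝒪 Pol 𝔐 J d t) (n : ℕ) (f : MvPowerSeries (Fin d) 𝒪)
    (hf : f ∈ RingHom.ker (psi H n)) (j : ℕ) :
    (approx H n f hf j).1 - (approx H n f hf (j + 1)).1 ∈
      maximalIdeal (MvPowerSeries (Fin d) 𝒪) ^ (n + j) := by
  obtain ⟨z, hz, hyz⟩ :=
    (Submodule.mem_sup.mp (ker_psi_le_succ H (n + j) (approx H n f hf j).2)).choose_spec.2
  have : (approx H n f hf j).1 - (approx H n f hf (j + 1)).1 = z := by
    rw [← hyz]
    show _ + z - _ = z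
    rw [approx]
    ring
  rw [this]
  exact hz

theorem approx_sub (H : Hyp 𝒪 Pol 𝔐 J d t) (n : ℕ) (f : MvPowerSeries (Fin d) 𝒪)
    (hf : f ∈ RingHom.ker (psi H n)) {j j' : ℕ} (hjj' : j ≤ j') :
    (approx H n f hf j).1 - (approx H n f hf j').1 ∈
      maximalIdeal (MvPowerSeries (Fin d) 𝒪) ^ (n + j) := by
  induction j', hjj' using Nat.le_induction with
  | base => rw [sub_self]; exact Ideal.zero_mem _
  | succ k hk ih =>
    have h1 := approx_succ_sub H n f hf k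
    have h2 : maximalIdeal (MvPowerSeries (Fin d) 𝒪) ^ (n + k) ≤
        maximalIdeal (MvPowerSeries (Fin d) 𝒪) ^ (n + j) :=
      Ideal.pow_le_pow_right (by omega)
    have : (approx H n f hf j).1 - (approx H n f hf (k + 1)).1 =
        ((approx H n f hf j).1 - (approx H n f hf k).1) +
          ((approx H n f hf k).1 - (approx H n f hf (k + 1)).1) := by ring
    rw [this]
    exact Ideal.add_mem _ ih (h2 h1)

/-- the kernel of the limit map -/
noncomputable def kerLim (H : Hyp 𝒪 Pol 𝔐 J d t) : Ideal (MvPowerSeries (Fin d) 𝒪) :=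
  ⨅ n, RingHom.ker (psi H n)

theorem kerLim_le (H : Hyp 𝒪 Pol 𝔐 J d t) (n : ℕ) : kerLim H ≤ RingHom.ker (psi H n) :=
  iInf_le _ n

section Complete

variable [IsNoetherianRing 𝒪] [IsAdicComplete (maximalIdeal 𝒪) 𝒪]

/-- the key lemma: `ker ψ_n = 𝔫^n + K` -/
theorem ker_psi_le_sup (H : Hyp 𝒪 Pol 𝔐 J d t) (n : ℕ) :
    RingHom.ker (psi H n) ≤ maximalIdeal (MvPowerSeries (Fin d) 𝒪) ^ n ⊔ kerLim H := by
  intro f hf
  haveI := isAdicComplete_maximalIdeal_mvPowerSeries 𝒪 d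
  set 𝔫 := maximalIdeal (MvPowerSeries (Fin d) 𝒪) with h𝔫
  let g : ℕ → MvPowerSeries (Fin d) 𝒪 := fun m => (approx H n f hf (m - n)).1
  have hg : ∀ {m m' : ℕ}, m ≤ m' →
      g m ≡ g m' [SMOD (𝔫 ^ m • ⊤ : Submodule (MvPowerSeries (Fin d) 𝒪) (MvPowerSeries (Fin d) 𝒪))] := by
    intro m m' hmm'
    rw [SModEq.sub_mem, smul_eq_mul, Ideal.mul_top]
    have h1 := approx_sub H n f hf (Nat.sub_le_sub_right hmm' n)
    exact Ideal.pow_le_pow_right (by omega) h1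
  obtain ⟨h, hh⟩ := IsPrecomplete.prec (I := 𝔫) inferInstance hg
  have hh' : ∀ m, g m - h ∈ 𝔫 ^ m := by
    intro m
    have := hh m
    rwa [SModEq.sub_mem, smul_eq_mul, Ideal.mul_top] at this
  have hfh : f - h ∈ 𝔫 ^ n := by
    have := hh' n
    have hg0 : g n = f := by
      show (approx H n f hf (n - n)).1 = f
      rw [Nat.sub_self]
      rfl
    rwa [hg0] at this
  have hK : h ∈ kerLim H := by
    rw [kerLim, Ideal.mem_iInf]
    intro m
    have hM1 : g (max m n) ∈ RingHom.ker (psi H m) :=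
      ker_psi_antitone H (by omega) (approx H n f hf (max m n - n)).2
    have hM2 : g (max m n) - h ∈ RingHom.ker (psi H m) :=
      pow_le_ker_psi H m (Ideal.pow_le_pow_right (le_max_left m n) (hh' (max m n)))
    have : h = g (max m n) - (g (max m n) - h) := by ring
    rw [this]
    exact Ideal.sub_mem _ hM1 hM2
  have : f = (f - h) + h := by ring
  rw [this]
  exact Submodule.add_mem_sup hfh hK

theorem ker_psi_eq_sup (H : Hyp 𝒪 Pol 𝔐 J d t) (n : ℕ) :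
    RingHom.ker (psi H n) = maximalIdeal (MvPowerSeries (Fin d) 𝒪) ^ n ⊔ kerLim H :=
  le_antisymm (ker_psi_le_sup H n) (sup_le (pow_le_ker_psi H n) (kerLim_le H n))

/-- the limit ring -/
abbrev Rlim (H : Hyp 𝒪 Pol 𝔐 J d t) : Type := MvPowerSeries (Fin d) 𝒪 ⧸ kerLim H

theorem kerLim_ne_top (H : Hyp 𝒪 Pol 𝔐 J d t) : kerLim H ≠ ⊤ := by
  intro htop
  have h1 : (1 : MvPowerSeries (Fin d) 𝒪) ∈ RingHom.ker (psi H 1) :=
    kerLim_le H 1 (htop ▸ Submodule.mem_top)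
  rw [RingHom.mem_ker, map_one] at h1
  have h2 : (1 : Pol) ∈ J 1 := by
    rw [← Ideal.Quotient.eq_zero_iff_mem, map_one]
    exact h1
  exact H.max.ne_top ((Ideal.eq_top_iff_one _).mpr (H.hJ 1 le_rfl h2))

instance instNontrivialRlim (H : Hyp 𝒪 Pol 𝔐 J d t) : Nontrivial (Rlim H) :=
  Ideal.Quotient.nontrivial_iff.mpr (kerLim_ne_top H)

instance instIsLocalRingRlim (H : Hyp 𝒪 Pol 𝔐 J d t) : IsLocalRing (Rlim H) :=
  IsLocalRing.of_surjective' (Ideal.Quotient.mk (kerLim H)) Ideal.Quotient.mk_surjective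

instance instIsLocalHomMk (H : Hyp 𝒪 Pol 𝔐 J d t) :
    IsLocalHom (algebraMap (MvPowerSeries (Fin d) 𝒪) (Rlim H)) :=
  IsLocalHom.of_surjective _ Ideal.Quotient.mk_surjective

theorem isLocalHom_algebraMap_mvPowerSeries :
    IsLocalHom (algebraMap 𝒪 (MvPowerSeries (Fin d) 𝒪)) := by
  constructor
  intro a ha
  rw [MvPowerSeries.isUnit_iff_constantCoeff, ← MvPowerSeries.c_eq_algebraMap,
    MvPowerSeries.constantCoeff_C] at ha
  exact ha

instance instIsLocalHomRlim (H : Hyp 𝒪 Pol 𝔐 J d t) :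
    IsLocalHom (algebraMap 𝒪 (Rlim H)) := by
  have h1 : IsLocalHom (algebraMap 𝒪 (MvPowerSeries (Fin d) 𝒪)) :=
    isLocalHom_algebraMap_mvPowerSeries
  have h2 : algebraMap 𝒪 (Rlim H) =
      (algebraMap (MvPowerSeries (Fin d) 𝒪) (Rlim H)).comp
        (algebraMap 𝒪 (MvPowerSeries (Fin d) 𝒪)) := rfl
  rw [h2]
  exact RingHom.isLocalHom_comp _ _

theorem residue_surjective_Rlim (H : Hyp 𝒪 Pol 𝔐 J d t) :
    Function.Surjective (residue (Rlim H) ∘ algebraMap 𝒪 (Rlim H)) := by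
  intro x
  obtain ⟨r, rfl⟩ := IsLocalRing.residue_surjective x
  obtain ⟨f, rfl⟩ := Ideal.Quotient.mk_surjective r
  refine ⟨MvPowerSeries.constantCoeff f, ?_⟩
  rw [Function.comp_apply, eq_comm, ← sub_eq_zero, ← map_sub, IsLocalRing.residue_eq_zero_iff]
  have h1 : f - algebraMap 𝒪 (MvPowerSeries (Fin d) 𝒪) (MvPowerSeries.constantCoeff f) ∈
      maximalIdeal (MvPowerSeries (Fin d) 𝒪) := by
    rw [IsLocalRing.mem_maximalIdeal, mem_nonunits_iff, MvPowerSeries.isUnit_iff_constantCoeff,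
      ← MvPowerSeries.c_eq_algebraMap, map_sub, MvPowerSeries.constantCoeff_C, sub_self]
    exact not_isUnit_zero
  have h2 := Ideal.mem_map_of_mem (Ideal.Quotient.mk (kerLim H)) h1
  rw [IsLocalRing.map_maximalIdeal_of_surjective _ Ideal.Quotient.mk_surjective] at h2
  exact h2

instance instIsAdicCompleteRlim (H : Hyp 𝒪 Pol 𝔐 J d t) :
    IsAdicComplete (maximalIdeal (Rlim H)) (Rlim H) := by
  haveI := isAdicComplete_maximalIdeal_mvPowerSeries 𝒪 d
  exact IsLocalRing.isAdicComplete_of_module_finite (𝒪 := MvPowerSeries (Fin d) 𝒪)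

/-- the projections -/
noncomputable def projLim (H : Hyp 𝒪 Pol 𝔐 J d t) (n : ℕ) : Rlim H →ₐ[𝒪] Pol ⧸ J n :=
  Ideal.Quotient.liftₐ (kerLim H) (psi H n) (fun f hf => kerLim_le H n hf)

theorem projLim_mk (H : Hyp 𝒪 Pol 𝔐 J d t) (n : ℕ) (f : MvPowerSeries (Fin d) 𝒪) :
    projLim H n (Ideal.Quotient.mk (kerLim H) f) = psi H n f := rfl

theorem ker_projLim (H : Hyp 𝒪 Pol 𝔐 J d t) (n : ℕ) :
    RingHom.ker (projLim H n : Rlim H →+* Pol ⧸ J n) = maximalIdeal (Rlim H) ^ n := by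
  rw [← IsLocalRing.map_maximalIdeal_of_surjective (Ideal.Quotient.mk (kerLim H))
    Ideal.Quotient.mk_surjective, ← Ideal.map_pow]
  ext r
  obtain ⟨f, rfl⟩ := Ideal.Quotient.mk_surjective r
  rw [RingHom.mem_ker]
  constructor
  · intro h
    have hf : f ∈ RingHom.ker (psi H n) := h
    rw [ker_psi_eq_sup H n] at hf
    obtain ⟨a, ha, b, hb, rfl⟩ := Submodule.mem_sup.mp hf
    rw [map_add, Ideal.Quotient.eq_zero_iff_mem.mpr hb, add_zero]
    exact Ideal.mem_map_of_mem _ ha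
  · intro h
    obtain ⟨g, hg, hgf⟩ := (Ideal.mem_map_iff_of_surjective _ Ideal.Quotient.mk_surjective).mp h
    rw [← hgf]
    exact psi_pow H n g hg

/-- elements of the limit ring are determined by their projections -/
theorem eq_of_projLim_eq (H : Hyp 𝒪 Pol 𝔐 J d t) (r r' : Rlim H)
    (h : ∀ n, projLim H n r = projLim H n r') : r = r' := by
  obtain ⟨f, rfl⟩ := Ideal.Quotient.mk_surjective r
  obtain ⟨f', rfl⟩ := Ideal.Quotient.mk_surjective r'
  rw [Ideal.Quotient.eq, kerLim, Ideal.mem_iInf]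
  intro n
  have := h n
  rw [projLim_mk, projLim_mk] at this
  rw [RingHom.mem_ker, map_sub, this, sub_self]

/-- existence of lifts of elements of `Pol` -/
theorem exists_lift (H : Hyp 𝒪 Pol 𝔐 J d t) (p : Pol) :
    ∃ r : Rlim H, ∀ n, projLim H n r = Ideal.Quotient.mk (J n) p := by
  choose q hq using fun n => H.hsurj n p
  have hψ : ∀ n, psi H n (q n : MvPowerSeries (Fin d) 𝒪) = Ideal.Quotient.mk (J n) p := by
    intro n
    rw [psi_poly, eq_comm, Ideal.Quotient.eq]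
    exact hq n
  let r : ℕ → Rlim H := fun n => Ideal.Quotient.mk (kerLim H) (q n : MvPowerSeries (Fin d) 𝒪)
  have hr : ∀ {m n : ℕ}, m ≤ n →
      r m ≡ r n [SMOD (maximalIdeal (Rlim H) ^ m • ⊤ : Submodule (Rlim H) (Rlim H))] := by
    intro m n hmn
    rw [SModEq.sub_mem, smul_eq_mul, Ideal.mul_top, ← ker_projLim H m, RingHom.mem_ker]
    show projLim H m (r m - r n) = 0
    rw [map_sub, projLim_mk, projLim_mk, hψ m, psi_eq_mk_of_le H hmn _ p (hψ n), sub_self]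
  obtain ⟨L, hL⟩ := IsPrecomplete.prec (I := maximalIdeal (Rlim H)) inferInstance hr
  refine ⟨L, fun n => ?_⟩
  have := hL n
  rw [SModEq.sub_mem, smul_eq_mul, Ideal.mul_top, ← ker_projLim H n, RingHom.mem_ker] at this
  have h2 : projLim H n (r n - L) = 0 := this
  rw [map_sub, sub_eq_zero] at h2
  rw [← h2, projLim_mk, hψ n]

/-- the canonical map `Pol → lim Pol / J n` as a function -/
noncomputable def toRlimFun (H : Hyp 𝒪 Pol 𝔐 J d t) (p : Pol) : Rlim H :=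
  (exists_lift H p).choose

theorem projLim_toRlimFun (H : Hyp 𝒪 Pol 𝔐 J d t) (n : ℕ) (p : Pol) :
    projLim H n (toRlimFun H p) = Ideal.Quotient.mk (J n) p :=
  (exists_lift H p).choose_spec n

/-- the canonical map `Pol → lim Pol / J n` -/
noncomputable def toRlim (H : Hyp 𝒪 Pol 𝔐 J d t) : Pol →ₐ[𝒪] Rlim H where
  toFun := toRlimFun H
  map_one' := eq_of_projLim_eq H _ _ fun n => by
    rw [projLim_toRlimFun, map_one, map_one]
  map_mul' p q := eq_of_projLim_eq H _ _ fun n => by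
    rw [map_mul, projLim_toRlimFun, projLim_toRlimFun, projLim_toRlimFun, map_mul]
  map_zero' := eq_of_projLim_eq H _ _ fun n => by
    rw [projLim_toRlimFun, map_zero, map_zero]
  map_add' p q := eq_of_projLim_eq H _ _ fun n => by
    rw [map_add, projLim_toRlimFun, projLim_toRlimFun, projLim_toRlimFun, map_add]
  commutes' a := eq_of_projLim_eq H _ _ fun n => by
    rw [projLim_toRlimFun, AlgHom.commutes]
    rfl

theorem projLim_toRlim (H : Hyp 𝒪 Pol 𝔐 J d t) (n : ℕ) (p : Pol) :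
    projLim H n (toRlim H p) = Ideal.Quotient.mk (J n) p :=
  projLim_toRlimFun H n p

end Complete

end LimitRing

/-- WP4. -/
theorem nonempty_limitRingData (𝒪 : Type) [CommRing 𝒪] [IsLocalRing 𝒪] [IsNoetherianRing 𝒪]
    [IsAdicComplete (maximalIdeal 𝒪) 𝒪]
    (Pol : Type) [CommRing Pol] [Algebra 𝒪 Pol] (𝔐 : Ideal Pol) (h𝔐 : 𝔐.IsMaximal)
    (h𝒪 : ∀ a ∈ maximalIdeal 𝒪, algebraMap 𝒪 Pol a ∈ 𝔐)
    (hres : Function.Surjective ((Ideal.Quotient.mk 𝔐).comp (algebraMap 𝒪 Pol)))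
    (J : ℕ → Ideal Pol) (hJ : ∀ n, 1 ≤ n → J n ≤ 𝔐) (hpow : ∀ n, 𝔐 ^ n ≤ J n)
    (hstep : ∀ n, J n = J (n + 1) ⊔ 𝔐 ^ n)
    (d : ℕ) (t : Fin d → Pol) (ht : ∀ i, t i ∈ 𝔐)
    (hsurj : ∀ n (p : Pol), ∃ q : MvPolynomial (Fin d) 𝒪, p - MvPolynomial.aeval t q ∈ J n) :
    Nonempty (LimitRingData 𝒪 Pol J) := by
  have H : LimitRing.Hyp 𝒪 Pol 𝔐 J d t := ⟨h𝔐, h𝒪, hres, hJ, hpow, hstep, ht, hsurj⟩
  exact ⟨{ R := LimitRing.Rlim H
           residue_surjective := LimitRing.residue_surjective_Rlim H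
           toR := LimitRing.toRlim H
           proj := LimitRing.projLim H
           proj_toR := LimitRing.projLim_toRlim H
           ker_proj := LimitRing.ker_projLim H }⟩

end Fermat.Agent.S53
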