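import Fermat.Agent.S53.Defs

/-!
WP5 of S53: the power series ring `MvPowerSeries (Fin d) 𝒪` over a local ring `𝒪`.
-/

set_option autoImplicit false
set_option linter.unusedSectionVars false

open IsLocalRing

namespace Fermat.Agent.S53

section WP5

variable {𝒪 : Type} [CommRing 𝒪] [IsLocalRing 𝒪] {d : ℕ}

theorem wp5_mem_maximalIdeal_iff (f : MvPowerSeries (Fin d) 𝒪) :
    f ∈ maximalIdeal (MvPowerSeries (Fin d) 𝒪) ↔
      MvPowerSeries.constantCoeff f ∈ maximalIdeal 𝒪 := by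
  rw [mem_maximalIdeal, mem_maximalIdeal, mem_nonunits_iff, mem_nonunits_iff,
    MvPowerSeries.isUnit_iff_constantCoeff]

/-- The coefficient filtration: `f ∈ I_m` iff the coefficient of every monomial of degree `j`
lies in `𝔪 ^ (m - j)`. -/
def wp5CoeffIdeal (𝒪 : Type) [CommRing 𝒪] [IsLocalRing 𝒪] (d m : ℕ) :
    Ideal (MvPowerSeries (Fin d) 𝒪) where
  carrier := {f | ∀ α : Fin d →₀ ℕ, MvPowerSeries.coeff α f ∈ maximalIdeal 𝒪 ^ (m - α.degree)}
  add_mem' := by
    intro f g hf hg α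
    rw [map_add]
    exact Ideal.add_mem _ (hf α) (hg α)
  zero_mem' := by
    intro α
    rw [map_zero]
    exact Ideal.zero_mem _
  smul_mem' := by
    intro c f hf α
    rw [smul_eq_mul, MvPowerSeries.coeff_mul]
    refine Ideal.sum_mem _ fun p hp => ?_
    have hp' : p.1 + p.2 = α := by simpa using hp
    have hdeg : α.degree = p.1.degree + p.2.degree := by
      rw [← hp', map_add]
    have hle : m - α.degree ≤ m - p.2.degree := by omega
    exact Ideal.mul_mem_left _ _ (Ideal.pow_le_pow_right hle (hf p.2))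

theorem wp5_mem_coeffIdeal_iff (m : ℕ) (f : MvPowerSeries (Fin d) 𝒪) :
    f ∈ wp5CoeffIdeal 𝒪 d m ↔
      ∀ α : Fin d →₀ ℕ, MvPowerSeries.coeff α f ∈ maximalIdeal 𝒪 ^ (m - α.degree) :=
  Iff.rfl

theorem wp5_coeffIdeal_mul_le (a b : ℕ) :
    wp5CoeffIdeal 𝒪 d a * wp5CoeffIdeal 𝒪 d b ≤ wp5CoeffIdeal 𝒪 d (a + b) := by
  rw [Ideal.mul_le]
  intro f hf g hg α
  rw [MvPowerSeries.coeff_mul]
  refine Ideal.sum_mem _ fun p hp => ?_
  have hp' : p.1 + p.2 = α := by simpa using hp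
  have hdeg : α.degree = p.1.degree + p.2.degree := by
    rw [← hp', map_add]
  have hle : a + b - α.degree ≤ (a - p.1.degree) + (b - p.2.degree) := by omega
  refine Ideal.pow_le_pow_right hle ?_
  rw [pow_add]
  exact Ideal.mul_mem_mul (hf p.1) (hg p.2)

theorem wp5_maximalIdeal_le_coeffIdeal :
    maximalIdeal (MvPowerSeries (Fin d) 𝒪) ≤ wp5CoeffIdeal 𝒪 d 1 := by
  intro f hf α
  by_cases hα : α = 0
  · subst hα
    rw [wp5_mem_maximalIdeal_iff] at hf
    simpa using hf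
  · have : 1 ≤ α.degree := by
      rw [Nat.one_le_iff_ne_zero]
      intro h0
      exact hα ((Finsupp.degree_eq_zero_iff α).mp h0)
    have h0 : 1 - α.degree = 0 := by omega
    rw [h0, pow_zero, Ideal.one_eq_top]
    exact Submodule.mem_top

theorem wp5_maximalIdeal_pow_le_coeffIdeal (m : ℕ) :
    maximalIdeal (MvPowerSeries (Fin d) 𝒪) ^ m ≤ wp5CoeffIdeal 𝒪 d m := by
  induction m with
  | zero =>
    intro f _ α
    simp
  | succ m ih =>
    rw [pow_succ]
    exact (Ideal.mul_mono ih wp5_maximalIdeal_le_coeffIdeal).trans (wp5_coeffIdeal_mul_le m 1)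

/-- Selection of a variable occurring in a nonzero monomial. -/
def wp5Sel (α : Fin d →₀ ℕ) (i : Fin d) : Prop :=
  ∃ h : α.support.Nonempty, i = h.choose

theorem wp5Sel_ne_zero {α : Fin d →₀ ℕ} {i : Fin d} (h : wp5Sel α i) : α i ≠ 0 := by
  obtain ⟨hne, rfl⟩ := h
  exact Finsupp.mem_support_iff.mp hne.choose_spec

theorem wp5Sel_unique {α : Fin d →₀ ℕ} {i j : Fin d} (hi : wp5Sel α i) (hj : wp5Sel α j) :
    i = j := by
  obtain ⟨_, rfl⟩ := hi
  obtain ⟨_, rfl⟩ := hj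
  rfl

theorem wp5_exists_sel {α : Fin d →₀ ℕ} (h : α ≠ 0) : ∃ i, wp5Sel α i := by
  have hne : α.support.Nonempty := Finsupp.support_nonempty_iff.mpr h
  exact ⟨hne.choose, hne, rfl⟩

open Classical in
/-- The `i`-th piece of the decomposition `g = C (g 0) + ∑ i, X i * g_i`. -/
noncomputable def wp5Piece (g : MvPowerSeries (Fin d) 𝒪) (i : Fin d) :
    MvPowerSeries (Fin d) 𝒪 :=
  fun β => if wp5Sel (β + Finsupp.single i 1) i then
    MvPowerSeries.coeff (β + Finsupp.single i 1) g else 0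

open Classical in
theorem wp5_coeff_piece (g : MvPowerSeries (Fin d) 𝒪) (i : Fin d) (β : Fin d →₀ ℕ) :
    MvPowerSeries.coeff β (wp5Piece g i) =
      if wp5Sel (β + Finsupp.single i 1) i then
        MvPowerSeries.coeff (β + Finsupp.single i 1) g else 0 := rfl

open Classical in
theorem wp5_coeff_X_mul_piece (g : MvPowerSeries (Fin d) 𝒪) (i : Fin d) (α : Fin d →₀ ℕ) :
    MvPowerSeries.coeff α (MvPowerSeries.X i * wp5Piece g i) =
      if wp5Sel α i then MvPowerSeries.coeff α g else 0 := by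
  rw [MvPowerSeries.X_def, MvPowerSeries.coeff_monomial_mul, one_mul]
  by_cases hle : Finsupp.single i 1 ≤ α
  · have hα : α - Finsupp.single i 1 + Finsupp.single i 1 = α := tsub_add_cancel_of_le hle
    rw [if_pos hle, wp5_coeff_piece, hα]
  · rw [if_neg hle, if_neg]
    intro hsel
    apply hle
    rw [Finsupp.single_le_iff]
    exact Nat.one_le_iff_ne_zero.mpr (wp5Sel_ne_zero hsel)

open Classical in
theorem wp5_decomp (g : MvPowerSeries (Fin d) 𝒪) :
    g = MvPowerSeries.C (MvPowerSeries.constantCoeff g) +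
      ∑ i : Fin d, MvPowerSeries.X i * wp5Piece g i := by
  ext α
  rw [map_add, map_sum]
  simp only [wp5_coeff_X_mul_piece]
  by_cases hα : α = 0
  · subst hα
    rw [MvPowerSeries.coeff_zero_C, Finset.sum_eq_zero, add_zero,
      MvPowerSeries.coeff_zero_eq_constantCoeff_apply]
    intro i _
    rw [if_neg]
    intro hsel
    exact wp5Sel_ne_zero hsel (by simp)
  · obtain ⟨i₀, hi₀⟩ := wp5_exists_sel hα
    rw [MvPowerSeries.coeff_C, if_neg hα, zero_add, Finset.sum_eq_single i₀, if_pos hi₀]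
    · intro j _ hj
      rw [if_neg]
      intro hsel
      exact hj (wp5Sel_unique hsel hi₀)
    · intro h
      exact absurd (Finset.mem_univ _) h

/-- A power series all of whose coefficients in degree `< m` vanish lies in the `m`-th power
of the ideal generated by the variables. -/
theorem wp5_mem_span_X_pow (m : ℕ) (g : MvPowerSeries (Fin d) 𝒪)
    (hg : ∀ α : Fin d →₀ ℕ, α.degree < m → MvPowerSeries.coeff α g = 0) :
    g ∈ (Ideal.span (Set.range (MvPowerSeries.X : Fin d → MvPowerSeries (Fin d) 𝒪))) ^ m := by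
  classical
  induction m generalizing g with
  | zero => simp
  | succ m ih =>
    rw [wp5_decomp g]
    have h0 : MvPowerSeries.constantCoeff g = 0 := by
      rw [← MvPowerSeries.coeff_zero_eq_constantCoeff_apply]
      exact hg 0 (by simp)
    rw [h0, map_zero, zero_add]
    refine Ideal.sum_mem _ fun i _ => ?_
    rw [pow_succ']
    refine Ideal.mul_mem_mul (Ideal.subset_span ⟨i, rfl⟩) (ih _ fun β hβ => ?_)
    rw [wp5_coeff_piece]
    split_ifs with h
    · apply hg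
      rw [map_add, Finsupp.degree_single]
      omega
    · rfl

theorem wp5_X_mem_maximalIdeal (i : Fin d) :
    (MvPowerSeries.X i : MvPowerSeries (Fin d) 𝒪) ∈ maximalIdeal (MvPowerSeries (Fin d) 𝒪) := by
  rw [wp5_mem_maximalIdeal_iff, ← MvPowerSeries.coeff_zero_eq_constantCoeff_apply,
    MvPowerSeries.coeff_zero_X]
  exact Ideal.zero_mem _

theorem wp5_span_X_le_maximalIdeal :
    Ideal.span (Set.range (MvPowerSeries.X : Fin d → MvPowerSeries (Fin d) 𝒪)) ≤
      maximalIdeal (MvPowerSeries (Fin d) 𝒪) := by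
  rw [Ideal.span_le]
  rintro _ ⟨i, rfl⟩
  exact wp5_X_mem_maximalIdeal i

theorem wp5_C_mem_maximalIdeal_pow {a : 𝒪} {j : ℕ} (ha : a ∈ maximalIdeal 𝒪 ^ j) :
    (MvPowerSeries.C a : MvPowerSeries (Fin d) 𝒪) ∈
      maximalIdeal (MvPowerSeries (Fin d) 𝒪) ^ j := by
  have hle : Ideal.map (MvPowerSeries.C (σ := Fin d) (R := 𝒪)) (maximalIdeal 𝒪) ≤
      maximalIdeal (MvPowerSeries (Fin d) 𝒪) := by
    rw [Ideal.map_le_iff_le_comap]
    intro b hb
    rw [Ideal.mem_comap, wp5_mem_maximalIdeal_iff]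
    simpa using hb
  have := Ideal.mem_map_of_mem (MvPowerSeries.C (σ := Fin d) (R := 𝒪)) ha
  rw [Ideal.map_pow] at this
  exact Ideal.pow_right_mono hle j this

theorem wp5_monomial_mem (α : Fin d →₀ ℕ) {a : 𝒪} {j : ℕ} (ha : a ∈ maximalIdeal 𝒪 ^ j) :
    (MvPowerSeries.monomial α a : MvPowerSeries (Fin d) 𝒪) ∈
      maximalIdeal (MvPowerSeries (Fin d) 𝒪) ^ (j + α.degree) := by
  classical
  induction α using Finsupp.induction with
  | zero =>
    rw [MvPowerSeries.monomial_zero_eq_C_apply]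
    simpa using wp5_C_mem_maximalIdeal_pow ha
  | single_add i n β hi hn ih =>
    have hmon : (MvPowerSeries.monomial (Finsupp.single i n + β) a :
        MvPowerSeries (Fin d) 𝒪) = MvPowerSeries.X i ^ n * MvPowerSeries.monomial β a := by
      rw [MvPowerSeries.X_pow_eq, MvPowerSeries.monomial_mul_monomial, one_mul]
    rw [hmon, map_add, Finsupp.degree_single]
    have hpow : j + (n + β.degree) = n + (j + β.degree) := by ring
    rw [hpow, pow_add]
    exact Ideal.mul_mem_mul (Ideal.pow_mem_pow (wp5_X_mem_maximalIdeal i) n) ih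

theorem wp5_sub_truncTotal_mem (m : ℕ) (f : MvPowerSeries (Fin d) 𝒪) :
    f - ((MvPowerSeries.truncTotal m f : MvPolynomial (Fin d) 𝒪) : MvPowerSeries (Fin d) 𝒪) ∈
      maximalIdeal (MvPowerSeries (Fin d) 𝒪) ^ m := by
  refine Ideal.pow_right_mono wp5_span_X_le_maximalIdeal m (wp5_mem_span_X_pow m _ fun α hα => ?_)
  rw [map_sub, MvPolynomial.coeff_coe, MvPowerSeries.coeff_truncTotal _ hα, sub_self]

theorem wp5_coe_mem_of_coeff_mem (m : ℕ) (p : MvPolynomial (Fin d) 𝒪)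
    (hp : ∀ α : Fin d →₀ ℕ, MvPolynomial.coeff α p ∈ maximalIdeal 𝒪 ^ (m - α.degree)) :
    (p : MvPowerSeries (Fin d) 𝒪) ∈ maximalIdeal (MvPowerSeries (Fin d) 𝒪) ^ m := by
  classical
  rw [MvPolynomial.as_sum p]
  rw [show ((∑ v ∈ p.support, MvPolynomial.monomial v (MvPolynomial.coeff v p) :
      MvPolynomial (Fin d) 𝒪) : MvPowerSeries (Fin d) 𝒪) =
      ∑ v ∈ p.support, ((MvPolynomial.monomial v (MvPolynomial.coeff v p) :
        MvPolynomial (Fin d) 𝒪) : MvPowerSeries (Fin d) 𝒪) from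
    map_sum (MvPolynomial.coeToMvPowerSeries.ringHom (R := 𝒪) (σ := Fin d)) _ _]
  refine Ideal.sum_mem _ fun v _ => ?_
  rw [MvPolynomial.coe_monomial]
  have h := wp5_monomial_mem v (hp v)
  refine Ideal.pow_le_pow_right ?_ h
  omega

theorem wp5_coeffIdeal_le_maximalIdeal_pow (m : ℕ) :
    wp5CoeffIdeal 𝒪 d m ≤ maximalIdeal (MvPowerSeries (Fin d) 𝒪) ^ m := by
  intro f hf
  have h1 := wp5_sub_truncTotal_mem m f
  have h2 : ((MvPowerSeries.truncTotal m f : MvPolynomial (Fin d) 𝒪) :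
      MvPowerSeries (Fin d) 𝒪) ∈ maximalIdeal (MvPowerSeries (Fin d) 𝒪) ^ m := by
    refine wp5_coe_mem_of_coeff_mem m _ fun α => ?_
    rw [MvPowerSeries.coeff_truncTotal_eq_ite]
    split_ifs
    · exact hf α
    · exact Ideal.zero_mem _
  have := Ideal.add_mem _ h1 h2
  rwa [sub_add_cancel] at this

theorem wp5_maximalIdeal_pow_eq_coeffIdeal (m : ℕ) :
    maximalIdeal (MvPowerSeries (Fin d) 𝒪) ^ m = wp5CoeffIdeal 𝒪 d m :=
  le_antisymm (wp5_maximalIdeal_pow_le_coeffIdeal m) (wp5_coeffIdeal_le_maximalIdeal_pow m)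

end WP5

/-- WP5b: polynomials are dense. -/
theorem exists_mvPolynomial_sub_mem_pow (𝒪 : Type) [CommRing 𝒪] [IsLocalRing 𝒪] (d : ℕ)
    (f : MvPowerSeries (Fin d) 𝒪) (n : ℕ) :
    ∃ p : MvPolynomial (Fin d) 𝒪, f - (p : MvPowerSeries (Fin d) 𝒪) ∈
      maximalIdeal (MvPowerSeries (Fin d) 𝒪) ^ n :=
  ⟨MvPowerSeries.truncTotal n f, wp5_sub_truncTotal_mem n f⟩

/-- WP5a. -/
theorem isAdicComplete_maximalIdeal_mvPowerSeries (𝒪 : Type) [CommRing 𝒪] [IsLocalRing 𝒪]
    [IsNoetherianRing 𝒪] [IsAdicComplete (maximalIdeal 𝒪) 𝒪] (d : ℕ) :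
    IsAdicComplete (maximalIdeal (MvPowerSeries (Fin d) 𝒪)) (MvPowerSeries (Fin d) 𝒪) := by
  have hprec : IsPrecomplete (maximalIdeal 𝒪) 𝒪 := inferInstance
  have hhaus : IsHausdorff (maximalIdeal 𝒪) 𝒪 := inferInstance
  refine { haus' := ?_, prec' := ?_ }
  · intro f hf
    ext α
    rw [map_zero]
    refine hhaus.haus' _ fun n => ?_
    have h := hf (n + α.degree)
    rw [SModEq.zero, smul_eq_mul, Ideal.mul_top] at h ⊢
    have h' := wp5_maximalIdeal_pow_le_coeffIdeal _ h α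
    simpa using h'
  · intro f hf
    -- coefficientwise limits
    have hcoeff : ∀ α : Fin d →₀ ℕ, ∃ L : 𝒪, ∀ n,
        MvPowerSeries.coeff α (f (n + α.degree)) ≡ L
          [SMOD (maximalIdeal 𝒪 ^ n • ⊤ : Submodule 𝒪 𝒪)] := by
      intro α
      refine hprec.prec' (fun n => MvPowerSeries.coeff α (f (n + α.degree))) ?_
      intro m n hmn
      have h := hf (m := m + α.degree) (n := n + α.degree) (by omega)
      rw [SModEq.sub_mem, smul_eq_mul, Ideal.mul_top] at h ⊢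
      have h' := wp5_maximalIdeal_pow_le_coeffIdeal _ h α
      rw [map_sub] at h'
      simpa using h'
    choose L hL using hcoeff
    let Lps : MvPowerSeries (Fin d) 𝒪 := fun α => L α
    have hLps : ∀ α, MvPowerSeries.coeff α Lps = L α := fun α => rfl
    refine ⟨Lps, fun n => ?_⟩
    rw [SModEq.sub_mem, smul_eq_mul, Ideal.mul_top]
    apply wp5_coeffIdeal_le_maximalIdeal_pow
    intro α
    by_cases hn : n ≤ α.degree
    · have h0 : n - α.degree = 0 := by omega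
      rw [h0, pow_zero, Ideal.one_eq_top]
      exact Submodule.mem_top
    · have hk : n = (n - α.degree) + α.degree := by omega
      have h := hL α (n - α.degree)
      rw [← hk, SModEq.sub_mem, smul_eq_mul, Ideal.mul_top] at h
      rw [map_sub, hLps]
      exact h

/-- WP5c: evaluation at nilpotent-mod-`J` elements. -/
theorem exists_algHom_mvPowerSeries (𝒪 : Type) [CommRing 𝒪] [IsLocalRing 𝒪] (d : ℕ)
    {B : Type} [CommRing B] [Algebra 𝒪 B] (I : Ideal B) (n : ℕ) (hI : I ^ n = ⊥)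
    (h𝒪 : ∀ a ∈ maximalIdeal 𝒪, algebraMap 𝒪 B a ∈ I) (t : Fin d → B) (ht : ∀ i, t i ∈ I) :
    ∃ ψ : MvPowerSeries (Fin d) 𝒪 →ₐ[𝒪] B,
      (∀ p : MvPolynomial (Fin d) 𝒪, ψ (p : MvPowerSeries (Fin d) 𝒪) = MvPolynomial.aeval t p) ∧
      ∀ f ∈ maximalIdeal (MvPowerSeries (Fin d) 𝒪) ^ n, ψ f = 0 := by
  classical
  -- the polynomial evaluation kills `idealOfVars ^ n`
  have hvars : Ideal.map (MvPolynomial.aeval (R := 𝒪) t : MvPolynomial (Fin d) 𝒪 →ₐ[𝒪] B)
      (MvPolynomial.idealOfVars (Fin d) 𝒪) ≤ I := by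
    rw [MvPolynomial.idealOfVars, Ideal.map_span, Ideal.span_le]
    rintro _ ⟨_, ⟨i, rfl⟩, rfl⟩
    simpa using ht i
  have hker : ∀ a ∈ MvPolynomial.idealOfVars (Fin d) 𝒪 ^ n,
      (MvPolynomial.aeval (R := 𝒪) t : MvPolynomial (Fin d) 𝒪 →ₐ[𝒪] B) a = 0 := by
    intro a ha
    have h1 : (MvPolynomial.aeval (R := 𝒪) t : MvPolynomial (Fin d) 𝒪 →ₐ[𝒪] B) a ∈
        Ideal.map (MvPolynomial.aeval (R := 𝒪) t : MvPolynomial (Fin d) 𝒪 →ₐ[𝒪] B)
          (MvPolynomial.idealOfVars (Fin d) 𝒪 ^ n) := Ideal.mem_map_of_mem _ ha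
    rw [Ideal.map_pow] at h1
    have h2 := Ideal.pow_right_mono hvars n h1
    rw [hI] at h2
    simpa using h2
  let φ2 : (MvPolynomial (Fin d) 𝒪 ⧸ MvPolynomial.idealOfVars (Fin d) 𝒪 ^ n) →ₐ[𝒪] B :=
    Ideal.Quotient.liftₐ (MvPolynomial.idealOfVars (Fin d) 𝒪 ^ n)
      (MvPolynomial.aeval (R := 𝒪) t) hker
  let φ1 : MvPowerSeries (Fin d) 𝒪 →ₐ[𝒪]
      (MvPolynomial (Fin d) 𝒪 ⧸ MvPolynomial.idealOfVars (Fin d) 𝒪 ^ n) :=
    (MvPowerSeries.truncTotalAlgHom (Fin d) 𝒪 n).restrictScalars 𝒪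
  let ψ : MvPowerSeries (Fin d) 𝒪 →ₐ[𝒪] B := φ2.comp φ1
  have hψ : ∀ f : MvPowerSeries (Fin d) 𝒪,
      ψ f = MvPolynomial.aeval t (MvPowerSeries.truncTotal n f) := fun f => rfl
  have hψpoly : ∀ p : MvPolynomial (Fin d) 𝒪,
      ψ (p : MvPowerSeries (Fin d) 𝒪) = MvPolynomial.aeval t p := by
    intro p
    have h1 : φ1 (p : MvPowerSeries (Fin d) 𝒪) =
        Ideal.Quotient.mk (MvPolynomial.idealOfVars (Fin d) 𝒪 ^ n) p :=
      (MvPowerSeries.truncTotalAlgHom (Fin d) 𝒪 n).commutes p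
    show φ2 (φ1 (p : MvPowerSeries (Fin d) 𝒪)) = _
    rw [h1]
    rfl
  refine ⟨ψ, hψpoly, ?_⟩
  -- `ψ` maps the maximal ideal into `I`
  have hmax : Ideal.map ψ (maximalIdeal (MvPowerSeries (Fin d) 𝒪)) ≤ I := by
    rw [Ideal.map_le_iff_le_comap]
    intro f hf
    rw [Ideal.mem_comap, wp5_decomp f, map_add, map_sum]
    refine Ideal.add_mem _ ?_ (Ideal.sum_mem _ fun i _ => ?_)
    · have hC : (MvPowerSeries.C (MvPowerSeries.constantCoeff f) : MvPowerSeries (Fin d) 𝒪) =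
          algebraMap 𝒪 (MvPowerSeries (Fin d) 𝒪) (MvPowerSeries.constantCoeff f) := rfl
      rw [hC, AlgHom.commutes]
      exact h𝒪 _ ((wp5_mem_maximalIdeal_iff f).mp hf)
    · rw [map_mul]
      have hX : ψ (MvPowerSeries.X i) = t i := by
        have := hψpoly (MvPolynomial.X i)
        rwa [MvPolynomial.coe_X, MvPolynomial.aeval_X] at this
      rw [hX]
      exact Ideal.mul_mem_right _ _ (ht i)
  intro f hf
  have h1 : ψ f ∈ Ideal.map ψ (maximalIdeal (MvPowerSeries (Fin d) 𝒪) ^ n) :=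
    Ideal.mem_map_of_mem _ hf
  rw [Ideal.map_pow] at h1
  have h2 := Ideal.pow_right_mono hmax n h1
  rw [hI] at h2
  simpa using h2

end Fermat.Agent.S53
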