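import Fermat.Agent.S53.Good
import Fermat.Agent.S53.DualNumberHom

set_option autoImplicit false
set_option linter.unusedSectionVars false
set_option linter.unusedVariables false
set_option linter.style.haveILetI false

open IsLocalRing

namespace Fermat.Agent.S53

section ResidueFieldTest

variable {𝒪 : Type} [CommRing 𝒪] [IsLocalRing 𝒪]

theorem isLocalHom_algebraMap_residueField :
    IsLocalHom (algebraMap 𝒪 (ResidueField 𝒪)) := by
  rw [ResidueField.algebraMap_eq]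
  infer_instance

theorem residue_field_bijective (k : Type) [Field k] : Function.Bijective (residue k) := by
  constructor
  · rw [injective_iff_map_eq_zero]
    intro x hx
    rw [IsLocalRing.residue_eq_zero_iff] at hx
    by_contra hne
    exact (IsLocalRing.mem_maximalIdeal x).mp hx (isUnit_iff_ne_zero.mpr hne)
  · exact IsLocalRing.residue_surjective

theorem isArtinianTestAlgebra_residueField :
    GaloisRep.IsArtinianTestAlgebra 𝒪 (ResidueField 𝒪) where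
  isLocalHom := isLocalHom_algebraMap_residueField
  residue_surjective := by
    intro x
    obtain ⟨y, rfl⟩ := IsLocalRing.residue_surjective x
    obtain ⟨a, rfl⟩ := IsLocalRing.residue_surjective y
    exact ⟨a, rfl⟩
  isArtinian := inferInstance

variable {ρbar : ResidualGaloisRep (ResidueField 𝒪)}
  {𝒟 : ∀ ⦃A : Type⦄ [CommRing A] [IsLocalRing A] [Algebra 𝒪 A], GaloisRepAdic A → Prop}
  {γ : Fin 4 → GalQ} {cbar : GalQ → Fin 4 → ResidueField 𝒪}

theorem isFrameFor_ofResidual (hγ : IsResFrame ρbar γ) :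
    IsFrameFor (GaloisRepAdic.ofResidualGaloisRep ρbar) γ := by
  have hli : LinearIndependent (ResidueField 𝒪) (fun i => ρbar.ρ (γ i)) := hγ
  refine ⟨hli, ?_⟩
  have hfr : Module.finrank (ResidueField 𝒪) (Module.End (ResidueField 𝒪) ρbar.V) = 4 := by
    rw [Module.finrank_linearMap, ρbar.finrank_eq]
  exact hli.span_eq_top_of_card_eq_finrank' (by rw [Fintype.card_fin, hfr])

theorem good_maxPol (H : Setup 𝒪 ρbar 𝒟 γ cbar) [Finite (ResidueField 𝒪)]
    (hbar : 𝒟 (GaloisRepAdic.ofResidualGaloisRep ρbar)) :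
    Good 𝒪 𝒟 γ cbar (maxPol cbar) := by
  haveI : IsLocalHom (algebraMap 𝒪 (ResidueField 𝒪)) := isLocalHom_algebraMap_residueField
  have hd : IsDefo 𝒪 𝒟 γ cbar (GaloisRepAdic.ofResidualGaloisRep ρbar) cbar := by
    refine ⟨hbar, isFrameFor_ofResidual H.hγ, H.hcbar, ?_⟩
    intro σ i
    obtain ⟨a, ha⟩ := IsLocalRing.residue_surjective (cbar σ i)
    rw [← ha, resMap, ResidueField.map_residue]
    rfl
  exact good_ker_ev H isArtinianTestAlgebra_residueField _ cbar hd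

end ResidueFieldTest

section Dual

variable (𝒪 : Type) [CommRing 𝒪] [IsLocalRing 𝒪]

/-- The `𝒪`-algebra structure on the dual numbers used by `GaloisRep.TangentFinite`. -/
@[reducible] noncomputable def dualAlg : Algebra 𝒪 (DualNumber (ResidueField 𝒪)) :=
  ((algebraMap (ResidueField 𝒪) (DualNumber (ResidueField 𝒪))).comp
      (algebraMap 𝒪 (ResidueField 𝒪))).toAlgebra

/-- The map on residue fields used by `GaloisRep.TangentFinite`. -/
noncomputable def dualι : ResidueField 𝒪 →+* ResidueField (DualNumber (ResidueField 𝒪)) :=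
  (residue (DualNumber (ResidueField 𝒪))).comp
    (algebraMap (ResidueField 𝒪) (DualNumber (ResidueField 𝒪)))

theorem dual_algebraMap_fst (a : 𝒪) :
    letI := dualAlg 𝒪
    (algebraMap 𝒪 (DualNumber (ResidueField 𝒪)) a).fst = residue 𝒪 a := rfl

theorem dual_isLocalHom :
    letI := dualAlg 𝒪
    IsLocalHom (algebraMap 𝒪 (DualNumber (ResidueField 𝒪))) := by
  letI := dualAlg 𝒪
  constructor
  intro a ha
  have h1 : IsUnit (algebraMap 𝒪 (DualNumber (ResidueField 𝒪)) a).fst :=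
    TrivSqZeroExt.isUnit_iff_isUnit_fst.mp ha
  rw [dual_algebraMap_fst] at h1
  exact isUnit_of_map_unit (residue 𝒪) a h1

instance dual_finite [Finite (ResidueField 𝒪)] : Finite (DualNumber (ResidueField 𝒪)) :=
  inferInstanceAs (Finite (ResidueField 𝒪 × ResidueField 𝒪))

theorem dual_test [Finite (ResidueField 𝒪)] :
    letI := dualAlg 𝒪
    GaloisRep.IsArtinianTestAlgebra 𝒪 (DualNumber (ResidueField 𝒪)) := by
  letI := dualAlg 𝒪
  refine ⟨dual_isLocalHom 𝒪, ?_, inferInstance⟩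
  intro x
  obtain ⟨y, rfl⟩ := IsLocalRing.residue_surjective x
  obtain ⟨a, ha⟩ := IsLocalRing.residue_surjective y.fst
  refine ⟨a, ?_⟩
  simp only [Function.comp_apply]
  rw [← sub_eq_zero, ← map_sub, IsLocalRing.residue_eq_zero_iff, IsLocalRing.mem_maximalIdeal,
    mem_nonunits_iff, TrivSqZeroExt.isUnit_iff_isUnit_fst, TrivSqZeroExt.fst_sub,
    dual_algebraMap_fst, ha, sub_self]
  exact not_isUnit_zero

theorem dual_resMap_eq :
    letI := dualAlg 𝒪
    haveI := dual_isLocalHom 𝒪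
    resMap 𝒪 (DualNumber (ResidueField 𝒪)) = dualι 𝒪 := by
  letI := dualAlg 𝒪
  haveI := dual_isLocalHom 𝒪
  ext x
  obtain ⟨a, rfl⟩ := IsLocalRing.residue_surjective x
  rw [resMap, ResidueField.map_residue]
  rfl

end Dual

section TangentSet

variable {𝒪 : Type} [CommRing 𝒪] [IsLocalRing 𝒪]
  {ρbar : ResidualGaloisRep (ResidueField 𝒪)}
  {𝒟 : ∀ ⦃A : Type⦄ [CommRing A] [IsLocalRing A] [Algebra 𝒪 A], GaloisRepAdic A → Prop}
  {γ : Fin 4 → GalQ} {cbar : GalQ → Fin 4 → ResidueField 𝒪}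

/-- The type of tangent deformations. -/
def TangentDefo (𝒪 : Type) [CommRing 𝒪] [IsLocalRing 𝒪]
    (ρbar : ResidualGaloisRep (ResidueField 𝒪))
    (𝒟 : ∀ ⦃A : Type⦄ [CommRing A] [IsLocalRing A] [Algebra 𝒪 A], GaloisRepAdic A → Prop) :
    Type 1 :=
  letI := dualAlg 𝒪
  {ρ : GaloisRepAdic (DualNumber (ResidueField 𝒪)) //
    𝒟 ρ ∧ ρ.residual.IsEquiv (ρbar.baseChangeAlong (dualι 𝒪))}

/-- The equivalence relation on tangent deformations. -/
def tangentSetoid (𝒪 : Type) [CommRing 𝒪] [IsLocalRing 𝒪]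
    (ρbar : ResidualGaloisRep (ResidueField 𝒪))
    (𝒟 : ∀ ⦃A : Type⦄ [CommRing A] [IsLocalRing A] [Algebra 𝒪 A], GaloisRepAdic A → Prop) :
    Setoid (TangentDefo 𝒪 ρbar 𝒟) :=
  ⟨fun ρ ρ' => ρ.1.IsEquiv ρ'.1, ⟨fun ρ => ⟨GaloisRepAdic.Equiv.refl ρ.1⟩,
        fun ⟨e⟩ => ⟨e.symm⟩, fun ⟨e⟩ ⟨e'⟩ => ⟨e.trans e'⟩⟩⟩

theorem finite_quotient_tangentSetoid (hfin : GaloisRep.TangentFinite 𝒪 ρbar 𝒟) :
    Finite (Quotient (tangentSetoid 𝒪 ρbar 𝒟)) := hfin


theorem TangentDefo.exists_isDefo (H : Setup 𝒪 ρbar 𝒟 γ cbar) (ρ : TangentDefo 𝒪 ρbar 𝒟) :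
    letI := dualAlg 𝒪
    haveI := dual_isLocalHom 𝒪
    ∃ c : GalQ → Fin 4 → DualNumber (ResidueField 𝒪), IsDefo 𝒪 𝒟 γ cbar ρ.1 c := by
  letI := dualAlg 𝒪
  haveI := dual_isLocalHom 𝒪
  obtain ⟨hf, c, hc, hred⟩ :=
    isFrameFor_of_residual_isEquiv ρbar γ H.hγ cbar H.hcbar (dualι 𝒪) ρ.1 ρ.2.2
  refine ⟨c, ρ.2.1, hf, hc, ?_⟩
  intro σ i
  rw [dual_resMap_eq]
  exact hred σ i

/-- The kernel of the classifying map of a tangent deformation. -/
noncomputable def tangentKer (H : Setup 𝒪 ρbar 𝒟 γ cbar) (ρ : TangentDefo 𝒪 ρbar 𝒟) :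
    Ideal (Pol 𝒪) :=
  letI := dualAlg 𝒪
  RingHom.ker (ev (𝒪 := 𝒪) (Classical.choose (TangentDefo.exists_isDefo H ρ)) :
    Pol 𝒪 →+* DualNumber (ResidueField 𝒪))

theorem tangentKer_eq (H : Setup 𝒪 ρbar 𝒟 γ cbar) (ρ : TangentDefo 𝒪 ρbar 𝒟)
    (c : GalQ → Fin 4 → DualNumber (ResidueField 𝒪))
    (hf : IsFrameFor ρ.1 γ) (hc : HasStructConst ρ.1 γ c) :
    letI := dualAlg 𝒪
    tangentKer H ρ = RingHom.ker (ev (𝒪 := 𝒪) c : Pol 𝒪 →+* DualNumber (ResidueField 𝒪)) := by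
  letI := dualAlg 𝒪
  haveI := dual_isLocalHom 𝒪
  have h := Classical.choose_spec (TangentDefo.exists_isDefo H ρ)
  have : Classical.choose (TangentDefo.exists_isDefo H ρ) = c :=
    structConst_unique hf h.struct hc
  rw [tangentKer, this]

theorem tangentKer_good (H : Setup 𝒪 ρbar 𝒟 γ cbar) [Finite (ResidueField 𝒪)]
    (ρ : TangentDefo 𝒪 ρbar 𝒟) : Good 𝒪 𝒟 γ cbar (tangentKer H ρ) := by
  letI := dualAlg 𝒪
  haveI := dual_isLocalHom 𝒪
  have h := Classical.choose_spec (TangentDefo.exists_isDefo H ρ)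
  exact good_ker_ev H (dual_test 𝒪) ρ.1 _ h

theorem tangentKer_congr (H : Setup 𝒪 ρbar 𝒟 γ cbar) (ρ ρ' : TangentDefo 𝒪 ρbar 𝒟)
    (e : ρ.1.IsEquiv ρ'.1) : tangentKer H ρ = tangentKer H ρ' := by
  letI := dualAlg 𝒪
  haveI := dual_isLocalHom 𝒪
  have h := Classical.choose_spec (TangentDefo.exists_isDefo H ρ)
  have h' := Classical.choose_spec (TangentDefo.exists_isDefo H ρ')
  have h1 : HasStructConst ρ'.1 γ (Classical.choose (TangentDefo.exists_isDefo H ρ)) :=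
    hasStructConst_of_isEquiv ρ.1 ρ'.1 e γ _ h.struct
  rw [tangentKer_eq H ρ' _ h'.frame h1]
  rfl

theorem finite_range_tangentKer (H : Setup 𝒪 ρbar 𝒟 γ cbar)
    (hfin : GaloisRep.TangentFinite 𝒪 ρbar 𝒟) : (Set.range (tangentKer H)).Finite := by
  haveI := finite_quotient_tangentSetoid hfin
  let K : Quotient (tangentSetoid 𝒪 ρbar 𝒟) → Ideal (Pol 𝒪) :=
    Quotient.lift (tangentKer H) (fun ρ ρ' e => tangentKer_congr H ρ ρ' e)
  have : Set.range (tangentKer H) = Set.range K := by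
    ext x
    constructor
    · rintro ⟨ρ, rfl⟩
      exact ⟨Quotient.mk _ ρ, rfl⟩
    · rintro ⟨q, rfl⟩
      induction q using Quotient.inductionOn with
      | h ρ => exact ⟨ρ, rfl⟩
  rw [this]
  exact Set.finite_range K

theorem Good.sInf_finite (H : Setup 𝒪 ρbar 𝒟 γ cbar) [Finite (ResidueField 𝒪)]
    (hbar : 𝒟 (GaloisRepAdic.ofResidualGaloisRep ρbar))
    (S : Set (Ideal (Pol 𝒪))) (hS : S.Finite) (hgood : ∀ J ∈ S, Good 𝒪 𝒟 γ cbar J) :
    Good 𝒪 𝒟 γ cbar (maxPol cbar ⊓ sInf S) := by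
  induction S, hS using Set.Finite.induction_on with
  | empty =>
    rw [sInf_empty, inf_top_eq]
    exact good_maxPol H hbar
  | @insert a s ha hs ih =>
    rw [sInf_insert, ← inf_assoc, inf_comm (maxPol cbar) a, inf_assoc]
    exact Good.inf H (hgood a (Set.mem_insert a s))
      (ih fun J hJ => hgood J (Set.mem_insert_of_mem a hJ))

/-- The tangent step: there is a smallest good ideal containing `maxPol ^ 2` and `𝔪_𝒪`. -/
theorem exists_tangent_min (H : Setup 𝒪 ρbar 𝒟 γ cbar) [Finite (ResidueField 𝒪)]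
    (hbar : 𝒟 (GaloisRepAdic.ofResidualGaloisRep ρbar))
    (hfin : GaloisRep.TangentFinite 𝒪 ρbar 𝒟) :
    ∃ J₂ : Ideal (Pol 𝒪), Good 𝒪 𝒟 γ cbar J₂ ∧
      ∀ J, Good 𝒪 𝒟 γ cbar J → maxPol cbar ^ 2 ≤ J →
        (maximalIdeal 𝒪).map (algebraMap 𝒪 (Pol 𝒪)) ≤ J → J₂ ≤ J := by
  refine ⟨maxPol cbar ⊓ sInf (Set.range (tangentKer H)),
    Good.sInf_finite H hbar _ (finite_range_tangentKer H hfin) ?_, ?_⟩
  · rintro J ⟨ρ, rfl⟩
    exact tangentKer_good H ρ
  · intro J hJ hsq hπ p hp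
    by_contra hpJ
    obtain ⟨A, _, _, _, _, hA, ρ, c, hd, hsurj, rfl⟩ := hJ
    have hT : IsTestQuot cbar (ev (𝒪 := 𝒪) c) :=
      ⟨hsurj, ker_ev_le hd.red, ⟨2, hsq⟩⟩
    have hv : ev (𝒪 := 𝒪) c p ∈ maximalIdeal A :=
      (ev_mem_maximalIdeal_iff hd.red p).mpr hp.1
    have hv0 : ev (𝒪 := 𝒪) c p ≠ 0 := fun h0 => hpJ (by rw [RingHom.mem_ker]; exact h0)
    have hsqA : maximalIdeal A ^ 2 = ⊥ := by
      rw [← hT.map_maxPol, ← Ideal.map_pow, eq_bot_iff, Ideal.map_le_iff_le_comap]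
      intro x hx
      have := hsq hx
      rw [RingHom.mem_ker] at this
      simpa [Ideal.mem_comap] using this
    have hπA : ∀ a ∈ maximalIdeal 𝒪, algebraMap 𝒪 A a = 0 := by
      intro a ha
      have h1 : algebraMap 𝒪 (Pol 𝒪) a ∈ RingHom.ker (ev (𝒪 := 𝒪) c : Pol 𝒪 →+* A) :=
        hπ (Ideal.mem_map_of_mem _ ha)
      rw [RingHom.mem_ker] at h1
      rw [← h1]
      exact (AlgHom.commutes (ev (𝒪 := 𝒪) c) a).symm
    obtain ⟨φ, hφ, hφv⟩ := exists_algHom_dualNumber 𝒪 hA.isLocalHom hA.residue_surjective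
      hsqA hπA _ hv hv0
    letI := dualAlg 𝒪
    haveI := dual_isLocalHom 𝒪
    have hd' := IsDefo.map H hA (dual_test 𝒪) φ hφ hd
    have hres : (ρ.baseChangeAlong (φ : A →+* DualNumber (ResidueField 𝒪)) hφ).residual.IsEquiv
        (ρbar.baseChangeAlong (dualι 𝒪)) := by
      refine residual_isEquiv_of_isFrameFor ρbar γ H.hγ cbar H.hcbar (dualι 𝒪) _ hd'.frame _
        hd'.struct ?_
      intro σ i
      rw [← dual_resMap_eq]
      exact hd'.red σ i
    let τ : TangentDefo 𝒪 ρbar 𝒟 := ⟨_, hd'.isOfType, hres⟩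
    have hmem : p ∈ tangentKer H τ := by
      have h1 : sInf (Set.range (tangentKer H)) ≤ tangentKer H τ := sInf_le ⟨τ, rfl⟩
      exact h1 hp.2
    rw [tangentKer_eq H τ _ hd'.frame hd'.struct, RingHom.mem_ker] at hmem
    apply hφv
    rw [ev_comp_apply]
    exact hmem

end TangentSet

end Fermat.Agent.S53
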