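import Fermat.Agent.S53.Tangent
import Fermat.Agent.S53.LimitRing
import Fermat.Agent.S53.LimitMap

set_option autoImplicit false
set_option linter.unusedSectionVars false
set_option linter.unusedVariables false
set_option linter.style.haveILetI false

open IsLocalRing

namespace Fermat.Agent.S53

section Generators

variable {𝒪 : Type} [CommRing 𝒪] [IsLocalRing 𝒪]
  {ρbar : ResidualGaloisRep (ResidueField 𝒪)}
  {𝒟 : ∀ ⦃A : Type⦄ [CommRing A] [IsLocalRing A] [Algebra 𝒪 A], GaloisRepAdic A → Prop}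
  {γ : Fin 4 → GalQ} {cbar : GalQ → Fin 4 → ResidueField 𝒪}

theorem Good.finite_quotient [Finite (ResidueField 𝒪)] {J : Ideal (Pol 𝒪)}
    (h : Good 𝒪 𝒟 γ cbar J) : Finite (Pol 𝒪 ⧸ J) := by
  obtain ⟨A, _, _, _, _, hA, ρ, c, hd, hsurj, rfl⟩ := h
  haveI : Finite A := finite_of_isArtinianTestAlgebra hA
  exact Finite.of_injective _ (RingHom.kerLift_injective (ev (𝒪 := 𝒪) c : Pol 𝒪 →+* A))

theorem map_maximalIdeal_le_maxPol (cbar : GalQ → Fin 4 → ResidueField 𝒪) :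
    (maximalIdeal 𝒪).map (algebraMap 𝒪 (Pol 𝒪)) ≤ maxPol cbar := by
  rw [Ideal.map_le_iff_le_comap]
  intro a ha
  rw [Ideal.mem_comap, MvPolynomial.algebraMap_eq]
  exact C_mem_maxPol cbar ha

theorem exists_generators (H : Setup 𝒪 ρbar 𝒟 γ cbar) [Finite (ResidueField 𝒪)]
    (hbar : 𝒟 (GaloisRepAdic.ofResidualGaloisRep ρbar))
    (hfin : GaloisRep.TangentFinite 𝒪 ρbar 𝒟) :
    ∃ (d : ℕ) (t : Fin d → Pol 𝒪), (∀ i, t i ∈ maxPol cbar) ∧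
      ∀ J, Good 𝒪 𝒟 γ cbar J → maxPol cbar ≤ Ideal.span (Set.range t) ⊔
        (maximalIdeal 𝒪).map (algebraMap 𝒪 (Pol 𝒪)) ⊔ maxPol cbar ^ 2 ⊔ J := by
  obtain ⟨J₂, hJ₂, hmin⟩ := exists_tangent_min H hbar hfin
  haveI : Finite (Pol 𝒪 ⧸ J₂) := hJ₂.finite_quotient
  set S : Set (Pol 𝒪 ⧸ J₂) := (Ideal.Quotient.mk J₂) '' (maxPol cbar : Set (Pol 𝒪)) with hS
  haveI : Finite S := Set.Finite.to_subtype (Set.toFinite S)
  let e : S ≃ Fin (Nat.card S) := Finite.equivFin S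
  have hex : ∀ i : Fin (Nat.card S), ∃ p ∈ maxPol cbar, Ideal.Quotient.mk J₂ p = (e.symm i).1 :=
    fun i => (e.symm i).2
  choose t ht htmk using hex
  refine ⟨Nat.card S, t, ht, fun J hJ => ?_⟩
  have hle : J ⊔ (maxPol cbar ^ 2 ⊔ (maximalIdeal 𝒪).map (algebraMap 𝒪 (Pol 𝒪))) ≤
      maxPol cbar :=
    sup_le hJ.le_maxPol (sup_le (Ideal.pow_le_self (by norm_num))
      (map_maximalIdeal_le_maxPol cbar))
  have hgood := Good.of_le H hJ le_sup_left hle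
  have hJ₂le := hmin _ hgood (le_sup_of_le_right le_sup_left) (le_sup_of_le_right le_sup_right)
  intro p hp
  have hpS : Ideal.Quotient.mk J₂ p ∈ S := ⟨p, hp, rfl⟩
  have h1 : Ideal.Quotient.mk J₂ (t (e ⟨_, hpS⟩)) = Ideal.Quotient.mk J₂ p := by
    rw [htmk, Equiv.symm_apply_apply]
  rw [Ideal.Quotient.eq] at h1
  have h2 : p = t (e ⟨_, hpS⟩) + (p - t (e ⟨_, hpS⟩)) := by ring
  rw [h2]
  refine Ideal.add_mem _ ?_ ?_
  · exact (le_sup_of_le_left (le_sup_of_le_left le_sup_left) :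
      Ideal.span (Set.range t) ≤ _) (Ideal.subset_span ⟨_, rfl⟩)
  · have h3 : p - t (e ⟨_, hpS⟩) ∈ J₂ := by
      have := J₂.neg_mem h1
      simpa using this
    have h4 := hJ₂le h3
    refine (?_ : J ⊔ (maxPol cbar ^ 2 ⊔ (maximalIdeal 𝒪).map (algebraMap 𝒪 (Pol 𝒪))) ≤ _) h4
    refine sup_le le_sup_right (sup_le ?_ ?_)
    · exact le_sup_of_le_left le_sup_right
    · exact le_sup_of_le_left (le_sup_of_le_left le_sup_right)

theorem mk_maxPol_comp_algebraMap_surjective (cbar : GalQ → Fin 4 → ResidueField 𝒪) :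
    Function.Surjective ((Ideal.Quotient.mk (maxPol cbar)).comp (algebraMap 𝒪 (Pol 𝒪))) := by
  intro x
  obtain ⟨p, rfl⟩ := Ideal.Quotient.mk_surjective x
  obtain ⟨a, ha⟩ := IsLocalRing.residue_surjective (ev (𝒪 := 𝒪) cbar p)
  refine ⟨a, ?_⟩
  rw [RingHom.comp_apply, Ideal.Quotient.eq, mem_maxPol, map_sub, MvPolynomial.algebraMap_eq,
    ev_C, ← ha]
  exact sub_self _

/-- A tower of minimal good ideals. -/
structure IsTower (𝒪 : Type) [CommRing 𝒪] [IsLocalRing 𝒪]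
    (𝒟 : ∀ ⦃A : Type⦄ [CommRing A] [IsLocalRing A] [Algebra 𝒪 A], GaloisRepAdic A → Prop)
    (γ : Fin 4 → GalQ) (cbar : GalQ → Fin 4 → ResidueField 𝒪)
    (J : ℕ → Ideal (Pol 𝒪)) : Prop where
  good : ∀ n, 1 ≤ n → Good 𝒪 𝒟 γ cbar (J n)
  pow_le : ∀ n, maxPol cbar ^ n ≤ J n
  min : ∀ n J', Good 𝒪 𝒟 γ cbar J' → maxPol cbar ^ n ≤ J' → J n ≤ J'

theorem IsTower.J_one {J : ℕ → Ideal (Pol 𝒪)} (hT : IsTower 𝒪 𝒟 γ cbar J) :
    J 1 = maxPol cbar :=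
  le_antisymm (hT.good 1 le_rfl).le_maxPol (by simpa using hT.pow_le 1)

theorem IsTower.toR_mem_maximalIdeal {J : ℕ → Ideal (Pol 𝒪)} (hT : IsTower 𝒪 𝒟 γ cbar J)
    (D : LimitRingData 𝒪 (Pol 𝒪) J) {p : Pol 𝒪} (hp : p ∈ maxPol cbar) :
    D.toR p ∈ maximalIdeal D.R := by
  have h1 : D.toR p ∈ RingHom.ker (D.proj 1 : D.R →+* Pol 𝒪 ⧸ J 1) := by
    rw [RingHom.mem_ker]
    change D.proj 1 (D.toR p) = 0
    rw [D.proj_toR, Ideal.Quotient.eq_zero_iff_mem, hT.J_one]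
    exact hp
  rw [D.ker_proj, pow_one] at h1
  exact h1

theorem IsTower.residue_toR {J : ℕ → Ideal (Pol 𝒪)} (hT : IsTower 𝒪 𝒟 γ cbar J)
    (D : LimitRingData 𝒪 (Pol 𝒪) J) (p : Pol 𝒪) :
    residue D.R (D.toR p) = resMap 𝒪 D.R (ev (𝒪 := 𝒪) cbar p) := by
  obtain ⟨a, ha⟩ := IsLocalRing.residue_surjective (ev (𝒪 := 𝒪) cbar p)
  have h1 : p - MvPolynomial.C a ∈ maxPol cbar := by
    rw [mem_maxPol, map_sub, ev_C, ← ha]
    exact sub_self _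
  have h2 := hT.toR_mem_maximalIdeal D h1
  have h3 : D.toR (MvPolynomial.C a) = algebraMap 𝒪 D.R a := by
    rw [← MvPolynomial.algebraMap_eq, AlgHom.commutes]
  rw [map_sub, h3, ← IsLocalRing.residue_eq_zero_iff, map_sub, sub_eq_zero] at h2
  rw [h2, ← ha, resMap, ResidueField.map_residue]

/-- The universal structure constants. -/
noncomputable def cUniv {J : ℕ → Ideal (Pol 𝒪)} (D : LimitRingData 𝒪 (Pol 𝒪) J) :
    GalQ → Fin 4 → D.R :=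
  fun σ i => D.toR (MvPolynomial.X (σ, i))

theorem IsTower.residue_cUniv {J : ℕ → Ideal (Pol 𝒪)} (hT : IsTower 𝒪 𝒟 γ cbar J)
    (D : LimitRingData 𝒪 (Pol 𝒪) J) (σ : GalQ) (i : Fin 4) :
    residue D.R (cUniv D σ i) = resMap 𝒪 D.R (cbar σ i) := by
  rw [cUniv, hT.residue_toR, ev_X]

theorem ev_cUniv {J : ℕ → Ideal (Pol 𝒪)} (D : LimitRingData 𝒪 (Pol 𝒪) J) :
    ev (𝒪 := 𝒪) (cUniv D) = D.toR :=
  (algHom_eq_ev D.toR).symm

end Generators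

end Fermat.Agent.S53
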